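/-
S33lib / NB / RedRR  (helper9)   — Project LSp, track B: reduction of Riemann–Roch spaces on the
NODAL model.  Port of `S19lib/B/RedRR` (helper6) to `D : N.NRedDatum A F F₁ F₂` with
`C : LSb.NodalCtx D.nod g g₁ g₂`.

For a divisor `E` supported on the smooth locus (`D.SmoothSupp E`):

* `degree_push`         : `deg (push₁ E) + deg (push₂ E) = deg E`;
* `push₁_apply_x₁`, `push₂_apply_x₂` : the push-forwards vanish at the node points;
* `redSub_rr_le`        : `red (L(E) ∩ O) ≤ nodal (push₁ E) (push₂ E)`            (= (RED));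
* `ell_le_ell_nodal`    : **upper semicontinuity** `ℓ(E) ≤ ℓ_nod(push E)`;
* `redSub_rr_eq`        : equality in the stable range
                          `deg push₁ E > 2g₁ - 2`, `deg push₂ E > 2g₂ - 2 + s`;
* `exists_lift_of_mem_rr` : every `φ ∈ nodal (push E)` lifts to `L(E) ∩ O₁ ∩ O₂`;
* `exists_orthonormal_basis_rr` : a sup-norm orthonormal basis of `L(E)` whose reductions form a
                          basis of `nodal (push E)`;
* `ell_eq_of_stable`, `genus_eq_of_stable` : `ℓ(E) = deg E + 1 - g` in the stable range, and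
                          `g + 1 = g₁ + g₂ + s`;
* per component (`Dd : DiscDatum`): `exists_zero_over`, `existsUnique_zero_of_ord_eq_one`.
-/
import Mathlib
import Fermat.Agent.S19lib.B.RedRR
import Fermat.Agent.LSb.Core.RedSub
import Fermat.Agent.S33lib.N.Datum

set_option autoImplicit false
set_option linter.unusedSectionVars false

noncomputable section

namespace Fermat.Agent.S33lib.NB

open AlgebraicCurve Module
open Fermat.Agent.S18lib Fermat.Agent.LSb Fermat.Agent.S33lib.N
open Fermat.Agent.S19lib.B (ell ell_def exists_pos_of_mapDomain_pos existsUnique_pos_of_mapDomain_eq_one)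

variable {L : Type*} [Field L] {A : ValuationSubring L}
variable {F : Type*} [Field F] [Algebra L F] [HasPrincipalDivisors L F]

local notation "k" => IsLocalRing.ResidueField A

/-! ### push-forward along a partial map -/

section Push

variable {ι κ : Type*}

/-- the push-forward vanishes at a point which is not in the image -/
theorem pushO_apply_eq_zero (r : ι → Option κ) (E : ι →₀ ℤ) {Q : κ} (h : ∀ P, r P ≠ some Q) :
    pushO r E Q = 0 := by
  rw [pushO_apply]
  exact Finsupp.mapDomain_of_notMem_range _ _ (by rintro ⟨P, hP⟩; exact h P hP)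

end Push

/-! ### one component -/

section Disc

variable {Fk : Type*} [Field Fk] [Algebra (IsLocalRing.ResidueField A) Fk]
variable (Dd : DiscDatum A F Fk)

/-- a zero of the reduction at a good point lifts to a zero in the disc -/
theorem exists_zero_over {f : F} (hf : Dd.G.redF f ≠ 0) {Qb : Place k Fk} (hgood : Dd.Good Qb)
    (hQ : 0 < Qb.ord (Dd.G.redF f)) : ∃ P : Place L F, Dd.r P = some Qb ∧ 0 < P.ord f := by
  have h1 : 0 < Finsupp.mapDomain Dd.r (divOf (K := L) f) (some Qb) := by
    rw [← pushO_apply, Dd.pushO_divOf hf hgood]; exact hQ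
  obtain ⟨P, hP, hPpos⟩ := exists_pos_of_mapDomain_pos Dd.r h1
  rw [divOf_apply'] at hPpos
  exact ⟨P, hP, hPpos⟩

/-- **unique simple zero in a residue disc** -/
theorem existsUnique_zero_of_ord_eq_one {t : F} {Qb : Place k Fk} (hgood : Dd.Good Qb)
    (h1 : Qb.ord (Dd.G.redF t) = 1) (hnp : ∀ P : Place L F, Dd.r P = some Qb → 0 ≤ P.ord t) :
    ∃ P : Place L F, (Dd.r P = some Qb ∧ P.ord t = 1) ∧
      ∀ P' : Place L F, Dd.r P' = some Qb → 0 < P'.ord t → P' = P := by
  have ht : Dd.G.redF t ≠ 0 := by
    intro h0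
    rw [h0, Place.ord_zero] at h1
    exact zero_ne_one h1
  have h2 : Finsupp.mapDomain Dd.r (divOf (K := L) t) (some Qb) = 1 := by
    rw [← pushO_apply, Dd.pushO_divOf ht hgood]; exact h1
  obtain ⟨P, ⟨hP, hPord⟩, huniq⟩ := existsUnique_pos_of_mapDomain_eq_one Dd.r
    (fun P hP => by rw [divOf_apply']; exact hnp P hP) h2
  rw [divOf_apply'] at hPord
  refine ⟨P, ⟨hP, hPord⟩, fun P' hP' hpos => huniq P' hP' ?_⟩
  rw [divOf_apply']; exact hpos

end Disc

/-! ### the nodal model -/

variable {F₁ F₂ : Type*} [Field F₁] [Field F₂]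
variable [Algebra (IsLocalRing.ResidueField A) F₁] [Algebra (IsLocalRing.ResidueField A) F₂]
variable (D : NRedDatum A F F₁ F₂)

/-- the first push-forward vanishes at the node points -/
theorem push₁_apply_x₁ (E : Divisor L F) (c : Fin D.nod.s) : D.push₁ E (D.nod.x₁ c) = 0 :=
  pushO_apply_eq_zero _ _ fun P hP => D.r_ne_x₁ P _ (fst?_eq_some.1 hP) c rfl

/-- the second push-forward vanishes at the node points -/
theorem push₂_apply_x₂ (E : Divisor L F) (c : Fin D.nod.s) : D.push₂ E (D.nod.x₂ c) = 0 :=
  pushO_apply_eq_zero _ _ fun P hP => D.r_ne_x₂ P _ (snd?_eq_some.1 hP) c rfl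

theorem smoothSupp_zero : D.SmoothSupp (0 : Divisor L F) := fun _ h => absurd rfl h

theorem SmoothSupp.add {E E' : Divisor L F} (h : D.SmoothSupp E) (h' : D.SmoothSupp E') :
    D.SmoothSupp (E + E') := by
  intro P hP
  by_cases hE : E P = 0
  · refine h' P fun hE' => hP ?_
    rw [Finsupp.add_apply, hE, hE', add_zero]
  · exact h P hE

theorem SmoothSupp.neg {E : Divisor L F} (h : D.SmoothSupp E) : D.SmoothSupp (-E) := by
  intro P hP
  refine h P fun hE => hP ?_
  rw [Finsupp.neg_apply, hE, neg_zero]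

theorem SmoothSupp.sub {E E' : Divisor L F} (h : D.SmoothSupp E) (h' : D.SmoothSupp E') :
    D.SmoothSupp (E - E') := by
  rw [sub_eq_add_neg]
  exact SmoothSupp.add D h (SmoothSupp.neg D h')

theorem SmoothSupp.zsmul {E : Divisor L F} (h : D.SmoothSupp E) (n : ℤ) :
    D.SmoothSupp (n • E) := by
  intro P hP
  refine h P fun hE => hP ?_
  rw [Finsupp.smul_apply, hE, smul_zero]

theorem smoothSupp_single {P : Place L F} (hP : D.r P ≠ none) (n : ℤ) :
    D.SmoothSupp (Finsupp.single P n) := by
  classical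
  intro P' hP'
  rw [Finsupp.single_apply] at hP'
  by_cases h : P = P'
  · rwa [← h]
  · rw [if_neg h] at hP'
    exact absurd rfl hP'

/-- the two push-forwards of a point of the smooth locus -/
theorem degree_push_single {P : Place L F} (hP : D.r P ≠ none) (n : ℤ) :
    Divisor.degree (D.push₁ (Finsupp.single P n)) + Divisor.degree (D.push₂ (Finsupp.single P n))
      = Divisor.degree (Finsupp.single P n) := by
  cases h : D.r P with
  | none => exact absurd h hP
  | some q =>
    cases q with
    | inl Q =>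
      have h1 : fst? D.r P = some Q := fst?_eq_some.2 h
      have h2 : snd? D.r P = none := by
        unfold snd?
        rw [h]
        rfl
      rw [show D.push₁ (Finsupp.single P n) = Finsupp.single Q n from pushO_single_of_eq _ h1 n,
        show D.push₂ (Finsupp.single P n) = 0 from pushO_single_of_none _ h2 n, map_zero, add_zero,
        Divisor.degree_single, Divisor.degree_single, D.deg_r₁ P Q h]
    | inr Q =>
      have h1 : snd? D.r P = some Q := snd?_eq_some.2 h
      have h2 : fst? D.r P = none := by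
        unfold fst?
        rw [h]
        rfl
      rw [show D.push₂ (Finsupp.single P n) = Finsupp.single Q n from pushO_single_of_eq _ h1 n,
        show D.push₁ (Finsupp.single P n) = 0 from pushO_single_of_none _ h2 n, map_zero, zero_add,
        Divisor.degree_single, Divisor.degree_single, D.deg_r₂ P Q h]

/-- **the push-forwards preserve the degree** of a divisor supported on the smooth locus -/
theorem degree_push {E : Divisor L F} (hE : D.SmoothSupp E) :
    Divisor.degree (D.push₁ E) + Divisor.degree (D.push₂ E) = Divisor.degree E := by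
  classical
  induction E using Finsupp.induction with
  | zero => simp
  | single_add P n E hPE hn ih =>
    have hP : D.r P ≠ none := by
      refine hE P ?_
      rw [Finsupp.add_apply, Finsupp.single_eq_same, Finsupp.notMem_support_iff.1 hPE, add_zero]
      exact hn
    have hE' : D.SmoothSupp E := by
      intro P' hP'
      refine hE P' ?_
      have hne : P ≠ P' := by
        rintro rfl
        exact hP' (Finsupp.notMem_support_iff.1 hPE)
      rw [Finsupp.add_apply, Finsupp.single_apply, if_neg hne, zero_add]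
      exact hP'
    have h1 := degree_push_single D hP n
    have h2 := ih hE'
    simp only [map_add] at h1 h2 ⊢
    linarith

/-- `red (L(E) ∩ O) ≤ nodal (push E)` -/
theorem redSub_rr_le {E : Divisor L F} (hE : D.SmoothSupp E) :
    D.nod.redSub (riemannRochSpace E) ≤ D.nodal (D.push₁ E) (D.push₂ E) := by
  rintro _ ⟨f, hfE, hfO, rfl⟩
  have h := NodalDatum.mem_O.1 hfO
  exact D.red_mem E hE f hfE h.1 h.2

variable {g g₁ g₂ : ℕ} (C : NodalCtx D.nod g g₁ g₂)
include C

/-- the nodal spaces are finite dimensional -/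
theorem finiteDimensional_nodal (E₁ : Divisor k F₁) (E₂ : Divisor k F₂) :
    FiniteDimensional k (D.nodal E₁ E₂) :=
  Core.finiteDimensional_nodalSpace (x₁ := D.nod.x₁) (x₂ := D.nod.x₂) C.hF₁ C.hF₂ 1 E₁ E₂

/-- **upper semicontinuity** of `ℓ` under reduction to the nodal curve -/
theorem ell_le_ell_nodal {E : Divisor L F} (hE : D.SmoothSupp E) :
    ell E ≤ D.ell (D.push₁ E) (D.push₂ E) := by
  have := C.hF.finiteDimensional E
  have := finiteDimensional_nodal D C (D.push₁ E) (D.push₂ E)
  rw [ell_def, ← NodalDatum.finrank_redSub C.hD (riemannRochSpace E)]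
  exact Submodule.finrank_mono (redSub_rr_le D hE)

/-- the numerical heart: in the stable range the two dimensions agree -/
theorem finrank_rr_eq_finrank_nodal {E : Divisor L F} (hE : D.SmoothSupp E)
    (h₁ : 2 * (g₁ : ℤ) - 2 < Divisor.degree (D.push₁ E))
    (h₂ : 2 * (g₂ : ℤ) - 2 + D.nod.s < Divisor.degree (D.push₂ E)) :
    finrank L (riemannRochSpace E) = finrank k (D.nodal (D.push₁ E) (D.push₂ E)) ∧
      (finrank L (riemannRochSpace E) : ℤ) = Divisor.degree E + 1 - g := by
  have hle := ell_le_ell_nodal D C hE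
  rw [ell_def] at hle
  have hnod := Core.finrank_nodalSpace (x₁ := D.nod.x₁) C.hF₁ C.hF₂ C.x₂_injective 1
    (D.push₁ E) (D.push₂ E) (push₁_apply_x₁ D E) (push₂_apply_x₂ D E) h₁ h₂
  have hdeg := degree_push D hE
  have hR := C.hF.riemann_le E
  have hcount : ((g : ℤ) + 1 ≤ g₁ + g₂ + D.nod.s) := by exact_mod_cast C.count
  have hle' : (finrank L (riemannRochSpace E) : ℤ) ≤
      finrank k (D.nodal (D.push₁ E) (D.push₂ E)) := by
    unfold NRedDatum.ell at hle
    exact_mod_cast hle
  change (finrank k (D.nodal (D.push₁ E) (D.push₂ E)) : ℤ) = _ at hnod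
  constructor
  · have : (finrank L (riemannRochSpace E) : ℤ) =
        finrank k (D.nodal (D.push₁ E) (D.push₂ E)) := by omega
    exact_mod_cast this
  · omega

/-- the genus formula `g + 1 = g₁ + g₂ + s` (equality in (COUNT)), from one stable divisor -/
theorem genus_eq_of_stable {E : Divisor L F} (hE : D.SmoothSupp E)
    (h₁ : 2 * (g₁ : ℤ) - 2 < Divisor.degree (D.push₁ E))
    (h₂ : 2 * (g₂ : ℤ) - 2 + D.nod.s < Divisor.degree (D.push₂ E)) :
    g + 1 = g₁ + g₂ + D.nod.s := by
  obtain ⟨h3, h4⟩ := finrank_rr_eq_finrank_nodal D C hE h₁ h₂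
  have hnod := Core.finrank_nodalSpace (x₁ := D.nod.x₁) C.hF₁ C.hF₂ C.x₂_injective 1
    (D.push₁ E) (D.push₂ E) (push₁_apply_x₁ D E) (push₂_apply_x₂ D E) h₁ h₂
  have hdeg := degree_push D hE
  change (finrank k (D.nodal (D.push₁ E) (D.push₂ E)) : ℤ) = _ at hnod
  rw [← h3] at hnod
  omega

/-- `red (L(E) ∩ O) = nodal (push E)` in the stable range -/
theorem redSub_rr_eq {E : Divisor L F} (hE : D.SmoothSupp E)
    (h₁ : 2 * (g₁ : ℤ) - 2 < Divisor.degree (D.push₁ E))
    (h₂ : 2 * (g₂ : ℤ) - 2 + D.nod.s < Divisor.degree (D.push₂ E)) :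
    D.nod.redSub (riemannRochSpace E) = D.nodal (D.push₁ E) (D.push₂ E) := by
  have := C.hF.finiteDimensional E
  have := finiteDimensional_nodal D C (D.push₁ E) (D.push₂ E)
  apply Submodule.eq_of_le_of_finrank_eq (redSub_rr_le D hE)
  rw [NodalDatum.finrank_redSub C.hD (riemannRochSpace E)]
  exact (finrank_rr_eq_finrank_nodal D C hE h₁ h₂).1

/-- lifting sections in the stable range -/
theorem exists_lift_of_mem_rr {E : Divisor L F} (hE : D.SmoothSupp E)
    (h₁ : 2 * (g₁ : ℤ) - 2 < Divisor.degree (D.push₁ E))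
    (h₂ : 2 * (g₂ : ℤ) - 2 + D.nod.s < Divisor.degree (D.push₂ E))
    {φ : F₁ × F₂} (hφ : φ ∈ D.nodal (D.push₁ E) (D.push₂ E)) :
    ∃ f ∈ riemannRochSpace E, f ∈ D.nod.V₁.O ∧ f ∈ D.nod.V₂.O ∧ D.nod.redF f = φ := by
  rw [← redSub_rr_eq D C hE h₁ h₂] at hφ
  obtain ⟨f, hfE, hfO, hf⟩ := hφ
  have h := NodalDatum.mem_O.1 hfO
  exact ⟨f, hfE, h.1, h.2, hf⟩

/-- **orthonormal bases of Riemann–Roch spaces**: a basis of `L(E)` inside the sup-norm ball whose
reductions form a basis of `nodal (push E)` -/
theorem exists_orthonormal_basis_rr {E : Divisor L F} (hE : D.SmoothSupp E)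
    (h₁ : 2 * (g₁ : ℤ) - 2 < Divisor.degree (D.push₁ E))
    (h₂ : 2 * (g₂ : ℤ) - 2 + D.nod.s < Divisor.degree (D.push₂ E)) :
    ∃ e : Fin (finrank L (riemannRochSpace E)) → F,
      (∀ i, e i ∈ riemannRochSpace E) ∧ D.nod.IsOrthonormal e ∧
      Submodule.span L (Set.range e) = riemannRochSpace E ∧
      Submodule.span k (Set.range fun i => D.nod.redF (e i)) =
        D.nodal (D.push₁ E) (D.push₂ E) := by
  have hfd := C.hF.finiteDimensional E
  obtain ⟨b, hbW, hb⟩ := C.hD (riemannRochSpace E) hfd
  have hli : LinearIndependent L b := hb.linearIndependent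
  refine ⟨b, hbW, hb, ?_, ?_⟩
  · apply Submodule.eq_of_le_of_finrank_eq
    · rw [Submodule.span_le]
      rintro _ ⟨i, rfl⟩
      exact hbW i
    · rw [finrank_span_eq_card hli, Fintype.card_fin]
  · rw [← NodalDatum.redSub_eq_span hbW hb]
    exact redSub_rr_eq D C hE h₁ h₂

/-- Riemann's equality for `L(E)` in the stable range of the nodal model -/
theorem ell_eq_of_stable {E : Divisor L F} (hE : D.SmoothSupp E)
    (h₁ : 2 * (g₁ : ℤ) - 2 < Divisor.degree (D.push₁ E))
    (h₂ : 2 * (g₂ : ℤ) - 2 + D.nod.s < Divisor.degree (D.push₂ E)) :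
    (ell E : ℤ) = Divisor.degree E + 1 - g :=
  (finrank_rr_eq_finrank_nodal D C hE h₁ h₂).2

end Fermat.Agent.S33lib.NB

end
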