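/-
S33lib / NB / Kernel  (helper9)   — Project LSp, track B: rigidity of non-special effective divisors
and the description of the kernel of reduction on the NODAL model (divisor level).
Port of `S19lib/B/Kernel` (helper6) to `D : N.NRedDatum A F F₁ F₂`, `C : LSb.NodalCtx D.nod g g₁ g₂`.

* `cpair a`, `cpair_mem_nodal`          : the constant pairs lie in every effective nodal space;
* `NonSpecial D E₁ E₂`                   : every element of `nodal E₁ E₂` is a constant pair;
  `nonSpecial_of_ell_eq_one`, `ell_eq_one_of_nonSpecial`;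
* `ell_eq_one_of_nodal`                  : `E ≥ 0` smooth-supported, `ℓ_nod(push E) = 1` ⇒ `ℓ(E) = 1`;
* `eq_of_principal_of_nodal`             : (uniqueness) `E″ ≥ 0`, `E″ ∼ E` ⇒ `E″ = E`;
* `pushO_eq_zero_of_support_none`, `smoothSupp_of_degree_push_eq` : the DEGREE COUNT — an effective
  divisor whose two push-forwards have total degree `deg E′` is supported on the smooth locus;
* `push_divOf_eq_zero`                   : a function of the sup-norm ball whose two reductions are
  the same non-zero constant has `push_i (div f) = 0` (local conservation (LC));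
* `exists_effective_of_push_eq_zero`     : (existence) `E ≥ 0` smooth-supported of degree `g`,
  nodally non-special, `X` smooth-supported of degree `0` with `push₁ X = 0 = push₂ X` ⇒ there is
  `E′ ≥ 0`, SMOOTH-SUPPORTED, with `E′ - E - X` principal and `push_i E′ = push_i E`
  ("the classes `[E′ - E]`, `push E′ = push E`, form a subgroup");
* `exists_points_of_pushO_eq_sum_pt`     : an effective `E′` with `pushO r E′ = ∑ single (Q i)`,
  `Q` injective, is `∑ single (P i)` with `r (P i) = some (Q i)`.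
-/
import Mathlib
import Fermat.Agent.S19lib.B.Kernel
import Fermat.Agent.S33lib.NB.RedRR

set_option autoImplicit false
set_option linter.unusedSectionVars false

noncomputable section

namespace Fermat.Agent.S33lib.NB

open AlgebraicCurve Module
open Fermat.Agent.S18lib Fermat.Agent.S18lib.Cech Fermat.Agent.LSb Fermat.Agent.S33lib.N
open Fermat.Agent.S19lib.B (ell ell_def ell_pos_of_nonneg eq_of_principal_of_ell_eq_one
  existsUnique_pos_of_mapDomain_eq_one)

variable {L : Type*} [Field L] {A : ValuationSubring L}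
variable {F : Type*} [Field F] [Algebra L F] [HasPrincipalDivisors L F]
variable {F₁ F₂ : Type*} [Field F₁] [Field F₂]
variable [Algebra (IsLocalRing.ResidueField A) F₁] [Algebra (IsLocalRing.ResidueField A) F₂]

local notation "k" => IsLocalRing.ResidueField A

/-! ### push-forward along a partial map: combinatorics -/

section Push

variable {ι κ : Type*}

/-- a divisor supported on the points sent to `none` has push-forward `0` -/
theorem pushO_eq_zero_of_support_none (r : ι → Option κ) (E : ι →₀ ℤ)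
    (h : ∀ P, E P ≠ 0 → r P = none) : pushO r E = 0 := by
  classical
  ext Q
  rw [pushO_apply, mapDomain_apply_eq_sum, Finsupp.zero_apply]
  refine Finset.sum_eq_zero fun P hP => ?_
  rw [if_neg]
  rw [h P (Finsupp.mem_support_iff.1 hP)]
  intro h'
  cases h'

/-- the push-forward of an effective divisor is effective -/
theorem pushO_nonneg (r : ι → Option κ) {E : ι →₀ ℤ} (hE : 0 ≤ E) : 0 ≤ pushO r E := by
  rw [Finsupp.le_def]
  intro Q
  rw [pushO_apply, Finsupp.zero_apply]
  exact Finsupp.le_def.1 (Finsupp.mapDomain_nonneg (f := r) hE) (some Q)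

/-- an effective divisor whose push-forward is a sum of distinct points is a sum of points, one
over each of them, plus a divisor supported on the points sent to `none`; if all its points are sent
to `some _`, it is a sum of points -/
theorem exists_points_of_pushO_eq_sum_pt {n : ℕ} (r : ι → Option κ)
    {E : ι →₀ ℤ} (hE : 0 ≤ E) (hsm : ∀ P, E P ≠ 0 → r P ≠ none) (Q : Fin n → κ)
    (hQ : Function.Injective Q) (h : pushO r E = ∑ i, Finsupp.single (Q i) (1 : ℤ)) :
    ∃ P : Fin n → ι, (∀ i, r (P i) = some (Q i)) ∧ E = ∑ i, Finsupp.single (P i) (1 : ℤ) := by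
  classical
  have hval : ∀ q : κ, (∑ i, Finsupp.single (Q i) (1 : ℤ)) q = if q ∈ Set.range Q then 1 else 0 := by
    intro q
    rw [Finsupp.finsetSum_apply]
    split_ifs with hq
    · obtain ⟨i, rfl⟩ := hq
      rw [Finset.sum_eq_single i]
      · simp
      · intro j _ hji
        rw [Finsupp.single_apply, if_neg fun e => hji (hQ e)]
      · intro h; exact absurd (Finset.mem_univ i) h
    · refine Finset.sum_eq_zero fun i _ => ?_
      rw [Finsupp.single_apply, if_neg fun e => hq ⟨i, e⟩]
  have hnn : ∀ P, 0 ≤ E P := fun P => Finsupp.le_def.1 hE P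
  have hpush : ∀ q : κ, Finsupp.mapDomain r E (some q) = if q ∈ Set.range Q then 1 else 0 := by
    intro q
    rw [← pushO_apply, h, hval]
  -- the unique point over `Q i`
  have hex : ∀ i, ∃ P, (r P = some (Q i) ∧ E P = 1) ∧
      ∀ P', r P' = some (Q i) → 0 < E P' → P' = P := by
    intro i
    refine existsUnique_pos_of_mapDomain_eq_one r (fun P _ => hnn P) ?_
    rw [hpush, if_pos ⟨i, rfl⟩]
  choose P hP huniq using hex
  refine ⟨P, fun i => (hP i).1, ?_⟩
  have hPinj : Function.Injective P := fun i j hij =>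
    hQ (Option.some_injective _ (by rw [← (hP i).1, ← (hP j).1, hij]))
  ext P'
  have hrhs : (∑ i, Finsupp.single (P i) (1 : ℤ)) P' = if P' ∈ Set.range P then 1 else 0 := by
    rw [Finsupp.finsetSum_apply]
    split_ifs with hq
    · obtain ⟨i, rfl⟩ := hq
      rw [Finset.sum_eq_single i]
      · simp
      · intro j _ hji
        rw [Finsupp.single_apply, if_neg fun e => hji (hPinj e)]
      · intro h; exact absurd (Finset.mem_univ i) h
    · refine Finset.sum_eq_zero fun i _ => ?_
      rw [Finsupp.single_apply, if_neg fun e => hq ⟨i, e⟩]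
  rw [hrhs]
  split_ifs with hP'
  · obtain ⟨i, rfl⟩ := hP'
    exact (hP i).2
  · -- `E P' = 0` otherwise
    by_contra hne
    have hpos : 0 < E P' := lt_of_le_of_ne (hnn P') (Ne.symm hne)
    obtain ⟨q, hq⟩ := Option.ne_none_iff_exists'.1 (hsm P' hne)
    have h1 := le_mapDomain_apply r hE P'
    rw [hq, hpush] at h1
    split_ifs at h1 with hq'
    · obtain ⟨i, hi⟩ := hq'
      exact hP' ⟨i, (huniq i P' (by rw [hq, hi]) hpos).symm⟩
    · omega

end Push

variable (D : NRedDatum A F F₁ F₂)

/-! ### constants and non-speciality -/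

/-- the constant pair `(a, a)` -/
def cpair (a : k) : F₁ × F₂ := (algebraMap k F₁ a, algebraMap k F₂ a)

theorem cpair_ne_zero {a : k} (ha : a ≠ 0) : cpair (F₁ := F₁) (F₂ := F₂) a ≠ 0 := by
  intro h
  have h1 : algebraMap k F₁ a = 0 := congrArg Prod.fst h
  exact ha ((map_eq_zero _).1 h1)

theorem smul_cpair_one (a : k) : a • cpair (F₁ := F₁) (F₂ := F₂) (1 : k) = cpair a := by
  unfold cpair
  rw [Prod.smul_mk]
  refine Prod.ext ?_ ?_
  · show a • algebraMap k F₁ 1 = algebraMap k F₁ a
    rw [Algebra.smul_def, map_one, mul_one]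
  · show a • algebraMap k F₂ 1 = algebraMap k F₂ a
    rw [Algebra.smul_def, map_one, mul_one]

/-- the constant pairs lie in the nodal space of an effective pair of divisors -/
theorem cpair_mem_nodal {E₁ : Divisor k F₁} {E₂ : Divisor k F₂} (hE₁ : 0 ≤ E₁) (hE₂ : 0 ≤ E₂)
    (a : k) : cpair a ∈ D.nodal E₁ E₂ := by
  refine ⟨const_mem_rr (fun v => Finsupp.le_def.1 hE₁ v) a,
    const_mem_rr (fun v => Finsupp.le_def.1 hE₂ v) a, fun c => ⟨a, ?_, ?_⟩⟩
  · show Core.VanishAt (D.nod.x₁ c) (algebraMap k F₁ a - algebraMap k F₁ a)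
    rw [sub_self]
    exact Core.vanishAt_zero _
  · show Core.VanishAt (D.nod.x₂ c) (algebraMap k F₂ a - algebraMap k F₂ ((1 : Fin D.nod.s → k) c * a))
    rw [Pi.one_apply, one_mul, sub_self]
    exact Core.vanishAt_zero _

/-- **nodal non-speciality**: the nodal space consists of the constant pairs -/
def NonSpecial (E₁ : Divisor k F₁) (E₂ : Divisor k F₂) : Prop :=
  ∀ φ ∈ D.nodal E₁ E₂, ∃ a : k, φ = cpair a

variable {D}

theorem ell_eq_one_of_nonSpecial {E₁ : Divisor k F₁} {E₂ : Divisor k F₂} (hE₁ : 0 ≤ E₁)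
    (hE₂ : 0 ≤ E₂) (h : NonSpecial D E₁ E₂) : D.ell E₁ E₂ = 1 := by
  unfold NRedDatum.ell
  have h1 : cpair (1 : k) ∈ D.nodal E₁ E₂ := cpair_mem_nodal D hE₁ hE₂ 1
  refine finrank_eq_one (⟨cpair 1, h1⟩ : D.nodal E₁ E₂) ?_ ?_
  · intro h0
    exact cpair_ne_zero (one_ne_zero) (congrArg Subtype.val h0)
  · rintro ⟨φ, hφ⟩
    obtain ⟨a, rfl⟩ := h φ hφ
    exact ⟨a, Subtype.ext (smul_cpair_one a)⟩

theorem nonSpecial_of_ell_eq_one {E₁ : Divisor k F₁} {E₂ : Divisor k F₂} (hE₁ : 0 ≤ E₁)
    (hE₂ : 0 ≤ E₂) (h : D.ell E₁ E₂ = 1) : NonSpecial D E₁ E₂ := by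
  intro φ hφ
  have h1 : cpair (1 : k) ∈ D.nodal E₁ E₂ := cpair_mem_nodal D hE₁ hE₂ 1
  have hne : (⟨cpair 1, h1⟩ : D.nodal E₁ E₂) ≠ 0 := fun h0 =>
    cpair_ne_zero (one_ne_zero) (congrArg Subtype.val h0)
  obtain ⟨a, ha⟩ := (finrank_eq_one_iff_of_nonzero' _ hne).1 h ⟨φ, hφ⟩
  refine ⟨a, ?_⟩
  have h2 : a • cpair (F₁ := F₁) (F₂ := F₂) (1 : k) = φ := congrArg Subtype.val ha
  rw [← h2, smul_cpair_one]

variable (D)

/-! ### the degree count -/

/-- **degree count**: an effective divisor whose push-forwards have total degree `deg E'` is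
supported on the smooth locus -/
theorem smoothSupp_of_degree_push_eq (hdeg : ∀ P : Place L F, 0 < P.deg) {E' : Divisor L F}
    (hE' : 0 ≤ E')
    (h : Divisor.degree (D.push₁ E') + Divisor.degree (D.push₂ E') = Divisor.degree E') :
    D.SmoothSupp E' := by
  classical
  set Es : Divisor L F := E'.filter (fun P => D.r P ≠ none) with hEs
  set En : Divisor L F := E'.filter (fun P => ¬ D.r P ≠ none) with hEn
  have hsum : Es + En = E' := Finsupp.filter_add_filter_not E' _
  have hsmS : D.SmoothSupp Es := by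
    intro P hP
    by_contra hnone
    exact hP (Finsupp.filter_apply_neg _ _ (by simpa using hnone))
  have hnoneN : ∀ P, En P ≠ 0 → D.r P = none := by
    intro P hP
    by_contra hsome
    exact hP (Finsupp.filter_apply_neg _ _ (by simpa using hsome))
  have hEn0 : 0 ≤ En := by
    rw [Finsupp.le_def]
    intro P
    rw [hEn, Finsupp.filter_apply]
    split_ifs
    · exact le_rfl
    · exact Finsupp.le_def.1 hE' P
  have hp1 : D.push₁ En = 0 := pushO_eq_zero_of_support_none _ _ fun P hP => by
    unfold fst?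
    rw [hnoneN P hP]
    rfl
  have hp2 : D.push₂ En = 0 := pushO_eq_zero_of_support_none _ _ fun P hP => by
    unfold snd?
    rw [hnoneN P hP]
    rfl
  have h1 : D.push₁ E' = D.push₁ Es := by rw [← hsum, map_add, hp1, add_zero]
  have h2 : D.push₂ E' = D.push₂ Es := by rw [← hsum, map_add, hp2, add_zero]
  have h3 := degree_push D hsmS
  have h4 : Divisor.degree E' = Divisor.degree Es + Divisor.degree En := by
    rw [← hsum, map_add]
  have h5 : Divisor.degree En = 0 := by
    rw [h1, h2] at h
    linarith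
  have h6 : En = 0 := Fermat.Agent.S18lib.eq_zero_of_nonneg_of_degree_eq_zero hdeg hEn0 h5
  rw [← hsum, h6, add_zero]
  exact hsmS

/-- **(LC) for units with constant reductions**: `push_i (div f) = 0` -/
theorem push_divOf_eq_zero {f : F} {a : k} (ha : a ≠ 0)
    (h₁ : D.nod.V₁.redF f = algebraMap k F₁ a) (h₂ : D.nod.V₂.redF f = algebraMap k F₂ a) :
    D.push₁ (divOf (K := L) f) = 0 ∧ D.push₂ (divOf (K := L) f) = 0 := by
  have hne₁ : D.nod.V₁.redF f ≠ 0 := by rw [h₁]; exact (map_ne_zero _).2 ha
  have hne₂ : D.nod.V₂.redF f ≠ 0 := by rw [h₂]; exact (map_ne_zero _).2 ha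
  constructor
  · ext Q
    rw [Finsupp.zero_apply]
    by_cases hQ : ∀ c, Q ≠ D.nod.x₁ c
    · obtain ⟨P₀, hP₀⟩ := D.r_surj₁ Q hQ
      have := D.cons₁ f hne₁ P₀ Q hP₀
      rw [h₁, ord_algebraMap_eq_zero Q ha] at this
      exact this
    · push Not at hQ
      obtain ⟨c, rfl⟩ := hQ
      exact push₁_apply_x₁ D _ c
  · ext Q
    rw [Finsupp.zero_apply]
    by_cases hQ : ∀ c, Q ≠ D.nod.x₂ c
    · obtain ⟨P₀, hP₀⟩ := D.r_surj₂ Q hQ
      have := D.cons₂ f hne₂ P₀ Q hP₀
      rw [h₂, ord_algebraMap_eq_zero Q ha] at this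
      exact this
    · push Not at hQ
      obtain ⟨c, rfl⟩ := hQ
      exact push₂_apply_x₂ D _ c

variable {g g₁ g₂ : ℕ} (C : NodalCtx D.nod g g₁ g₂)
include C

/-! ### rigidity -/

/-- semicontinuity for effective divisors with non-special nodal reduction -/
theorem ell_eq_one_of_nodal {E : Divisor L F} (hE : 0 ≤ E) (hsm : D.SmoothSupp E)
    (hell : D.ell (D.push₁ E) (D.push₂ E) = 1) : ell E = 1 := by
  have h1 := ell_le_ell_nodal D C hsm
  have h2 := ell_pos_of_nonneg C.hF hE
  omega

/-- **uniqueness**: a non-special effective divisor is alone in its linear system -/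
theorem eq_of_principal_of_nodal {E E'' : Divisor L F} (hE : 0 ≤ E) (hsm : D.SmoothSupp E)
    (hell : D.ell (D.push₁ E) (D.push₂ E) = 1) (hE'' : 0 ≤ E'')
    (h : E'' - E ∈ Divisor.principal (K := L) (F := F)) : E'' = E :=
  eq_of_principal_of_ell_eq_one C.hF hE (ell_eq_one_of_nodal D C hE hsm hell) hE'' h

/-! ### existence -/

/-- **existence**: the classes with trivial push-forwards are represented in the residue polydisc
of a nodally non-special effective divisor of degree `g`, by a divisor supported on the smooth locus -/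
theorem exists_effective_of_push_eq_zero {E : Divisor L F} (hE : 0 ≤ E) (hsm : D.SmoothSupp E)
    (hdeg : Divisor.degree E = g) (hell : D.ell (D.push₁ E) (D.push₂ E) = 1)
    {X : Divisor L F} (hXsm : D.SmoothSupp X) (hX : Divisor.degree X = 0)
    (hX₁ : D.push₁ X = 0) (hX₂ : D.push₂ X = 0) :
    ∃ E' : Divisor L F, 0 ≤ E' ∧ D.SmoothSupp E' ∧
      E' - E - X ∈ Divisor.principal (K := L) (F := F) ∧
      D.push₁ E' = D.push₁ E ∧ D.push₂ E' = D.push₂ E := by
  have hfd := C.hF.finiteDimensional (E + X)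
  have hsmEX : D.SmoothSupp (E + X) := SmoothSupp.add D hsm hXsm
  -- a section of `L(E + X)` in the sup-norm ball with non-zero reduction
  have hpos : 0 < finrank L (riemannRochSpace (E + X)) := by
    have := C.hF.riemann_le (E + X)
    rw [map_add, hdeg, hX] at this
    omega
  have hpos' : 0 < finrank k (D.nod.redSub (riemannRochSpace (E + X))) := by
    rw [NodalDatum.finrank_redSub C.hD]; exact hpos
  have := NodalDatum.finiteDimensional_redSub C.hD (riemannRochSpace (E + X))
  obtain ⟨⟨φ, hφ⟩, hφ0'⟩ := (Module.finrank_pos_iff_exists_ne_zero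
    (R := k) (M := D.nod.redSub (riemannRochSpace (E + X)))).1 hpos'
  have hφ0 : φ ≠ 0 := fun h => hφ0' (Subtype.ext h)
  have hφnod : φ ∈ D.nodal (D.push₁ E) (D.push₂ E) := by
    have := redSub_rr_le D hsmEX hφ
    rwa [map_add, map_add, hX₁, hX₂, add_zero, add_zero] at this
  obtain ⟨f, hfM, hfO, rfl⟩ := hφ
  have hf0 : f ≠ 0 := by
    rintro rfl
    exact hφ0 Frame.redS_zero
  -- the reduction is a non-zero constant pair
  have hE₁ : 0 ≤ D.push₁ E := pushO_nonneg _ hE
  have hE₂ : 0 ≤ D.push₂ E := pushO_nonneg _ hE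
  obtain ⟨a, ha⟩ := nonSpecial_of_ell_eq_one hE₁ hE₂ hell _ hφnod
  have ha0 : a ≠ 0 := by
    rintro rfl
    apply hφ0
    rw [ha]
    unfold cpair
    rw [map_zero, map_zero]
    rfl
  have h₁ : D.nod.V₁.redF f = algebraMap k F₁ a := congrArg Prod.fst ha
  have h₂ : D.nod.V₂.redF f = algebraMap k F₂ a := congrArg Prod.snd ha
  obtain ⟨hp₁, hp₂⟩ := push_divOf_eq_zero D ha0 h₁ h₂
  -- the divisor
  have hE'0 : 0 ≤ divOf (K := L) f + (E + X) :=
    ((mem_riemannRochSpace_iff_divOf (K := L)).1 hfM).resolve_left hf0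
  have hq₁ : D.push₁ (divOf (K := L) f + (E + X)) = D.push₁ E := by
    rw [map_add, map_add, hp₁, hX₁, zero_add, add_zero]
  have hq₂ : D.push₂ (divOf (K := L) f + (E + X)) = D.push₂ E := by
    rw [map_add, map_add, hp₂, hX₂, zero_add, add_zero]
  refine ⟨divOf (K := L) f + (E + X), hE'0, ?_, ?_, hq₁, hq₂⟩
  · apply smoothSupp_of_degree_push_eq D (fun P => by rw [C.hF.deg_eq_one P]; exact one_pos) hE'0
    rw [hq₁, hq₂, degree_push D hsm, map_add, map_add, degree_divOf, hX, zero_add, add_zero]
  · have : divOf (K := L) f + (E + X) - E - X = divOf (K := L) f := by abel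
    rw [this]
    exact divOf_mem_principal hf0

end Fermat.Agent.S33lib.NB

end
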