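/-
S33lib / NB / Ker  (helper9)   — Project LSp, track B.  Port of `S19lib/B/Ker` (helper6).

**(K)** `nKerStmt_of` : for every admissible chart family `a : NFam D S g` of the nodal model, the
map `Θ_a : 𝔪_A^g → Pic⁰` is a bijection from the polydisc onto the kernel of reduction `NKred D`
(`N.NKerStmt D S g`), from the rigidity / existence results of `NB/Kernel`.
-/
import Mathlib
import Fermat.Agent.S33lib.NB.Kernel
import Fermat.Agent.S33lib.N.Family

set_option autoImplicit false
set_option linter.unusedSectionVars false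

noncomputable section

namespace Fermat.Agent.S33lib.NB

open AlgebraicCurve Module
open Fermat.Agent.S18lib Fermat.Agent.LSb Fermat.Agent.S33lib.N
open Fermat.Agent.S19lib (PolyDisc)

variable {L : Type*} [Field L] {A : ValuationSubring L}
variable {F : Type*} [Field F] [Algebra L F]
variable {F₁ F₂ : Type*} [Field F₁] [Field F₂]
variable [Algebra (IsLocalRing.ResidueField A) F₁] [Algebra (IsLocalRing.ResidueField A) F₂]
variable [HasPrincipalDivisors L F]
variable [HasPrincipalDivisors (IsLocalRing.ResidueField A) F₁]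
  [HasPrincipalDivisors (IsLocalRing.ResidueField A) F₂]

local notation "k" => IsLocalRing.ResidueField A

variable {D : NRedDatum A F F₁ F₂}

/-- the nodal `ℓ` of `Chart.lean` in terms of the two push-forwards -/
theorem ellR_push (E : Divisor L F) : D.ellR (D.push E) = D.ell (D.push₁ E) (D.push₂ E) := by
  rw [NRedDatum.ellR_def, NRedDatum.RR, D.fst_push, D.snd_push]
  rfl

/-- the total push-forward from its two components -/
theorem push_eq_of_push_eq {E E' : Divisor L F} (h₁ : D.push₁ E' = D.push₁ E)
    (h₂ : D.push₂ E' = D.push₂ E) : D.push E' = D.push E :=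
  RDiv.ext' (by rw [D.fst_push, D.fst_push, h₁]) (by rw [D.snd_push, D.snd_push, h₂])

theorem push₁_eq_zero_of_push_eq_zero {X : Divisor L F} (h : D.push X = 0) : D.push₁ X = 0 := by
  rw [← D.fst_push, h, map_zero]

theorem push₂_eq_zero_of_push_eq_zero {X : Divisor L F} (h : D.push X = 0) : D.push₂ X = 0 := by
  rw [← D.snd_push, h, map_zero]

variable {G : Type*} [Group G] {S : NSym D G} {g g₁ g₂ : ℕ}

/-- **(K)**: `Θ_a` is a bijection from the polydisc onto the kernel of reduction -/
theorem nKerStmt_of (C : NodalCtx D.nod g g₁ g₂) : NKerStmt D S g := by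
  intro a
  refine ⟨?_, ?_⟩
  · rintro z ⟨X, rfl, hXsm, hXr⟩
    have hell : D.ell (D.push₁ a.E) (D.push₂ a.E) = 1 := by
      rw [← ellR_push]; exact a.ellR_push_E
    obtain ⟨E', hE'0, hE'sm, hE'X, hE'1, hE'2⟩ := exists_effective_of_push_eq_zero D C
      a.E_nonneg a.smoothSupp_E a.degree_E hell (X := (X : Divisor L F)) hXsm X.2
      (push₁_eq_zero_of_push_eq_zero hXr) (push₂_eq_zero_of_push_eq_zero hXr)
    have hE'r : D.push E' = a.Eb := by
      rw [push_eq_of_push_eq hE'1 hE'2, a.push_E]
    obtain ⟨u, hu, hDv⟩ := a.exists_eq_Dv hE'0 hE'sm hE'r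
    refine ⟨u, hu, ?_⟩
    rw [NFam.Θ]
    refine (QuotientAddGroup.eq_iff_sub_mem (N := (Divisor.principal (K := L) (F := F)).addSubgroupOf
      (Divisor.degZero (K := L) (F := F)))).2 ?_
    rw [AddSubgroup.mem_addSubgroupOf]
    show a.Dv u - a.E - (X : Divisor L F) ∈ _
    rw [hDv]
    exact hE'X
  · intro u hu u' hu' h
    have h1 : a.Dv u - a.Dv u' ∈ Divisor.principal (K := L) (F := F) := by
      have h2 := (QuotientAddGroup.eq_iff_sub_mem
        (N := (Divisor.principal (K := L) (F := F)).addSubgroupOf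
          (Divisor.degZero (K := L) (F := F)))).1 h
      rw [AddSubgroup.mem_addSubgroupOf] at h2
      have h3 : a.Dv u - a.E - (a.Dv u' - a.E) ∈ Divisor.principal (K := L) (F := F) := h2
      have h4 : a.Dv u - a.E - (a.Dv u' - a.E) = a.Dv u - a.Dv u' := by abel
      rwa [h4] at h3
    have hell : D.ell (D.push₁ (a.Dv u')) (D.push₂ (a.Dv u')) = 1 := by
      rw [← ellR_push]; exact a.ellR_push_Dv u'
    have h5 := eq_of_principal_of_nodal D C (a.Dv_nonneg u') (a.smoothSupp_Dv u') hell
      (a.Dv_nonneg u) h1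
    exact a.Dv_injOn hu hu' h5

end Fermat.Agent.S33lib.NB

end
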