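/-
S33lib / NB / TriSolve  (helper9)   — Project LSp, track B.  Port of `S19lib/B/TriSolve` (helper6):
the solution map of a configuration of the NODAL model, algebraically.

For a configuration `T : N.NTri a b c`, `C : LSb.NodalCtx D.nod g g₁ g₂` and coordinates `u, v`:

* `redSub_rr_eq_of_ell_nodal_le` : `ℓ_nod(push E) ≤ ℓ(E)` ⇒ `red (L(E) ∩ O) = nodal (push E)`;
* `push_eq_zero_of_not_good`, `push_divOf_congr` : (LC) ⇒ `push (div s)` only depends on the two
  reductions of `s` (both non-zero);
* `T.Res u v = B - D_a(u) - D_b(v)` : the residual divisor (degree `g`, smooth-supported),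
  `ℓ(Res) = 1`, `L(Res) ∩ O` reduces onto `k · s̄₀`  (`ell_Res`, `exists_section`, `rr_Res_eq_span`);
* `exists_solution` : there is a `w` in the polydisc with
  `div s + B = D_a(u) + D_b(v) + D_c(w)` for every nonzero `s ∈ L(Res)`; `solution_unique`;
* `T.tau C` : the solution map, `tau_mem`, `tau_div`, `tau_principal`, `tau_spec`
  (`Θ_a u + Θ_b v + Θ_c (tau (u, v)) = 0`), `tau_unique`, `ord_of_r_eq_a/b/c` (the zeros of `s` on
  the discs);
* `T.algSolution C`, `T.solveOfAnalytic C han : NSolve a b c ϖ` : everything of `N.NSolve` except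
  analyticity.
-/
import Mathlib
import Fermat.Agent.S19lib.B.TriSolve
import Fermat.Agent.S33lib.NB.Ker

set_option autoImplicit false
set_option linter.unusedSectionVars false

noncomputable section

namespace Fermat.Agent.S33lib.NB

open AlgebraicCurve Module
open Fermat.Agent.S18lib Fermat.Agent.LSb Fermat.Agent.S33lib.N
open Fermat.Agent.S19lib (PolyDisc AnalyticMap)
open Fermat.Agent.S19lib.B (ell ell_def pic0_mk_eq_zero)

variable {L : Type*} [Field L] {A : ValuationSubring L}
variable {F : Type*} [Field F] [Algebra L F]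
variable {F₁ F₂ : Type*} [Field F₁] [Field F₂]
variable [Algebra (IsLocalRing.ResidueField A) F₁] [Algebra (IsLocalRing.ResidueField A) F₂]
variable [HasPrincipalDivisors L F]
variable [HasPrincipalDivisors (IsLocalRing.ResidueField A) F₁]
  [HasPrincipalDivisors (IsLocalRing.ResidueField A) F₂]

local notation "k" => IsLocalRing.ResidueField A

/-! ### complements on the reduction of Riemann–Roch spaces -/

section Red

variable (D : NRedDatum A F F₁ F₂) {g g₁ g₂ : ℕ}

/-- equality of the reduction with the nodal space as soon as the dimensions allow it -/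
theorem redSub_rr_eq_of_ell_nodal_le (C : NodalCtx D.nod g g₁ g₂) {E : Divisor L F}
    (hE : D.SmoothSupp E) (h : D.ell (D.push₁ E) (D.push₂ E) ≤ ell E) :
    D.nod.redSub (riemannRochSpace E) = D.nodal (D.push₁ E) (D.push₂ E) := by
  have := C.hF.finiteDimensional E
  have := finiteDimensional_nodal D C (D.push₁ E) (D.push₂ E)
  apply Submodule.eq_of_le_of_finrank_eq (redSub_rr_le D hE)
  rw [NodalDatum.finrank_redSub C.hD (riemannRochSpace E)]
  have h1 := ell_le_ell_nodal D C hE
  rw [ell_def] at h h1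
  unfold NRedDatum.ell at h h1
  omega

/-- the push-forward vanishes at the points without residue disc -/
theorem push_eq_zero_of_not_good (X : Divisor L F) {q : Pt A F₁ F₂} (hq : ¬ D.Good q) :
    D.push X q = 0 := by
  rw [D.push_apply]
  exact Finsupp.mapDomain_of_notMem_range _ _ (by rintro ⟨P, hP⟩; exact hq ⟨P, hP⟩)

/-- **(LC)**: the push-forward of the divisor of a function with both reductions non-zero only
depends on the reductions -/
theorem push_divOf_congr {s s' : F} (h₁ : D.nod.V₁.redF s ≠ 0) (h₂ : D.nod.V₂.redF s ≠ 0)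
    (h : D.nod.redF s' = D.nod.redF s) :
    D.push (divOf (K := L) s') = D.push (divOf (K := L) s) := by
  have e₁ : D.nod.V₁.redF s' = D.nod.V₁.redF s := congrArg Prod.fst h
  have e₂ : D.nod.V₂.redF s' = D.nod.V₂.redF s := congrArg Prod.snd h
  ext q
  by_cases hq : D.Good q
  · rw [D.push_divOf h₁ h₂ hq, D.push_divOf (by rw [e₁]; exact h₁) (by rw [e₂]; exact h₂) hq, h]
  · rw [push_eq_zero_of_not_good D _ hq, push_eq_zero_of_not_good D _ hq]

end Red

variable {D : NRedDatum A F F₁ F₂} {G : Type*} [Group G] {S : NSym D G} {g g₁ g₂ : ℕ}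
variable {a b c : NFam D S g}

namespace NTriSolve

variable (T : NTri a b c)

/-- `div s₀ + B = E_a + E_b + E_c` -/
theorem divOf_s0 : divOf (K := L) T.s0 + T.Bd = a.E + b.E + c.E := by
  ext P
  rw [Finsupp.add_apply, divOf_apply', T.ord_s0 P]

/-- the push-forward of the configuration relation -/
theorem push_divOf_s0 : D.push (divOf (K := L) T.s0) + D.push T.Bd = a.Eb + b.Eb + c.Eb := by
  rw [← map_add, divOf_s0 T, map_add, map_add, a.push_E, b.push_E, c.push_E]

/-- the residual divisor `B - D_a(u) - D_b(v)` -/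
def Res (u v : Fin g → L) : Divisor L F := T.Bd - a.Dv u - b.Dv v

theorem degree_Res (u v : Fin g → L) : Divisor.degree (Res T u v) = g := by
  rw [Res, map_sub, map_sub, T.deg_B, a.degree_Dv, b.degree_Dv]; ring

theorem smoothSupp_Res (u v : Fin g → L) : D.SmoothSupp (Res T u v) :=
  (T.B_smooth.sub (a.smoothSupp_Dv u)).sub (b.smoothSupp_Dv v)

theorem push_Res (u v : Fin g → L) : D.push (Res T u v) = D.push T.Bd - a.Eb - b.Eb := by
  rw [Res, map_sub, map_sub, a.push_Dv, b.push_Dv]

theorem redF_s0_ne : D.nod.redF T.s0 ≠ 0 := fun h => T.red_s0_ne₁ (congrArg Prod.fst h)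

theorem ellR_push_Res (u v : Fin g → L) : D.ellR (D.push (Res T u v)) = 1 := by
  rw [push_Res, NRedDatum.ellR_def, T.rr_ab]
  exact finrank_span_singleton (redF_s0_ne T)

theorem ell_push_Res (u v : Fin g → L) :
    D.ell (D.push₁ (Res T u v)) (D.push₂ (Res T u v)) = 1 := by
  rw [← ellR_push]; exact ellR_push_Res T u v

/-- the trilinear relation on `Pic⁰` in terms of divisors -/
theorem theta_sum_eq_zero_iff (u v w : Fin g → L) :
    a.Θ u + b.Θ v + c.Θ w = 0 ↔
      a.Dv u + b.Dv v + c.Dv w - T.Bd ∈ Divisor.principal (K := L) (F := F) := by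
  have hsplit : a.Dv u - a.E + (b.Dv v - b.E) + (c.Dv w - c.E) =
      (a.Dv u + b.Dv v + c.Dv w - T.Bd) - (a.E + b.E + c.E - T.Bd) := by abel
  have hmem : a.Θ u + b.Θ v + c.Θ w = 0 ↔
      a.Dv u - a.E + (b.Dv v - b.E) + (c.Dv w - c.E) ∈ Divisor.principal (K := L) (F := F) := by
    rw [NFam.Θ, NFam.Θ, NFam.Θ, ← Pic0.mk_add, ← Pic0.mk_add, pic0_mk_eq_zero]
    rfl
  rw [hmem, hsplit]
  constructor
  · intro h
    have := AddSubgroup.add_mem _ h T.principal
    rwa [sub_add_cancel] at this
  · intro h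
    exact AddSubgroup.sub_mem _ h T.principal

variable (C : NodalCtx D.nod g g₁ g₂)
include C

theorem ell_Res (u v : Fin g → L) : ell (Res T u v) = 1 := by
  have h1 := ell_le_ell_nodal D C (smoothSupp_Res T u v)
  rw [ell_push_Res] at h1
  have h2 := C.hF.riemann_le (Res T u v)
  rw [degree_Res, ← ell_def] at h2
  omega

/-- a section of `L(Res)` of sup-norm one reducing to `s̄₀` -/
theorem exists_section (u v : Fin g → L) :
    ∃ s ∈ riemannRochSpace (Res T u v), s ∈ D.nod.V₁.O ∧ s ∈ D.nod.V₂.O ∧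
      D.nod.redF s = D.nod.redF T.s0 := by
  have h : D.ell (D.push₁ (Res T u v)) (D.push₂ (Res T u v)) ≤ ell (Res T u v) := by
    rw [ell_push_Res, ell_Res T C]
  have hmem : D.nod.redF T.s0 ∈ D.nodal (D.push₁ (Res T u v)) (D.push₂ (Res T u v)) := by
    have h1 : D.nod.redF T.s0 ∈ D.RR (D.push (Res T u v)) := by
      rw [push_Res, T.rr_ab]
      exact Submodule.mem_span_singleton_self _
    rwa [NRedDatum.RR, D.fst_push, D.snd_push] at h1
  rw [← redSub_rr_eq_of_ell_nodal_le D C (smoothSupp_Res T u v) h] at hmem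
  obtain ⟨s, hsE, hsO, hs⟩ := hmem
  have hO := NodalDatum.mem_O.1 hsO
  exact ⟨s, hsE, hO.1, hO.2, hs⟩

/-- `L(Res)` is the line through any of its nonzero elements -/
theorem rr_Res_eq_span (u v : Fin g → L) {s : F} (hs : s ∈ riemannRochSpace (Res T u v))
    (hs0 : s ≠ 0) : riemannRochSpace (Res T u v) = Submodule.span L {s} := by
  have hfd := C.hF.finiteDimensional (Res T u v)
  symm
  apply Submodule.eq_of_le_of_finrank_eq
  · rw [Submodule.span_le, Set.singleton_subset_iff]; exact hs
  · rw [finrank_span_singleton hs0, ← ell_def, ell_Res T C]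

/-- **the solution**, existence -/
theorem exists_solution (u v : Fin g → L) :
    ∃ w ∈ PolyDisc A (Fin g), ∀ s ∈ riemannRochSpace (Res T u v), s ≠ 0 →
      divOf (K := L) s + T.Bd = a.Dv u + b.Dv v + c.Dv w := by
  obtain ⟨s, hsE, -, -, hsred⟩ := exists_section T C u v
  have hs0 : s ≠ 0 := by
    rintro rfl
    exact redF_s0_ne T (by rw [← hsred]; exact Frame.redS_zero)
  have hZ0 : 0 ≤ divOf (K := L) s + Res T u v :=
    ((mem_riemannRochSpace_iff_divOf (K := L)).1 hsE).resolve_left hs0
  have hZr : D.push (divOf (K := L) s + Res T u v) = c.Eb := by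
    rw [map_add, push_divOf_congr D T.red_s0_ne₁ T.red_s0_ne₂ hsred, push_Res]
    have h1 := push_divOf_s0 T
    have h2 : D.push (divOf (K := L) T.s0) + (D.push T.Bd - a.Eb - b.Eb) =
        D.push (divOf (K := L) T.s0) + D.push T.Bd - a.Eb - b.Eb := by abel
    rw [h2, h1]; abel
  have hZsm : D.SmoothSupp (divOf (K := L) s + Res T u v) := by
    apply smoothSupp_of_degree_push_eq D (fun P => by rw [C.hF.deg_eq_one P]; exact one_pos) hZ0
    rw [← D.fst_push, ← D.snd_push, hZr, ← c.push_E, D.fst_push, D.snd_push,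
      degree_push D c.smoothSupp_E, map_add, degree_divOf, degree_Res, c.degree_E, zero_add]
  obtain ⟨w, hw, hDv⟩ := c.exists_eq_Dv hZ0 hZsm hZr
  refine ⟨w, hw, fun s' hs' hs'0 => ?_⟩
  -- `s'` is a constant multiple of `s`
  rw [rr_Res_eq_span T C u v hsE hs0, Submodule.mem_span_singleton] at hs'
  obtain ⟨t, rfl⟩ := hs'
  have ht : t ≠ 0 := by
    rintro rfl
    exact hs'0 (zero_smul _ _)
  rw [Algebra.smul_def, divOf_algebraMap_mul ht, hDv, Res]
  abel

/-- **the solution**, uniqueness -/
theorem solution_unique (u v : Fin g → L) {w w' : Fin g → L} (hw : w ∈ PolyDisc A (Fin g))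
    (hw' : w' ∈ PolyDisc A (Fin g))
    (h : a.Dv u + b.Dv v + c.Dv w - T.Bd ∈ Divisor.principal (K := L) (F := F))
    (h' : a.Dv u + b.Dv v + c.Dv w' - T.Bd ∈ Divisor.principal (K := L) (F := F)) : w' = w := by
  have h1 : c.Dv w' - c.Dv w ∈ Divisor.principal (K := L) (F := F) := by
    have := AddSubgroup.sub_mem _ h' h
    have h2 : a.Dv u + b.Dv v + c.Dv w' - T.Bd - (a.Dv u + b.Dv v + c.Dv w - T.Bd) =
        c.Dv w' - c.Dv w := by abel
    rwa [h2] at this
  have hell : D.ell (D.push₁ (c.Dv w)) (D.push₂ (c.Dv w)) = 1 := by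
    rw [← ellR_push]; exact c.ellR_push_Dv w
  have h3 := eq_of_principal_of_nodal D C (c.Dv_nonneg w) (c.smoothSupp_Dv w) hell
    (c.Dv_nonneg w') h1
  exact c.Dv_injOn hw' hw h3

/-- **the solution map** `(u, v) ↦ w` -/
def tau (w : Fin g ⊕ Fin g → L) : Fin g → L :=
  (exists_solution T C (fun i => w (Sum.inl i)) (fun i => w (Sum.inr i))).choose

theorem tau_mem (w : Fin g ⊕ Fin g → L) : tau T C w ∈ PolyDisc A (Fin g) :=
  (exists_solution T C (fun i => w (Sum.inl i)) (fun i => w (Sum.inr i))).choose_spec.1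

/-- the divisor of any nonzero section of `L(B - D_a(u) - D_b(v))` -/
theorem tau_div (w : Fin g ⊕ Fin g → L) {s : F}
    (hs : s ∈ riemannRochSpace (Res T (fun i => w (Sum.inl i)) (fun i => w (Sum.inr i))))
    (hs0 : s ≠ 0) :
    divOf (K := L) s + T.Bd =
      a.Dv (fun i => w (Sum.inl i)) + b.Dv (fun i => w (Sum.inr i)) + c.Dv (tau T C w) :=
  (exists_solution T C (fun i => w (Sum.inl i)) (fun i => w (Sum.inr i))).choose_spec.2 s hs hs0

theorem tau_principal (w : Fin g ⊕ Fin g → L) :
    a.Dv (fun i => w (Sum.inl i)) + b.Dv (fun i => w (Sum.inr i)) + c.Dv (tau T C w) - T.Bd ∈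
      Divisor.principal (K := L) (F := F) := by
  obtain ⟨s, hsE, -, -, hsred⟩ :=
    exists_section T C (fun i => w (Sum.inl i)) (fun i => w (Sum.inr i))
  have hs0 : s ≠ 0 := by
    rintro rfl
    exact redF_s0_ne T (by rw [← hsred]; exact Frame.redS_zero)
  rw [← tau_div T C w hsE hs0, add_sub_cancel_right]
  exact divOf_mem_principal hs0

/-- the trilinear relation -/
theorem tau_spec (w : Fin g ⊕ Fin g → L) :
    a.Θ (fun i => w (Sum.inl i)) + b.Θ (fun i => w (Sum.inr i)) + c.Θ (tau T C w) = 0 :=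
  (theta_sum_eq_zero_iff T _ _ _).2 (tau_principal T C w)

/-- the solution map is characterised by the trilinear relation -/
theorem tau_unique (w : Fin g ⊕ Fin g → L) {w' : Fin g → L} (hw' : w' ∈ PolyDisc A (Fin g))
    (h : a.Θ (fun i => w (Sum.inl i)) + b.Θ (fun i => w (Sum.inr i)) + c.Θ w' = 0) :
    w' = tau T C w :=
  solution_unique T C _ _ (tau_mem T C w) hw' (tau_principal T C w)
    ((theta_sum_eq_zero_iff T _ _ _).1 h)

/-- the zeros of a section of `L(B - D_a(u) - D_b(v))` on the discs of `c`: one simple zero in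
each, at the point with coordinate `tau (u, v) j` -/
theorem ord_of_r_eq_c (hac : a.Disjoint c) (hbc : b.Disjoint c) (w : Fin g ⊕ Fin g → L) {s : F}
    (hs : s ∈ riemannRochSpace (Res T (fun i => w (Sum.inl i)) (fun i => w (Sum.inr i))))
    (hs0 : s ≠ 0) {P : Place L F} {j : Fin g} (hP : D.r P = some (c.Qb j))
    [Decidable (P = (c.ch j).pt (tau T C w j))] :
    P.ord s = if P = (c.ch j).pt (tau T C w j) then 1 else 0 := by
  have h := congrArg (fun E : Divisor L F => E P) (tau_div T C w hs hs0)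
  simp only [Finsupp.add_apply] at h
  rw [divOf_apply', T.B_disc_c P j hP, add_zero,
    a.Dv_apply_eq_zero _ (fun i => by rw [hP]; exact fun h' => hac i j (Option.some_injective _ h').symm),
    b.Dv_apply_eq_zero _ (fun i => by rw [hP]; exact fun h' => hbc i j (Option.some_injective _ h').symm),
    zero_add, zero_add, c.Dv_apply_of_r_eq _ hP] at h
  exact h

/-- the zeros on the discs of `a` -/
theorem ord_of_r_eq_a (hab : a.Disjoint b) (hac : a.Disjoint c) (w : Fin g ⊕ Fin g → L) {s : F}
    (hs : s ∈ riemannRochSpace (Res T (fun i => w (Sum.inl i)) (fun i => w (Sum.inr i))))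
    (hs0 : s ≠ 0) {P : Place L F} {i : Fin g} (hP : D.r P = some (a.Qb i))
    [Decidable (P = (a.ch i).pt (w (Sum.inl i)))] :
    P.ord s = if P = (a.ch i).pt (w (Sum.inl i)) then 1 else 0 := by
  have h := congrArg (fun E : Divisor L F => E P) (tau_div T C w hs hs0)
  simp only [Finsupp.add_apply] at h
  rw [divOf_apply', T.B_disc_a P i hP, add_zero,
    b.Dv_apply_eq_zero _ (fun j => by rw [hP]; exact fun h' => hab i j (Option.some_injective _ h')),
    c.Dv_apply_eq_zero _ (fun j => by rw [hP]; exact fun h' => hac i j (Option.some_injective _ h')),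
    add_zero, add_zero, a.Dv_apply_of_r_eq _ hP] at h
  exact h

/-- the zeros on the discs of `b` -/
theorem ord_of_r_eq_b (hab : a.Disjoint b) (hbc : b.Disjoint c) (w : Fin g ⊕ Fin g → L) {s : F}
    (hs : s ∈ riemannRochSpace (Res T (fun i => w (Sum.inl i)) (fun i => w (Sum.inr i))))
    (hs0 : s ≠ 0) {P : Place L F} {i : Fin g} (hP : D.r P = some (b.Qb i))
    [Decidable (P = (b.ch i).pt (w (Sum.inr i)))] :
    P.ord s = if P = (b.ch i).pt (w (Sum.inr i)) then 1 else 0 := by
  have h := congrArg (fun E : Divisor L F => E P) (tau_div T C w hs hs0)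
  simp only [Finsupp.add_apply] at h
  rw [divOf_apply', T.B_disc_b P i hP, add_zero,
    a.Dv_apply_eq_zero _ (fun j => by rw [hP]; exact fun h' => hab j i (Option.some_injective _ h').symm),
    c.Dv_apply_eq_zero _ (fun j => by rw [hP]; exact fun h' => hbc i j (Option.some_injective _ h')),
    zero_add, add_zero, b.Dv_apply_of_r_eq _ hP] at h
  exact h

/-- **(P1)**, in the form consumed by the analytic block (`AlgSolution`) -/
theorem algSolution : ∀ w ∈ PolyDisc A (Fin g ⊕ Fin g), ∃ x ∈ PolyDisc A (Fin g), ∃ s : F, s ≠ 0 ∧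
    ∀ P : Place L F, P.ord s = (a.Dv (fun i => w (Sum.inl i)) + b.Dv (fun i => w (Sum.inr i))
      + c.Dv x - T.Bd) P := by
  intro w _
  obtain ⟨s, hsE, -, -, hsred⟩ :=
    exists_section T C (fun i => w (Sum.inl i)) (fun i => w (Sum.inr i))
  have hs0 : s ≠ 0 := by
    rintro rfl
    exact redF_s0_ne T (by rw [← hsred]; exact Frame.redS_zero)
  refine ⟨tau T C w, tau_mem T C w, s, hs0, fun P => ?_⟩
  rw [← tau_div T C w hsE hs0, add_sub_cancel_right, divOf_apply']

/-- **everything of `NSolve` except analyticity** -/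
def solveOfAnalytic {ϖ : L} (han : AnalyticMap A S.R ϖ (tau T C)) : NSolve a b c ϖ where
  τ := tau T C
  mem := fun w _ => tau_mem T C w
  spec := fun w _ => tau_spec T C w
  an := han

end NTriSolve

end Fermat.Agent.S33lib.NB

end
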