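/-
S33lib / NB / Avoid  (helper5, Project LSp, block NB: residue side, part 2).

Nodal port of `S19lib/B/Avoid` (+ the residue half of `B/TriExists`).  The nodal residue curve
`X̄ = X̄₁ ∪ X̄₂`: function fields `F₁`, `F₂` over `k` (genera `g₁`, `g₂`), glued along `s` pairs of
points `(x₁ c, x₂ c)`; Cartier divisors are pairs `(M₁, M₂)` vanishing at the node points, their
sections are `NS x₁ x₂ M₁ M₂` (helper6's `NRed/Pencil`).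

* `exists_NS_section_avoiding` : in the strong range `deg Mᵢ ≥ 2 gᵢ + s` there is `φ ∈ NS(M)`,
  both components nonzero, generating `O(M)` at the points of given finite sets and a UNIT at every
  node;
* `exists_NS_effective_avoiding` : the same with the effective divisors `Cᵢ = div φᵢ + Mᵢ`;
* `IsNodeUnit`, `NS_eq_span_of_twist` : for `σ` glued and a unit at the nodes,
  `NS(D) = k · σ` as soon as `NS(D + div σ) = k · (1, 1)` (nodal `rr_eq_span_of_ell_one`);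
* `exists_nodal_residue_tri` : **the residue side of a configuration on the nodal curve**.
-/
import Fermat.Agent.S19lib.B.Avoid
import Fermat.Agent.S33lib.NRed.Bpf

set_option autoImplicit false
set_option linter.unusedSectionVars false

noncomputable section

namespace Fermat.Agent.S33lib.NB

open AlgebraicCurve Module
open Fermat.Agent.S18lib Fermat.Agent.S18lib.Cech Fermat.Agent.S37lib
open Fermat.Agent.LSb Fermat.Agent.LSb.Core Fermat.Agent.S19lib.B Fermat.Agent.S33lib.NRed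

variable {k F₁ F₂ : Type*} [Field k] [Field F₁] [Field F₂] [Algebra k F₁] [Algebra k F₂]
variable {g₁ g₂ s : ℕ} {x₁ : Fin s → Place k F₁} {x₂ : Fin s → Place k F₂}

/-- a section of `NS(M)` generating `O(M)` at the points of `S₁`, `S₂` and a unit at the nodes -/
theorem exists_NS_section_avoiding (hF₁ : IsCurveOfGenus k F₁ g₁) (hF₂ : IsCurveOfGenus k F₂ g₂)
    [Infinite k] (hx₁ : Function.Injective x₁) (hx₂ : Function.Injective x₂)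
    (M₁ : Divisor k F₁) (M₂ : Divisor k F₂) (hM₁ : ∀ c, M₁ (x₁ c) = 0) (hM₂ : ∀ c, M₂ (x₂ c) = 0)
    (hd₁ : 2 * (g₁ : ℤ) + s ≤ Divisor.degree M₁) (hd₂ : 2 * (g₂ : ℤ) + s ≤ Divisor.degree M₂)
    (S₁ : Finset (Place k F₁)) (S₂ : Finset (Place k F₂)) :
    ∃ φ ∈ NS x₁ x₂ M₁ M₂, φ.1 ≠ 0 ∧ φ.2 ≠ 0 ∧ (∀ P ∈ S₁, P.ord φ.1 = -M₁ P) ∧
      (∀ P ∈ S₂, P.ord φ.2 = -M₂ P) ∧ (∀ c, (x₁ c).ord φ.1 = 0) ∧ (∀ c, (x₂ c).ord φ.2 = 0) := by
  classical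
  have := hF₁.infinite_places
  have := hF₂.infinite_places
  obtain ⟨Q₁⟩ := (inferInstance : Nonempty (Place k F₁))
  obtain ⟨Q₂⟩ := (inferInstance : Nonempty (Place k F₂))
  obtain ⟨φ, hφ, h1, h2, k1, k2⟩ := exists_mem_ord_eq (NS x₁ x₂ M₁ M₂) le_rfl
    (not_NS_le_sub_single₁ hF₁ hF₂ hx₁ hx₂ M₁ M₂ hM₁ hM₂ hd₁ (by linarith))
    (not_NS_le_sub_single₂ hF₁ hF₂ hx₁ hx₂ M₁ M₂ hM₁ hM₂ (by linarith) hd₂)
    (insert Q₁ (S₁ ∪ Finset.univ.image x₁)) (insert Q₂ (S₂ ∪ Finset.univ.image x₂))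
    (Finset.insert_nonempty _ _) (Finset.insert_nonempty _ _)
  refine ⟨φ, hφ, h1, h2, fun P hP => k1 P ?_, fun P hP => k2 P ?_, fun c => ?_, fun c => ?_⟩
  · exact Finset.mem_insert_of_mem (Finset.mem_union_left _ hP)
  · exact Finset.mem_insert_of_mem (Finset.mem_union_left _ hP)
  · have := k1 (x₁ c) (Finset.mem_insert_of_mem (Finset.mem_union_right _
      (Finset.mem_image.2 ⟨c, Finset.mem_univ c, rfl⟩)))
    rw [this, hM₁ c, neg_zero]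
  · have := k2 (x₂ c) (Finset.mem_insert_of_mem (Finset.mem_union_right _
      (Finset.mem_image.2 ⟨c, Finset.mem_univ c, rfl⟩)))
    rw [this, hM₂ c, neg_zero]

/-- an effective Cartier divisor in the class of `M` on the nodal curve avoiding finite sets (and
the nodes) -/
theorem exists_NS_effective_avoiding (hF₁ : IsCurveOfGenus k F₁ g₁)
    (hF₂ : IsCurveOfGenus k F₂ g₂) [Infinite k]
    (hx₁ : Function.Injective x₁) (hx₂ : Function.Injective x₂)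
    (M₁ : Divisor k F₁) (M₂ : Divisor k F₂) (hM₁ : ∀ c, M₁ (x₁ c) = 0) (hM₂ : ∀ c, M₂ (x₂ c) = 0)
    (hd₁ : 2 * (g₁ : ℤ) + s ≤ Divisor.degree M₁) (hd₂ : 2 * (g₂ : ℤ) + s ≤ Divisor.degree M₂)
    (S₁ : Finset (Place k F₁)) (S₂ : Finset (Place k F₂)) :
    ∃ (φ : F₁ × F₂) (C₁ : Divisor k F₁) (C₂ : Divisor k F₂), φ ∈ NS x₁ x₂ M₁ M₂ ∧
      φ.1 ≠ 0 ∧ φ.2 ≠ 0 ∧ 0 ≤ C₁ ∧ 0 ≤ C₂ ∧ (∀ P ∈ S₁, C₁ P = 0) ∧ (∀ P ∈ S₂, C₂ P = 0) ∧
      (∀ c, C₁ (x₁ c) = 0) ∧ (∀ c, C₂ (x₂ c) = 0) ∧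
      (∀ c, (x₁ c).ord φ.1 = 0) ∧ (∀ c, (x₂ c).ord φ.2 = 0) ∧
      (∀ v : Place k F₁, C₁ v = v.ord φ.1 + M₁ v) ∧ (∀ v : Place k F₂, C₂ v = v.ord φ.2 + M₂ v) := by
  have i1 := hF₁.hasPrincipalDivisors
  have i2 := hF₂.hasPrincipalDivisors
  obtain ⟨φ, hφ, h1, h2, k1, k2, n1, n2⟩ :=
    exists_NS_section_avoiding hF₁ hF₂ hx₁ hx₂ M₁ M₂ hM₁ hM₂ hd₁ hd₂ S₁ S₂
  refine ⟨φ, divOf (K := k) φ.1 + M₁, divOf (K := k) φ.2 + M₂, hφ, h1, h2,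
    ((mem_riemannRochSpace_iff_divOf (K := k)).1 hφ.1).resolve_left h1,
    ((mem_riemannRochSpace_iff_divOf (K := k)).1 hφ.2.1).resolve_left h2,
    fun P hP => ?_, fun P hP => ?_, fun c => ?_, fun c => ?_, n1, n2, fun v => ?_, fun v => ?_⟩
  · rw [Finsupp.add_apply, divOf_apply h1, k1 P hP]; ring
  · rw [Finsupp.add_apply, divOf_apply h2, k2 P hP]; ring
  · rw [Finsupp.add_apply, divOf_apply h1, n1 c, hM₁ c]; ring
  · rw [Finsupp.add_apply, divOf_apply h2, n2 c, hM₂ c]; ring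
  · rw [Finsupp.add_apply, divOf_apply h1]
  · rw [Finsupp.add_apply, divOf_apply h2]

/-- `σ` is glued at all nodes, with nonzero components which are units at the node points -/
structure IsNodeUnit (x₁ : Fin s → Place k F₁) (x₂ : Fin s → Place k F₂) (σ : F₁ × F₂) : Prop where
  ne₁ : σ.1 ≠ 0
  ne₂ : σ.2 ≠ 0
  glued : ∀ c, GluedAt x₁ x₂ c 1 σ
  ord₁ : ∀ c, (x₁ c).ord σ.1 = 0
  ord₂ : ∀ c, (x₂ c).ord σ.2 = 0

theorem IsNodeUnit.inv_glued (hd₁ : ∀ v : Place k F₁, v.deg = 1) (hd₂ : ∀ v : Place k F₂, v.deg = 1)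
    {σ : F₁ × F₂} (h : IsNodeUnit x₁ x₂ σ) (c : Fin s) : GluedAt x₁ x₂ c 1 (σ.1⁻¹, σ.2⁻¹) :=
  gluedAt_inv hd₁ hd₂ (h.glued c) h.ne₁ (h.ord₁ c)

/-- **twisting on the nodal curve**: `NS(D) = k · σ` when `σ` is glued and a unit at the nodes and
the only sections of `D + div σ` are the constants -/
theorem NS_eq_span_of_twist (hF₁ : IsCurveOfGenus k F₁ g₁) (hF₂ : IsCurveOfGenus k F₂ g₂)
    {D₁ E₁ : Divisor k F₁} {D₂ E₂ : Divisor k F₂} {σ : F₁ × F₂} (hσ : IsNodeUnit x₁ x₂ σ)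
    (h₁ : ∀ v : Place k F₁, E₁ v = D₁ v + v.ord σ.1) (h₂ : ∀ v : Place k F₂, E₂ v = D₂ v + v.ord σ.2)
    (hE : NS x₁ x₂ E₁ E₂ = Submodule.span k {((1 : F₁), (1 : F₂))}) :
    NS x₁ x₂ D₁ D₂ = Submodule.span k {σ} := by
  have h11 : ((1 : F₁), (1 : F₂)) ∈ NS x₁ x₂ E₁ E₂ := by
    rw [hE]; exact Submodule.mem_span_singleton_self _
  apply le_antisymm
  · rintro ⟨φ₁, φ₂⟩ ⟨hφ₁, hφ₂, hglue⟩
    simp only at hφ₁ hφ₂
    have hmem : ((φ₁ * σ.1⁻¹, φ₂ * σ.2⁻¹) : F₁ × F₂) ∈ NS x₁ x₂ E₁ E₂ := by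
      refine ⟨(mem_rr_iff_mul_inv hσ.ne₁ h₁ φ₁).1 hφ₁, (mem_rr_iff_mul_inv hσ.ne₂ h₂ φ₂).1 hφ₂,
        fun c => ?_⟩
      have := gluedAt_mul (hglue c) (hσ.inv_glued hF₁.deg_eq_one hF₂.deg_eq_one c)
      exact this
    rw [hE, Submodule.mem_span_singleton] at hmem
    obtain ⟨a, ha⟩ := hmem
    rw [Prod.smul_mk, Prod.mk.injEq] at ha
    rw [Submodule.mem_span_singleton]
    refine ⟨a, ?_⟩
    have e1 : φ₁ = a • σ.1 := by
      have := ha.1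
      rw [Algebra.smul_def, mul_one] at this
      rw [Algebra.smul_def, this, inv_mul_cancel_right₀ hσ.ne₁]
    have e2 : φ₂ = a • σ.2 := by
      have := ha.2
      rw [Algebra.smul_def, mul_one] at this
      rw [Algebra.smul_def, this, inv_mul_cancel_right₀ hσ.ne₂]
    rw [e1, e2]
    rfl
  · rw [Submodule.span_le, Set.singleton_subset_iff]
    refine ⟨?_, ?_, hσ.glued⟩
    · rw [mem_rr_of_ne hσ.ne₁]
      intro v
      have := (mem_rr_iff.1 h11.1 v).resolve_left one_ne_zero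
      rw [(v.ord_one), h₁ v] at this
      linarith
    · rw [mem_rr_of_ne hσ.ne₂]
      intro v
      have := (mem_rr_iff.1 h11.2.1 v).resolve_left one_ne_zero
      rw [(v.ord_one), h₂ v] at this
      linarith

/-- **the residue side of a configuration on the nodal curve**: three non-special effective
Cartier divisors `Ea, Eb, Ec` (pairs, vanishing at the node points, of the same bidegree
`(d₁, d₂)`), a frame `(Y₁, Y₂)` of positive bidegree, finite sets to avoid. -/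
theorem exists_nodal_residue_tri (hF₁ : IsCurveOfGenus k F₁ g₁) (hF₂ : IsCurveOfGenus k F₂ g₂)
    [Infinite k] (hx₁ : Function.Injective x₁) (hx₂ : Function.Injective x₂)
    (Y₁ : Divisor k F₁) (Y₂ : Divisor k F₂) (hY₁ : 0 < Divisor.degree Y₁)
    (hY₂ : 0 < Divisor.degree Y₂) (hY₁x : ∀ c, Y₁ (x₁ c) = 0) (hY₂x : ∀ c, Y₂ (x₂ c) = 0)
    {Ea₁ Eb₁ Ec₁ : Divisor k F₁} {Ea₂ Eb₂ Ec₂ : Divisor k F₂} {d₁ d₂ : ℕ}
    (ha₁x : ∀ c, Ea₁ (x₁ c) = 0) (hb₁x : ∀ c, Eb₁ (x₁ c) = 0) (hc₁x : ∀ c, Ec₁ (x₁ c) = 0)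
    (ha₂x : ∀ c, Ea₂ (x₂ c) = 0) (hb₂x : ∀ c, Eb₂ (x₂ c) = 0) (hc₂x : ∀ c, Ec₂ (x₂ c) = 0)
    (hda₁ : Divisor.degree Ea₁ = d₁) (hdb₁ : Divisor.degree Eb₁ = d₁)
    (hdc₁ : Divisor.degree Ec₁ = d₁)
    (hda₂ : Divisor.degree Ea₂ = d₂) (hdb₂ : Divisor.degree Eb₂ = d₂)
    (hdc₂ : Divisor.degree Ec₂ = d₂)
    (ha : NS x₁ x₂ Ea₁ Ea₂ = Submodule.span k {((1 : F₁), (1 : F₂))})
    (hb : NS x₁ x₂ Eb₁ Eb₂ = Submodule.span k {((1 : F₁), (1 : F₂))})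
    (hc : NS x₁ x₂ Ec₁ Ec₂ = Submodule.span k {((1 : F₁), (1 : F₂))})
    (S₁ : Finset (Place k F₁)) (S₂ : Finset (Place k F₂)) :
    ∃ (n : ℕ) (C₁ : Divisor k F₁) (C₂ : Divisor k F₂) (σ : F₁ × F₂),
      IsNodeUnit x₁ x₂ σ ∧ 0 ≤ C₁ ∧ 0 ≤ C₂ ∧
      (∀ P ∈ S₁, C₁ P = 0) ∧ (∀ P ∈ S₂, C₂ P = 0) ∧
      (∀ c, C₁ (x₁ c) = 0) ∧ (∀ c, C₂ (x₂ c) = 0) ∧
      (∀ v : Place k F₁, v.ord σ.1 + ((n : ℤ) • Y₁ - C₁) v = (Ea₁ + Eb₁ + Ec₁) v) ∧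
      (∀ v : Place k F₂, v.ord σ.2 + ((n : ℤ) • Y₂ - C₂) v = (Ea₂ + Eb₂ + Ec₂) v) ∧
      Divisor.degree ((n : ℤ) • Y₁ - C₁) = 3 * d₁ ∧ Divisor.degree ((n : ℤ) • Y₂ - C₂) = 3 * d₂ ∧
      σ ∈ NS x₁ x₂ ((n : ℤ) • Y₁ - C₁) ((n : ℤ) • Y₂ - C₂) ∧
      NS x₁ x₂ ((n : ℤ) • Y₁ - C₁ - Ea₁ - Eb₁) ((n : ℤ) • Y₂ - C₂ - Ea₂ - Eb₂) =
        Submodule.span k {σ} ∧
      NS x₁ x₂ ((n : ℤ) • Y₁ - C₁ - Eb₁ - Ec₁) ((n : ℤ) • Y₂ - C₂ - Eb₂ - Ec₂) =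
        Submodule.span k {σ} ∧
      NS x₁ x₂ ((n : ℤ) • Y₁ - C₁ - Ec₁ - Ea₁) ((n : ℤ) • Y₂ - C₂ - Ec₂ - Ea₂) =
        Submodule.span k {σ} := by
  classical
  have i1 := hF₁.hasPrincipalDivisors
  have i2 := hF₂.hasPrincipalDivisors
  -- the multiple of the frame
  obtain ⟨n, hn₁, hn₂⟩ : ∃ n : ℕ, 2 * (g₁ : ℤ) + s + 3 * d₁ ≤ n * Divisor.degree Y₁ ∧
      2 * (g₂ : ℤ) + s + 3 * d₂ ≤ n * Divisor.degree Y₂ := by
    refine ⟨(2 * g₁ + s + 3 * d₁) + (2 * g₂ + s + 3 * d₂), ?_, ?_⟩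
    · push_cast
      have h0 : (0 : ℤ) ≤ 2 * (g₁ : ℤ) + s + 3 * d₁ := by positivity
      have h0' : (0 : ℤ) ≤ 2 * (g₂ : ℤ) + s + 3 * d₂ := by positivity
      nlinarith
    · push_cast
      have h0 : (0 : ℤ) ≤ 2 * (g₁ : ℤ) + s + 3 * d₁ := by positivity
      have h0' : (0 : ℤ) ≤ 2 * (g₂ : ℤ) + s + 3 * d₂ := by positivity
      nlinarith
  set M₁ : Divisor k F₁ := (n : ℤ) • Y₁ - (Ea₁ + Eb₁ + Ec₁) with hM₁def
  set M₂ : Divisor k F₂ := (n : ℤ) • Y₂ - (Ea₂ + Eb₂ + Ec₂) with hM₂def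
  have hM₁x : ∀ c, M₁ (x₁ c) = 0 := fun c => by
    simp [hM₁def, hY₁x c, ha₁x c, hb₁x c, hc₁x c]
  have hM₂x : ∀ c, M₂ (x₂ c) = 0 := fun c => by
    simp [hM₂def, hY₂x c, ha₂x c, hb₂x c, hc₂x c]
  have hdegM₁ : 2 * (g₁ : ℤ) + s ≤ Divisor.degree M₁ := by
    rw [hM₁def, map_sub, map_add, map_add, map_zsmul, hda₁, hdb₁, hdc₁, smul_eq_mul]
    linarith
  have hdegM₂ : 2 * (g₂ : ℤ) + s ≤ Divisor.degree M₂ := by
    rw [hM₂def, map_sub, map_add, map_add, map_zsmul, hda₂, hdb₂, hdc₂, smul_eq_mul]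
    linarith
  obtain ⟨σ, C₁, C₂, hσM, hσ1, hσ2, hC₁0, hC₂0, hC₁S, hC₂S, hC₁x, hC₂x, hn1, hn2, hC₁, hC₂⟩ :=
    exists_NS_effective_avoiding hF₁ hF₂ hx₁ hx₂ M₁ M₂ hM₁x hM₂x hdegM₁ hdegM₂ S₁ S₂
  have hunit : IsNodeUnit x₁ x₂ σ := ⟨hσ1, hσ2, hσM.2.2, hn1, hn2⟩
  have hord₁ : ∀ v : Place k F₁, v.ord σ.1 + ((n : ℤ) • Y₁ - C₁) v = (Ea₁ + Eb₁ + Ec₁) v := by
    intro v
    have := hC₁ v
    rw [hM₁def, Finsupp.sub_apply] at this
    rw [Finsupp.sub_apply, this]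
    ring
  have hord₂ : ∀ v : Place k F₂, v.ord σ.2 + ((n : ℤ) • Y₂ - C₂) v = (Ea₂ + Eb₂ + Ec₂) v := by
    intro v
    have := hC₂ v
    rw [hM₂def, Finsupp.sub_apply] at this
    rw [Finsupp.sub_apply, this]
    ring
  have hB₁ : (n : ℤ) • Y₁ - C₁ = Ea₁ + Eb₁ + Ec₁ - divOf (K := k) σ.1 := by
    ext v
    have := hord₁ v
    rw [Finsupp.sub_apply (Ea₁ + Eb₁ + Ec₁), divOf_apply hσ1, ← this]
    ring
  have hB₂ : (n : ℤ) • Y₂ - C₂ = Ea₂ + Eb₂ + Ec₂ - divOf (K := k) σ.2 := by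
    ext v
    have := hord₂ v
    rw [Finsupp.sub_apply (Ea₂ + Eb₂ + Ec₂), divOf_apply hσ2, ← this]
    ring
  refine ⟨n, C₁, C₂, σ, hunit, hC₁0, hC₂0, hC₁S, hC₂S, hC₁x, hC₂x, hord₁, hord₂, ?_, ?_, ?_,
    ?_, ?_, ?_⟩
  · rw [hB₁, map_sub, map_add, map_add, degree_divOf, hda₁, hdb₁, hdc₁]; ring
  · rw [hB₂, map_sub, map_add, map_add, degree_divOf, hda₂, hdb₂, hdc₂]; ring
  · -- `σ ∈ NS(nY - C)`
    refine ⟨?_, ?_, hσM.2.2⟩
    · rw [mem_rr_of_ne hσ1]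
      intro v
      have h1 := hord₁ v
      have ha0 : 0 ≤ (Ea₁ + Eb₁ + Ec₁) v := by
        have e1 := (mem_rr_iff.1 (ha ▸ Submodule.mem_span_singleton_self _ :
          ((1 : F₁), (1 : F₂)) ∈ NS x₁ x₂ Ea₁ Ea₂).1 v).resolve_left one_ne_zero
        have e2 := (mem_rr_iff.1 (hb ▸ Submodule.mem_span_singleton_self _ :
          ((1 : F₁), (1 : F₂)) ∈ NS x₁ x₂ Eb₁ Eb₂).1 v).resolve_left one_ne_zero
        have e3 := (mem_rr_iff.1 (hc ▸ Submodule.mem_span_singleton_self _ :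
          ((1 : F₁), (1 : F₂)) ∈ NS x₁ x₂ Ec₁ Ec₂).1 v).resolve_left one_ne_zero
        rw [v.ord_one] at e1 e2 e3
        simp only [Finsupp.add_apply]
        linarith
      linarith
    · rw [mem_rr_of_ne hσ2]
      intro v
      have h1 := hord₂ v
      have ha0 : 0 ≤ (Ea₂ + Eb₂ + Ec₂) v := by
        have e1 := (mem_rr_iff.1 (ha ▸ Submodule.mem_span_singleton_self _ :
          ((1 : F₁), (1 : F₂)) ∈ NS x₁ x₂ Ea₁ Ea₂).2.1 v).resolve_left one_ne_zero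
        have e2 := (mem_rr_iff.1 (hb ▸ Submodule.mem_span_singleton_self _ :
          ((1 : F₁), (1 : F₂)) ∈ NS x₁ x₂ Eb₁ Eb₂).2.1 v).resolve_left one_ne_zero
        have e3 := (mem_rr_iff.1 (hc ▸ Submodule.mem_span_singleton_self _ :
          ((1 : F₁), (1 : F₂)) ∈ NS x₁ x₂ Ec₁ Ec₂).2.1 v).resolve_left one_ne_zero
        rw [v.ord_one] at e1 e2 e3
        simp only [Finsupp.add_apply]
        linarith
      linarith
  · refine NS_eq_span_of_twist hF₁ hF₂ hunit (E₁ := Ec₁) (E₂ := Ec₂) (fun v => ?_) (fun v => ?_) hc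
    · have := hord₁ v
      simp only [Finsupp.add_apply, Finsupp.sub_apply] at this ⊢
      linarith
    · have := hord₂ v
      simp only [Finsupp.add_apply, Finsupp.sub_apply] at this ⊢
      linarith
  · refine NS_eq_span_of_twist hF₁ hF₂ hunit (E₁ := Ea₁) (E₂ := Ea₂) (fun v => ?_) (fun v => ?_) ha
    · have := hord₁ v
      simp only [Finsupp.add_apply, Finsupp.sub_apply] at this ⊢
      linarith
    · have := hord₂ v
      simp only [Finsupp.add_apply, Finsupp.sub_apply] at this ⊢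
      linarith
  · refine NS_eq_span_of_twist hF₁ hF₂ hunit (E₁ := Eb₁) (E₂ := Eb₂) (fun v => ?_) (fun v => ?_) hb
    · have := hord₁ v
      simp only [Finsupp.add_apply, Finsupp.sub_apply] at this ⊢
      linarith
    · have := hord₂ v
      simp only [Finsupp.add_apply, Finsupp.sub_apply] at this ⊢
      linarith

end Fermat.Agent.S33lib.NB
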