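/-
S33lib / NB / Lift  (helper5)   — Project LSp, track B: fixed lifts on the NODAL model.
Port of `S19lib/B/Lift` (helper6) to `D : N.NRedDatum A F F₁ F₂`, `S : N.NSym D G`,
`C : N.NLiftCtx D S g g₁ g₂` (standing hypotheses and frames: `N/Family`, helper3).

* `le_pushO_apply`, `apply_eq_zero_of_pushO_eq_zero`, `push₁_divOf`, `push₂_divOf` : push-forwards;
* `exists_fixed_lift_stableRange` : lifting a section of `nodal (push E)` to a FIXED element of
  `L(E) ∩ O₁ ∩ O₂` (`E` stable, smooth support, stable range of `NB/RedRR`);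
* `exists_frame_avoiding₁₂`, **`exists_frame_avoiding`** : a frame whose push-forward avoids a
  given finite set of points of the special fibre;
* `exists_fixed_param₁/₂` : for a smooth point `Q̄` of a component outside the reduction of a frame,
  a fixed disc-regular function whose reduction has a simple zero at `Q̄`;
* `exists_fixed_zero`, `exists_chart_of_fixed_param` (one component, over `DiscDatum` / `DSym`);
* `fixedLiftPlace₁/₂`, **`fixedLiftPlace`** : **(Y0)** every good point of the special fibre has a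
  fixed lift;
* `exists_chart_at₁/₂`, **`exists_chart_at`** : a fixed chart centred at a given fixed place;
* **`exists_fam_of_points`** : an admissible chart family with prescribed (good, distinct,
  non-special) centres;
* **`nExistsFamStmt`** : **(Y)** admissible chart families exist away from any finite set
  (`N.NExistsFamStmt D S g`).
-/
import Mathlib
import Fermat.Agent.S33lib.N.Family
import Fermat.Agent.S33lib.NB.Kernel
import Fermat.Agent.S33lib.NB.Avoid
import Fermat.Agent.S33lib.NB.Special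

set_option autoImplicit false
set_option linter.unusedSectionVars false

noncomputable section

namespace Fermat.Agent.S33lib.NB

open AlgebraicCurve Module
open Fermat.Agent.S18lib Fermat.Agent.LSb Fermat.Agent.S33lib.N Fermat.Agent.S33lib.NC
open Fermat.Agent.S19lib.C

variable {L : Type*} [Field L] {A : ValuationSubring L}
variable {F : Type*} [Field F] [Algebra L F]
variable {G : Type*} [Group G]

local notation "k" => IsLocalRing.ResidueField A

variable [HasPrincipalDivisors L F]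
variable {F₁ F₂ : Type*} [Field F₁] [Field F₂]
variable [Algebra (IsLocalRing.ResidueField A) F₁] [Algebra (IsLocalRing.ResidueField A) F₂]

/-! ### push-forward of effective divisors -/

section Count

/-- for an effective divisor, a term of the fibre is bounded by the push-forward -/
theorem le_pushO_apply {ι κ : Type*} (r : ι → Option κ) {E : ι →₀ ℤ} (hE : 0 ≤ E) {P : ι} {Q : κ}
    (hP : r P = some Q) : E P ≤ pushO r E Q := by
  rw [pushO_apply]
  exact NC.le_mapDomain_of_fibre_nonneg r E (some Q)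
    (fun P' _ => by have := Finsupp.le_def.1 hE P'; simpa using this) hP

/-- an effective divisor vanishes at the places over a point where its push-forward vanishes -/
theorem apply_eq_zero_of_pushO_eq_zero {ι κ : Type*} (r : ι → Option κ) {E : ι →₀ ℤ} (hE : 0 ≤ E)
    {P : ι} {Q : κ} (hP : r P = some Q) (h : pushO r E Q = 0) : E P = 0 := by
  have h1 := le_pushO_apply r hE hP
  have h2 := Finsupp.le_def.1 hE P
  rw [Finsupp.zero_apply] at h2
  omega

end Count

/-! ### push-forward of principal divisors -/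

section PushDiv

variable [HasPrincipalDivisors (IsLocalRing.ResidueField A) F₁]
variable [HasPrincipalDivisors (IsLocalRing.ResidueField A) F₂]
variable (D : NRedDatum A F F₁ F₂)

/-- the push-forward to the first component of the divisor of a function whose first reduction is
nonzero and a unit at the nodes is the divisor of this reduction -/
theorem push₁_divOf {f : F} (hf : D.nod.V₁.redF f ≠ 0)
    (hx : ∀ c, (D.nod.x₁ c).ord (D.nod.V₁.redF f) = 0) :
    D.push₁ (divOf (K := L) f) = divOf (K := k) (D.nod.V₁.redF f) := by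
  ext Q
  rw [divOf_apply']
  by_cases hQ : ∃ c, Q = D.nod.x₁ c
  · obtain ⟨c, rfl⟩ := hQ
    rw [push₁_apply_x₁, hx c]
  · obtain ⟨P, hP⟩ := D.r_surj₁ Q fun c hc => hQ ⟨c, hc⟩
    exact D.cons₁ f hf P Q hP

/-- the push-forward to the second component of the divisor of a function whose second reduction
is nonzero and a unit at the nodes is the divisor of this reduction -/
theorem push₂_divOf {f : F} (hf : D.nod.V₂.redF f ≠ 0)
    (hx : ∀ c, (D.nod.x₂ c).ord (D.nod.V₂.redF f) = 0) :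
    D.push₂ (divOf (K := L) f) = divOf (K := k) (D.nod.V₂.redF f) := by
  ext Q
  rw [divOf_apply']
  by_cases hQ : ∃ c, Q = D.nod.x₂ c
  · obtain ⟨c, rfl⟩ := hQ
    rw [push₂_apply_x₂, hx c]
  · obtain ⟨P, hP⟩ := D.r_surj₂ Q fun c hc => hQ ⟨c, hc⟩
    exact D.cons₂ f hf P Q hP

end PushDiv

section Lift

variable [HasPrincipalDivisors (IsLocalRing.ResidueField A) F₁]
variable [HasPrincipalDivisors (IsLocalRing.ResidueField A) F₂]
variable {D : NRedDatum A F F₁ F₂} {S : NSym D G} {g g₁ g₂ : ℕ} (C : NLiftCtx D S g g₁ g₂)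
include C

/-- lifting a section of `nodal (push E)` to a FIXED element of `L(E) ∩ O₁ ∩ O₂`, for `E` stable,
supported on the smooth locus, in the stable range -/
theorem exists_fixed_lift_stableRange {E : Divisor L F} (hE : S.FixD E) (hsm : D.SmoothSupp E)
    (h₁ : 2 * (g₁ : ℤ) - 2 < Divisor.degree (D.push₁ E))
    (h₂ : 2 * (g₂ : ℤ) - 2 + D.nod.s < Divisor.degree (D.push₂ E)) {φ : F₁ × F₂}
    (hφ : φ ∈ D.nodal (D.push₁ E) (D.push₂ E)) :
    ∃ f ∈ riemannRochSpace E, f ∈ D.nod.V₁.O ∧ f ∈ D.nod.V₂.O ∧ S.FixF f ∧ D.nod.redF f = φ := by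
  obtain ⟨f, hfE, hfO₁, hfO₂, hfred⟩ := exists_lift_of_mem_rr D C.ctx hsm h₁ h₂ hφ
  obtain ⟨f', hf'E, hf'O₁, hf'O₂, hf'fix, hf'r₁, hf'r₂⟩ := C.lifts E hE f hfE hfO₁ hfO₂
  refine ⟨f', hf'E, hf'O₁, hf'O₂, hf'fix, ?_⟩
  rw [← hfred]
  exact Prod.ext hf'r₁ hf'r₂

end Lift

section Lift2

variable [HasPrincipalDivisors (IsLocalRing.ResidueField A) F₁]
variable [HasPrincipalDivisors (IsLocalRing.ResidueField A) F₂]
variable {D : NRedDatum A F F₁ F₂} {S : NSym D G} {g g₁ g₂ : ℕ} (C : NLiftCtx D S g g₁ g₂)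
include C

/-- **frames away from finite sets**: a frame whose push-forwards avoid given finite sets of points
of the two components -/
theorem exists_frame_avoiding₁₂ (T₁ : Finset (Place k F₁)) (T₂ : Finset (Place k F₂)) :
    ∃ Y : NFrame S, (∀ Q ∈ T₁, D.push₁ Y.Y Q = 0) ∧ (∀ Q ∈ T₂, D.push₂ Y.Y Q = 0) := by
  classical
  have := C.infinite_k
  have hdegL : ∀ P : Place L F, 0 < P.deg := fun P => by
    rw [C.ctx.hF.deg_eq_one P]; exact one_pos
  obtain ⟨Y₀⟩ := C.frame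
  set m : ℕ := 2 * g₁ + 2 * g₂ + D.nod.s + 1 with hm
  have hd₁ : (1 : ℤ) ≤ Divisor.degree (D.push₁ Y₀.Y) := by
    rw [← D.fst_push]; exact Y₀.deg_pos₁
  have hd₂ : (1 : ℤ) ≤ Divisor.degree (D.push₂ Y₀.Y) := by
    rw [← D.snd_push]; exact Y₀.deg_pos₂
  set E : Divisor L F := (m : ℤ) • Y₀.Y with hE
  have hEsm : D.SmoothSupp E := SmoothSupp.zsmul D Y₀.smooth m
  have hp₁ : D.push₁ E = (m : ℤ) • D.push₁ Y₀.Y := map_zsmul _ _ _
  have hp₂ : D.push₂ E = (m : ℤ) • D.push₂ Y₀.Y := map_zsmul _ _ _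
  have hg₁ : (0 : ℤ) ≤ g₁ := Int.natCast_nonneg _
  have hg₂ : (0 : ℤ) ≤ g₂ := Int.natCast_nonneg _
  have hs0 : (0 : ℤ) ≤ D.nod.s := Int.natCast_nonneg _
  have hdeg₁ : 2 * (g₁ : ℤ) + D.nod.s ≤ Divisor.degree (D.push₁ E) := by
    rw [hp₁, map_zsmul, smul_eq_mul, hm]
    push_cast
    nlinarith
  have hdeg₂ : 2 * (g₂ : ℤ) + D.nod.s ≤ Divisor.degree (D.push₂ E) := by
    rw [hp₂, map_zsmul, smul_eq_mul, hm]
    push_cast
    nlinarith
  have hpos₁ : 0 < Divisor.degree (D.push₁ E) := by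
    rw [hp₁, map_zsmul, smul_eq_mul, hm]
    push_cast
    nlinarith
  have hpos₂ : 0 < Divisor.degree (D.push₂ E) := by
    rw [hp₂, map_zsmul, smul_eq_mul, hm]
    push_cast
    nlinarith
  obtain ⟨φ, hφM, hφ1, hφ2, hφT₁, hφT₂, hφx₁, hφx₂⟩ := exists_NS_section_avoiding C.ctx.hF₁
    C.ctx.hF₂ C.ctx.x₁_injective C.ctx.x₂_injective (D.push₁ E) (D.push₂ E)
    (push₁_apply_x₁ D E) (push₂_apply_x₂ D E) hdeg₁ hdeg₂ T₁ T₂
  obtain ⟨f, hfE, hfO₁, hfO₂, hffix, hfred⟩ := exists_fixed_lift_stableRange C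
    (fixD_zsmul S.toIAct Y₀.fixD m) hEsm (by linarith) (by linarith) hφM
  have hr₁ : D.nod.V₁.redF f = φ.1 := congrArg Prod.fst hfred
  have hr₂ : D.nod.V₂.redF f = φ.2 := congrArg Prod.snd hfred
  have hf0 : f ≠ 0 := by
    rintro rfl
    rw [D.nod.V₁.redF_zero] at hr₁
    exact hφ1 hr₁.symm
  have hnn : 0 ≤ divOf (K := L) f + E :=
    ((mem_riemannRochSpace_iff_divOf (K := L)).1 hfE).resolve_left hf0
  have hpd₁ : D.push₁ (divOf (K := L) f) = divOf (K := k) φ.1 := by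
    rw [← hr₁]
    exact push₁_divOf D (by rw [hr₁]; exact hφ1) (fun c => by rw [hr₁]; exact hφx₁ c)
  have hpd₂ : D.push₂ (divOf (K := L) f) = divOf (K := k) φ.2 := by
    rw [← hr₂]
    exact push₂_divOf D (by rw [hr₂]; exact hφ2) (fun c => by rw [hr₂]; exact hφx₂ c)
  have hdY₁ : Divisor.degree (D.push₁ (divOf (K := L) f + E)) = Divisor.degree (D.push₁ E) := by
    rw [map_add, hpd₁, map_add, degree_divOf, zero_add]
  have hdY₂ : Divisor.degree (D.push₂ (divOf (K := L) f + E)) = Divisor.degree (D.push₂ E) := by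
    rw [map_add, hpd₂, map_add, degree_divOf, zero_add]
  refine ⟨{ Y := divOf (K := L) f + E
            nonneg := hnn
            smooth := smoothSupp_of_degree_push_eq D hdegL hnn ?_
            deg_pos₁ := by rw [D.fst_push, hdY₁]; exact hpos₁
            deg_pos₂ := by rw [D.snd_push, hdY₂]; exact hpos₂
            fixD := fixD_add S.toIAct (fixD_divOf S.toIAct hffix)
              (fixD_zsmul S.toIAct Y₀.fixD m) }, fun Q hQ => ?_, fun Q hQ => ?_⟩
  · rw [hdY₁, hdY₂, degree_push D hEsm, map_add, degree_divOf, zero_add]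
  · show D.push₁ (divOf (K := L) f + E) Q = 0
    rw [map_add, hpd₁, Finsupp.add_apply, divOf_apply', hφT₁ Q hQ]
    ring
  · show D.push₂ (divOf (K := L) f + E) Q = 0
    rw [map_add, hpd₂, Finsupp.add_apply, divOf_apply', hφT₂ Q hQ]
    ring

/-- **fixed parameters on the first component**: for a smooth point `Q̄` of the first component
outside the reduction of a frame there is a fixed function of `O₁ ∩ O₂`, regular on the disc over
`Q̄`, whose first reduction has a simple zero at `Q̄` -/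
theorem exists_fixed_param₁ (Y : NFrame S) {Qb : Place k F₁} (hnode : ∀ c, Qb ≠ D.nod.x₁ c)
    (hQ : D.push₁ Y.Y Qb = 0) :
    ∃ t : F, S.FixF t ∧ t ∈ D.nod.V₂.O ∧ DiscReg D.D₁ Qb t ∧ Qb.ord (D.nod.V₁.redF t) = 1 := by
  classical
  have := C.infinite_k
  set m : ℕ := 2 * g₁ + 2 * g₂ + D.nod.s + 2 with hm
  have hd₁ : (1 : ℤ) ≤ Divisor.degree (D.push₁ Y.Y) := by
    rw [← D.fst_push]; exact Y.deg_pos₁
  have hd₂ : (1 : ℤ) ≤ Divisor.degree (D.push₂ Y.Y) := by
    rw [← D.snd_push]; exact Y.deg_pos₂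
  set E : Divisor L F := (m : ℤ) • Y.Y with hE
  have hEsm : D.SmoothSupp E := SmoothSupp.zsmul D Y.smooth m
  have hp₁ : D.push₁ E = (m : ℤ) • D.push₁ Y.Y := map_zsmul _ _ _
  have hp₂ : D.push₂ E = (m : ℤ) • D.push₂ Y.Y := map_zsmul _ _ _
  have hg₁ : (0 : ℤ) ≤ g₁ := Int.natCast_nonneg _
  have hg₂ : (0 : ℤ) ≤ g₂ := Int.natCast_nonneg _
  have hs0 : (0 : ℤ) ≤ D.nod.s := Int.natCast_nonneg _
  have hdeg₁ : 2 * (g₁ : ℤ) + D.nod.s + 1 ≤ Divisor.degree (D.push₁ E) := by
    rw [hp₁, map_zsmul, smul_eq_mul, hm]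
    push_cast
    nlinarith
  have hdeg₂ : 2 * (g₂ : ℤ) + D.nod.s ≤ Divisor.degree (D.push₂ E) := by
    rw [hp₂, map_zsmul, smul_eq_mul, hm]
    push_cast
    nlinarith
  have hEQ : D.push₁ E Qb = 0 := by
    rw [hp₁, Finsupp.smul_apply, hQ, smul_zero]
  set M₁ : Divisor k F₁ := D.push₁ E - Finsupp.single Qb 1 with hM₁
  have hM₁x : ∀ c, M₁ (D.nod.x₁ c) = 0 := fun c => by
    rw [hM₁, Finsupp.sub_apply, push₁_apply_x₁, Finsupp.single_apply, if_neg (hnode c), sub_zero]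
  have hdegM₁ : 2 * (g₁ : ℤ) + D.nod.s ≤ Divisor.degree M₁ := by
    rw [hM₁, map_sub, Divisor.degree_single, C.ctx.hF₁.deg_eq_one]
    push_cast
    linarith
  obtain ⟨φ, hφM, hφ1, hφ2, hφT₁, -, -, -⟩ := exists_NS_section_avoiding C.ctx.hF₁
    C.ctx.hF₂ C.ctx.x₁_injective C.ctx.x₂_injective M₁ (D.push₂ E)
    hM₁x (push₂_apply_x₂ D E) hdegM₁ hdeg₂ {Qb} ∅
  have hφQ : Qb.ord φ.1 = 1 := by
    rw [hφT₁ Qb (Finset.mem_singleton_self Qb), hM₁, Finsupp.sub_apply, hEQ,
      Finsupp.single_apply, if_pos rfl]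
    norm_num
  have hφE : φ ∈ D.nodal (D.push₁ E) (D.push₂ E) := by
    refine Core.nodalSpace_mono (fun v => ?_) (fun v => le_rfl) hφM
    rw [hM₁, Finsupp.sub_apply, Finsupp.single_apply]
    split_ifs <;> simp
  obtain ⟨t, htE, htO₁, htO₂, htfix, htred⟩ := exists_fixed_lift_stableRange C
    (fixD_zsmul S.toIAct Y.fixD m) hEsm (by linarith) (by linarith) hφE
  have hr₁ : D.nod.V₁.redF t = φ.1 := congrArg Prod.fst htred
  refine ⟨t, htfix, htO₂, ⟨htO₁, fun P hP => ?_⟩, by rw [hr₁]; exact hφQ⟩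
  rw [regAt_iff_ord]
  rcases eq_or_ne t 0 with rfl | ht0
  · rw [Place.ord_zero]
  have h1 := (mem_riemannRochSpace_iff.1 htE P).resolve_left ht0
  have h2 : Y.Y P = 0 := apply_eq_zero_of_pushO_eq_zero (fst? D.r) Y.nonneg hP hQ
  rw [Finsupp.smul_apply, h2, smul_zero, neg_zero] at h1
  exact h1

/-- **fixed parameters on the second component** -/
theorem exists_fixed_param₂ (Y : NFrame S) {Qb : Place k F₂} (hnode : ∀ c, Qb ≠ D.nod.x₂ c)
    (hQ : D.push₂ Y.Y Qb = 0) :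
    ∃ t : F, S.FixF t ∧ t ∈ D.nod.V₁.O ∧ DiscReg D.D₂ Qb t ∧ Qb.ord (D.nod.V₂.redF t) = 1 := by
  classical
  have := C.infinite_k
  set m : ℕ := 2 * g₁ + 2 * g₂ + D.nod.s + 2 with hm
  have hd₁ : (1 : ℤ) ≤ Divisor.degree (D.push₁ Y.Y) := by
    rw [← D.fst_push]; exact Y.deg_pos₁
  have hd₂ : (1 : ℤ) ≤ Divisor.degree (D.push₂ Y.Y) := by
    rw [← D.snd_push]; exact Y.deg_pos₂
  set E : Divisor L F := (m : ℤ) • Y.Y with hE
  have hEsm : D.SmoothSupp E := SmoothSupp.zsmul D Y.smooth m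
  have hp₁ : D.push₁ E = (m : ℤ) • D.push₁ Y.Y := map_zsmul _ _ _
  have hp₂ : D.push₂ E = (m : ℤ) • D.push₂ Y.Y := map_zsmul _ _ _
  have hg₁ : (0 : ℤ) ≤ g₁ := Int.natCast_nonneg _
  have hg₂ : (0 : ℤ) ≤ g₂ := Int.natCast_nonneg _
  have hs0 : (0 : ℤ) ≤ D.nod.s := Int.natCast_nonneg _
  have hdeg₁ : 2 * (g₁ : ℤ) + D.nod.s ≤ Divisor.degree (D.push₁ E) := by
    rw [hp₁, map_zsmul, smul_eq_mul, hm]
    push_cast
    nlinarith
  have hdeg₂ : 2 * (g₂ : ℤ) + D.nod.s + 1 ≤ Divisor.degree (D.push₂ E) := by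
    rw [hp₂, map_zsmul, smul_eq_mul, hm]
    push_cast
    nlinarith
  have hEQ : D.push₂ E Qb = 0 := by
    rw [hp₂, Finsupp.smul_apply, hQ, smul_zero]
  set M₂ : Divisor k F₂ := D.push₂ E - Finsupp.single Qb 1 with hM₂
  have hM₂x : ∀ c, M₂ (D.nod.x₂ c) = 0 := fun c => by
    rw [hM₂, Finsupp.sub_apply, push₂_apply_x₂, Finsupp.single_apply, if_neg (hnode c), sub_zero]
  have hdegM₂ : 2 * (g₂ : ℤ) + D.nod.s ≤ Divisor.degree M₂ := by
    rw [hM₂, map_sub, Divisor.degree_single, C.ctx.hF₂.deg_eq_one]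
    push_cast
    linarith
  obtain ⟨φ, hφM, hφ1, hφ2, -, hφT₂, -, -⟩ := exists_NS_section_avoiding C.ctx.hF₁
    C.ctx.hF₂ C.ctx.x₁_injective C.ctx.x₂_injective (D.push₁ E) M₂
    (push₁_apply_x₁ D E) hM₂x hdeg₁ hdegM₂ ∅ {Qb}
  have hφQ : Qb.ord φ.2 = 1 := by
    rw [hφT₂ Qb (Finset.mem_singleton_self Qb), hM₂, Finsupp.sub_apply, hEQ,
      Finsupp.single_apply, if_pos rfl]
    norm_num
  have hφE : φ ∈ D.nodal (D.push₁ E) (D.push₂ E) := by
    refine Core.nodalSpace_mono (fun v => le_rfl) (fun v => ?_) hφM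
    rw [hM₂, Finsupp.sub_apply, Finsupp.single_apply]
    split_ifs <;> simp
  obtain ⟨t, htE, htO₁, htO₂, htfix, htred⟩ := exists_fixed_lift_stableRange C
    (fixD_zsmul S.toIAct Y.fixD m) hEsm (by linarith) (by linarith) hφE
  have hr₂ : D.nod.V₂.redF t = φ.2 := congrArg Prod.snd htred
  refine ⟨t, htfix, htO₁, ⟨htO₂, fun P hP => ?_⟩, by rw [hr₂]; exact hφQ⟩
  rw [regAt_iff_ord]
  rcases eq_or_ne t 0 with rfl | ht0
  · rw [Place.ord_zero]
  have h1 := (mem_riemannRochSpace_iff.1 htE P).resolve_left ht0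
  have h2 : Y.Y P = 0 := apply_eq_zero_of_pushO_eq_zero (snd? D.r) Y.nonneg hP hQ
  rw [Finsupp.smul_apply, h2, smul_zero, neg_zero] at h1
  exact h1

end Lift2

/-! ### one component: fixed zeros and fixed charts -/

section Disc

variable {Fk : Type*} [Field Fk] [Algebra (IsLocalRing.ResidueField A) Fk]
variable [HasPrincipalDivisors (IsLocalRing.ResidueField A) Fk]
variable {Dd : DiscDatum A F Fk} (Sd : DSym Dd G)

/-- a fixed function, regular on the disc over a good point `Q̄`, whose reduction has a simple zero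
at `Q̄` has a unique zero in the disc, and this zero is a fixed place -/
theorem exists_fixed_zero {Qb : Place k Fk} (hgood : Dd.Good Qb) {t : F} (htfix : Sd.FixF t)
    (htreg : DiscReg Dd Qb t) (ht : Qb.ord (Dd.G.redF t) = 1) :
    ∃ P : Place L F, Dd.r P = some Qb ∧ Sd.FixP P ∧ P.ord t = 1 := by
  obtain ⟨P, ⟨hP, hord⟩, huniq⟩ := existsUnique_zero_of_ord_eq_one Dd hgood ht
    (fun P hP => regAt_iff_ord.1 (htreg.2 P hP))
  exact ⟨P, hP, fixP_of_unique_zero Sd htfix hP (by rw [hord]; exact one_pos) huniq, hord⟩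

/-- **a fixed chart from a fixed parameter**: recentring a fixed disc-regular function whose
reduction has a simple zero at `Q̄` at a fixed place of the disc -/
theorem exists_chart_of_fixed_param (hdegL : ∀ P : Place L F, P.deg = 1)
    (hdegk : ∀ Q : Place k Fk, Q.deg = 1) {P : Place L F} {Qb : Place k Fk}
    (hP : Dd.r P = some Qb) (hPfix : Sd.FixP P) {t' : F} (htfix : Sd.FixF t')
    (htreg : DiscReg Dd Qb t') (ht : Qb.ord (Dd.G.redF t') = 1) :
    ∃ c : Chart Dd Qb, c.P0 = P ∧ Sd.FixF c.t := by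
  classical
  have hdegP : P.deg = 1 := hdegL P
  have hdegQ : Qb.deg = 1 := hdegk Qb
  -- `t'` is a parameter on the disc
  have hev0 : ev Qb (Dd.G.redF t') = 0 := by
    rw [ev_eq_zero_iff hdegQ (regAt_iff_ord.2 (by rw [ht]; exact zero_le_one))]
    exact Or.inr (by rw [ht]; exact one_pos)
  have hpar' : IsParamAt Dd Qb t' := ⟨htreg, by rw [hev0, map_zero, sub_zero]; exact ht⟩
  -- recentre at `P`
  have hevA : ev P t' ∈ A := htreg.ev_mem hP hdegP
  have hevR : ev P t' ∈ Sd.R := ev_mem_R Sd.toIAct hdegP (htreg.2 P hP) hPfix htfix hevA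
  set t : F := t' - algebraMap L F (ev P t') with htdef
  have htreg2 : DiscReg Dd Qb t := hpar'.discReg_sub_ev hP hdegP
  have htred : Dd.G.redF t = Dd.G.redF t' := by
    rw [htdef, hpar'.redF_sub_ev hP hdegP, hev0, map_zero, sub_zero]
  have hpar : IsParamAt Dd Qb t :=
    ⟨htreg2, by rw [htred, hev0, map_zero, sub_zero]; exact ht⟩
  refine ⟨{ t := t, P0 := P, r_P0 := hP, param := hpar, centred := ?_,
            deg_one := hdegL }, rfl, NC.FixF.sub Sd.toIAct htfix (fixF_const Sd.toIAct hevR)⟩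
  rw [htdef, ev_sub hdegP (htreg.2 P hP) (regAt_const _), ev_const, sub_self]

end Disc

section Lift3

variable [HasPrincipalDivisors (IsLocalRing.ResidueField A) F₁]
variable [HasPrincipalDivisors (IsLocalRing.ResidueField A) F₂]
variable {D : NRedDatum A F F₁ F₂} {S : NSym D G} {g g₁ g₂ : ℕ} (C : NLiftCtx D S g g₁ g₂)
include C

/-- a fixed function on the disc over a smooth point `Q̄` of the first component whose first
reduction has a simple zero at `Q̄` -/
theorem exists_fixed_param_at₁ {Qb : Place k F₁} (hnode : ∀ c, Qb ≠ D.nod.x₁ c) :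
    ∃ t : F, S.FixF t ∧ DiscReg D.D₁ Qb t ∧ Qb.ord (D.nod.V₁.redF t) = 1 := by
  classical
  obtain ⟨Y, hY, -⟩ := exists_frame_avoiding₁₂ C {Qb} ∅
  obtain ⟨t, htfix, -, htreg, ht⟩ := exists_fixed_param₁ C Y hnode
    (hY Qb (Finset.mem_singleton_self Qb))
  exact ⟨t, htfix, htreg, ht⟩

/-- a fixed function on the disc over a smooth point `Q̄` of the second component whose second
reduction has a simple zero at `Q̄` -/
theorem exists_fixed_param_at₂ {Qb : Place k F₂} (hnode : ∀ c, Qb ≠ D.nod.x₂ c) :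
    ∃ t : F, S.FixF t ∧ DiscReg D.D₂ Qb t ∧ Qb.ord (D.nod.V₂.redF t) = 1 := by
  classical
  obtain ⟨Y, -, hY⟩ := exists_frame_avoiding₁₂ C ∅ {Qb}
  obtain ⟨t, htfix, -, htreg, ht⟩ := exists_fixed_param₂ C Y hnode
    (hY Qb (Finset.mem_singleton_self Qb))
  exact ⟨t, htfix, htreg, ht⟩

/-- **(Y0)**, first component: every smooth point of the first component has a fixed lift -/
theorem fixedLiftPlace₁ (Q : Place k F₁) (hnode : ∀ c, Q ≠ D.nod.x₁ c) :
    ∃ P : Place L F, D.r P = some (Sum.inl Q) ∧ S.FixP P := by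
  obtain ⟨t, htfix, htreg, ht⟩ := exists_fixed_param_at₁ C hnode
  obtain ⟨P₀, hP₀⟩ := D.r_surj₁ Q hnode
  obtain ⟨P, hP, hPfix, -⟩ := exists_fixed_zero S.S₁ (Dd := D.D₁) ⟨P₀, fst?_eq_some.2 hP₀⟩
    htfix htreg ht
  exact ⟨P, fst?_eq_some.1 hP, hPfix⟩

/-- **(Y0)**, second component: every smooth point of the second component has a fixed lift -/
theorem fixedLiftPlace₂ (Q : Place k F₂) (hnode : ∀ c, Q ≠ D.nod.x₂ c) :
    ∃ P : Place L F, D.r P = some (Sum.inr Q) ∧ S.FixP P := by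
  obtain ⟨t, htfix, htreg, ht⟩ := exists_fixed_param_at₂ C hnode
  obtain ⟨P₀, hP₀⟩ := D.r_surj₂ Q hnode
  obtain ⟨P, hP, hPfix, -⟩ := exists_fixed_zero S.S₂ (Dd := D.D₂) ⟨P₀, snd?_eq_some.2 hP₀⟩
    htfix htreg ht
  exact ⟨P, snd?_eq_some.1 hP, hPfix⟩

/-- **fixed charts with a prescribed fixed centre**, first component -/
theorem exists_chart_at₁ {P : Place L F} {Q : Place k F₁} (hP : D.r P = some (Sum.inl Q))
    (hPfix : S.FixP P) : ∃ c : Chart D.D₁ Q, c.P0 = P ∧ S.FixF c.t := by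
  obtain ⟨t, htfix, htreg, ht⟩ := exists_fixed_param_at₁ C (D.r_ne_x₁ P Q hP)
  exact exists_chart_of_fixed_param S.S₁ (Dd := D.D₁) C.ctx.hF.deg_eq_one C.ctx.hF₁.deg_eq_one
    (fst?_eq_some.2 hP) hPfix htfix htreg ht

/-- **fixed charts with a prescribed fixed centre**, second component -/
theorem exists_chart_at₂ {P : Place L F} {Q : Place k F₂} (hP : D.r P = some (Sum.inr Q))
    (hPfix : S.FixP P) : ∃ c : Chart D.D₂ Q, c.P0 = P ∧ S.FixF c.t := by
  obtain ⟨t, htfix, htreg, ht⟩ := exists_fixed_param_at₂ C (D.r_ne_x₂ P Q hP)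
  exact exists_chart_of_fixed_param S.S₂ (Dd := D.D₂) C.ctx.hF.deg_eq_one C.ctx.hF₂.deg_eq_one
    (snd?_eq_some.2 hP) hPfix htfix htreg ht

end Lift3

/-! ### the statements in the language of `Pt` (exports for `NB/TriExists`) -/

section PtLevel

variable [HasPrincipalDivisors (IsLocalRing.ResidueField A) F₁]
variable [HasPrincipalDivisors (IsLocalRing.ResidueField A) F₂]
variable {D : NRedDatum A F F₁ F₂} {S : NSym D G} {g g₁ g₂ : ℕ} (C : NLiftCtx D S g g₁ g₂)
include C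

/-- **frames away from a finite set** of points of the special fibre -/
theorem exists_frame_avoiding (T : Finset (Pt A F₁ F₂)) :
    ∃ Y : NFrame S, ∀ q ∈ T, D.push Y.Y q = 0 := by
  obtain ⟨Y, h₁, h₂⟩ := exists_frame_avoiding₁₂ C T.toLeft T.toRight
  refine ⟨Y, fun q hq => ?_⟩
  rcases q with Q | Q
  · rw [← RDiv.fst_apply, D.fst_push]
    exact h₁ Q (Finset.mem_toLeft.2 hq)
  · rw [← RDiv.snd_apply, D.snd_push]
    exact h₂ Q (Finset.mem_toRight.2 hq)

/-- **(Y0)**: every good point of the special fibre has a fixed lift -/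
theorem fixedLiftPlace (q : Pt A F₁ F₂) (hq : D.Good q) :
    ∃ P : Place L F, D.r P = some q ∧ S.FixP P := by
  obtain ⟨P₀, hP₀⟩ := hq
  rcases q with Q | Q
  · exact fixedLiftPlace₁ C Q (D.r_ne_x₁ P₀ Q hP₀)
  · exact fixedLiftPlace₂ C Q (D.r_ne_x₂ P₀ Q hP₀)

/-- **fixed charts with a prescribed fixed centre** -/
theorem exists_chart_at {P : Place L F} {q : Pt A F₁ F₂} (hPfix : S.FixP P)
    (hr : D.r P = some q) : ∃ c : NChart D q, c.P0 = P ∧ S.FixF c.t := by
  rcases q with Q | Q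
  · obtain ⟨c, hc0, hcfix⟩ := exists_chart_at₁ C hr hPfix
    exact ⟨NChart.of₁ c, hc0, hcfix⟩
  · obtain ⟨c, hc0, hcfix⟩ := exists_chart_at₂ C hr hPfix
    exact ⟨NChart.of₂ c, hc0, hcfix⟩

/-- **an admissible chart family with prescribed centres** -/
theorem exists_fam_of_points (Qb : Fin g → Pt A F₁ F₂) (hinj : Function.Injective Qb)
    (hgood : ∀ i, D.Good (Qb i)) (hns : D.ellR (∑ i, ptR (Qb i)) = 1) :
    ∃ a : NFam D S g, a.Qb = Qb := by
  choose P hP hPfix using fun i => fixedLiftPlace C (Qb i) (hgood i)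
  choose c hc0 hcfix using fun i => exists_chart_at C (hPfix i) (hP i)
  exact ⟨{ Qb := Qb
           ch := c
           inj := hinj
           fixT := hcfix
           fixP := fun i => by rw [hc0 i]; exact hPfix i
           nonspecial := hns
           deg_one := C.curve.deg_eq_one }, rfl⟩

/-- the genus formula `g + 1 = g₁ + g₂ + s`, from the frame -/
theorem genus_eq_of_liftCtx : g + 1 = g₁ + g₂ + D.nod.s := by
  obtain ⟨Y₀⟩ := C.frame
  set m : ℕ := 2 * g₁ + 2 * g₂ + D.nod.s + 1 with hm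
  have hd₁ : (1 : ℤ) ≤ Divisor.degree (D.push₁ Y₀.Y) := by
    rw [← D.fst_push]; exact Y₀.deg_pos₁
  have hd₂ : (1 : ℤ) ≤ Divisor.degree (D.push₂ Y₀.Y) := by
    rw [← D.snd_push]; exact Y₀.deg_pos₂
  have hEsm : D.SmoothSupp ((m : ℤ) • Y₀.Y) := SmoothSupp.zsmul D Y₀.smooth m
  have hp₁ : D.push₁ ((m : ℤ) • Y₀.Y) = (m : ℤ) • D.push₁ Y₀.Y := map_zsmul _ _ _
  have hp₂ : D.push₂ ((m : ℤ) • Y₀.Y) = (m : ℤ) • D.push₂ Y₀.Y := map_zsmul _ _ _
  have hg₁ : (0 : ℤ) ≤ g₁ := Int.natCast_nonneg _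
  have hg₂ : (0 : ℤ) ≤ g₂ := Int.natCast_nonneg _
  have hs0 : (0 : ℤ) ≤ D.nod.s := Int.natCast_nonneg _
  refine genus_eq_of_stable D C.ctx hEsm ?_ ?_
  · rw [hp₁, map_zsmul, smul_eq_mul, hm]
    push_cast
    nlinarith
  · rw [hp₂, map_zsmul, smul_eq_mul, hm]
    push_cast
    nlinarith

/-- **(Y)**: admissible chart families exist away from any finite set -/
theorem nExistsFamStmt : NExistsFamStmt D S g := by
  classical
  intro T
  have hgen := genus_eq_of_liftCtx C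
  have hs : 1 ≤ D.nod.s := C.ctx.s_pos
  obtain ⟨Q₁, Q₂, hQ₁inj, hQ₂inj, hQ₁T, hQ₁x, hQ₂T, hQ₂x, hns⟩ :=
    exists_nodal_nonspecial C.curve₁ C.curve₂ D.nod.x₁ D.nod.x₂ C.ctx.x₁_injective hs
      T.toLeft T.toRight
  obtain rfl : g = (g₁ + D.nod.s - 1) + g₂ := by omega
  set ctr : Fin (g₁ + D.nod.s - 1) ⊕ Fin g₂ → Pt A F₁ F₂ :=
    Sum.elim (fun i => Sum.inl (Q₁ i)) (fun j => Sum.inr (Q₂ j)) with hctr
  have hctr_inj : Function.Injective ctr := by
    rintro (i | i) (j | j) h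
    · simp only [hctr, Sum.elim_inl, Sum.inl.injEq] at h
      rw [hQ₁inj h]
    · simp [hctr] at h
    · simp [hctr] at h
    · simp only [hctr, Sum.elim_inr, Sum.inr.injEq] at h
      rw [hQ₂inj h]
  set Qb : Fin ((g₁ + D.nod.s - 1) + g₂) → Pt A F₁ F₂ := fun i => ctr (finSumFinEquiv.symm i)
    with hQb
  have hinj : Function.Injective Qb := hctr_inj.comp finSumFinEquiv.symm.injective
  have hgood_ctr : ∀ x, D.Good (ctr x) := by
    rintro (i | j)
    · exact D.r_surj₁ (Q₁ i) (hQ₁x i)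
    · exact D.r_surj₂ (Q₂ j) (hQ₂x j)
  have hsum : ∑ i, ptR (Qb i) = ∑ i, ptR (Sum.inl (Q₁ i) : Pt A F₁ F₂)
      + ∑ j, ptR (Sum.inr (Q₂ j) : Pt A F₁ F₂) := by
    have h1 : ∑ i, ptR (Qb i) = ∑ x, ptR (ctr x) :=
      Fintype.sum_equiv finSumFinEquiv.symm _ _ fun i => rfl
    rw [h1, Fintype.sum_sum_type]
    rfl
  have hsum₁ : RDiv.fst (∑ i, ptR (Qb i)) = ∑ i, Fermat.Agent.S19lib.B.pt (Q₁ i) := by
    rw [hsum, map_add, map_sum, map_sum,
      Finset.sum_congr rfl fun i _ => RDiv.fst_single_inl (A := A) (F₂ := F₂) (Q₁ i) 1,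
      Finset.sum_congr rfl fun j _ => RDiv.fst_single_inr (A := A) (F₁ := F₁) (Q₂ j) 1,
      Finset.sum_const_zero, add_zero]
  have hsum₂ : RDiv.snd (∑ i, ptR (Qb i)) = ∑ j, Fermat.Agent.S19lib.B.pt (Q₂ j) := by
    rw [hsum, map_add, map_sum, map_sum,
      Finset.sum_congr rfl fun i _ => RDiv.snd_single_inl (A := A) (F₂ := F₂) (Q₁ i) 1,
      Finset.sum_congr rfl fun j _ => RDiv.snd_single_inr (A := A) (F₁ := F₁) (Q₂ j) 1,
      Finset.sum_const_zero, zero_add]
  have hell : D.ellR (∑ i, ptR (Qb i)) = 1 := by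
    rw [NRedDatum.ellR_def, NRedDatum.RR, hsum₁, hsum₂]
    exact ell_eq_one_of_nonSpecial (Fermat.Agent.S19lib.B.sum_pt_nonneg _)
      (Fermat.Agent.S19lib.B.sum_pt_nonneg _) hns
  obtain ⟨a, ha⟩ := exists_fam_of_points C Qb hinj (fun i => hgood_ctr _) hell
  refine ⟨a, fun i => ?_⟩
  rw [ha, hQb]
  rcases h : finSumFinEquiv.symm i with j | j
  · show ctr (finSumFinEquiv.symm i) ∉ T
    rw [h]
    exact fun hmem => hQ₁T j (Finset.mem_toLeft.2 hmem)
  · show ctr (finSumFinEquiv.symm i) ∉ T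
    rw [h]
    exact fun hmem => hQ₂T j (Finset.mem_toRight.2 hmem)

end PtLevel

end Fermat.Agent.S33lib.NB

end
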