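/-
S33lib / NB / Special  (helper2)  — Project LSp, block NB (nodal port of `S19lib/B/Special`).

**Non-special centres on a nodal curve** with two smooth components `C₁`, `C₂` (genera `g₁`, `g₂`)
glued along `s ≥ 1` pairs of points `(x₁ c, x₂ c)`: arithmetic genus `g = g₁ + g₂ + s - 1`.

* `exists_nonspecial_from` : general position relative to a base divisor `D₀` with `ℓ(D₀) = 0`:
  `d` distinct points outside a finite set with `ℓ(D₀ + Q₁ + … + Q_d) = 0`, as long as
  `deg D₀ + d + 1 ≤ g`;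
* **`exists_nodal_nonspecial`** : `g₁ + s - 1` distinct non-node points `Q₁ i` on `C₁` and `g₂`
  distinct non-node points `Q₂ j` on `C₂`, outside given finite sets, such that the nodal
  Riemann–Roch space `nodalSpace x₁ x₂ 1 (Σ Q₁ i) (Σ Q₂ j)` consists of the constants `(a, a)`
  only (the nodal analogue of `ℓ(Q₁ + … + Q_g) = 1`);
* `exists_nodal_nonspecial_swap` : the same with the bidegree `(g₁, g₂ + s - 1)`
  (`swap_mem_nodalSpace_one`: the untwisted nodal space is symmetric in the two components).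
-/
import Mathlib
import Fermat.Agent.S19lib.B.Special
import Fermat.Agent.LSb.Core.NodalRR

set_option autoImplicit false
set_option linter.unusedSectionVars false

noncomputable section

namespace Fermat.Agent.S33lib.NB

open AlgebraicCurve Module
open Fermat.Agent.S18lib Fermat.Agent.S18lib.Cech Fermat.Agent.S37lib Fermat.Agent.S19lib.B
open Fermat.Agent.LSb.Core

section One

variable {K F : Type*} [Field K] [Field F] [Algebra K F] {g : ℕ} (hF : IsCurveOfGenus K F g)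
include hF

/-- `ℓ(D) = 0` for `deg D < 0` -/
theorem ell_eq_zero_of_degree_neg {D : Divisor K F} (hD : Divisor.degree D < 0) : ell D = 0 := by
  have h : riemannRochSpace D = ⊥ := by
    rw [eq_bot_iff]
    intro f hf
    rw [Submodule.mem_bot]
    exact eq_zero_of_mem_rr_of_degree_neg hF hD hf
  rw [ell_def, h]
  exact finrank_bot K F

/-- every element of `L(D)` is zero when `ℓ(D) = 0` -/
theorem eq_zero_of_mem_rr_of_ell_eq_zero {D : Divisor K F} (hD : ell D = 0) {f : F}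
    (hf : f ∈ riemannRochSpace D) : f = 0 := by
  have := hF.finiteDimensional D
  rw [ell_def, Submodule.finrank_eq_zero] at hD
  rw [hD, Submodule.mem_bot] at hf
  exact hf

/-- **general position relative to a base divisor of dimension zero** -/
theorem exists_nonspecial_from (D₀ : Divisor K F) (h0 : ell D₀ = 0) (S : Finset (Place K F))
    (d : ℕ) (hd : Divisor.degree D₀ + d + 1 ≤ (g : ℤ)) :
    ∃ Q : Fin d → Place K F, Function.Injective Q ∧ (∀ i, Q i ∉ S) ∧
      ell (D₀ + ∑ i, pt (Q i)) = 0 := by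
  classical
  induction d with
  | zero =>
    refine ⟨Fin.elim0, fun i => i.elim0, fun i => i.elim0, ?_⟩
    rw [Finset.univ_eq_empty, Finset.sum_empty, add_zero]
    exact h0
  | succ d ih =>
    obtain ⟨Q, hQinj, hQS, hQ⟩ := ih (by push_cast at hd ⊢; omega)
    set D : Divisor K F := D₀ + ∑ i, pt (Q i) with hD
    have hdeg : Divisor.degree D = Divisor.degree D₀ + d := by
      rw [hD, map_add, map_sum, Finset.sum_congr rfl fun i _ => Curve.degree_single_one hF (Q i)]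
      simp
    have hfin := finite_jump hF D (by rw [hdeg, hQ]; push_cast at hd ⊢; omega)
    have := hF.infinite_places
    obtain ⟨P, hP⟩ := ((hfin.union (S.finite_toSet)).union
      (Set.finite_range Q)).exists_notMem
    simp only [Set.mem_union, Set.mem_ofPred_eq, Finset.mem_coe, Set.mem_range, not_or,
      not_exists] at hP
    obtain ⟨⟨hPj, hPS⟩, hPQ⟩ := hP
    refine ⟨Fin.cons P Q, ?_, ?_, ?_⟩
    · rw [Fin.cons_injective_iff]
      exact ⟨fun ⟨i, hi⟩ => hPQ i hi, hQinj⟩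
    · intro i
      refine Fin.cases ?_ (fun j => ?_) i
      · rw [Fin.cons_zero]; exact hPS
      · rw [Fin.cons_succ]; exact hQS j
    · have e : D₀ + (∑ i : Fin (d + 1), pt ((Fin.cons P Q : Fin (d + 1) → Place K F) i)) =
          D + pt P := by
        rw [Fin.sum_univ_succ]
        simp only [Fin.cons_zero, Fin.cons_succ]
        rw [hD]; abel
      rw [e]
      have h1 := ell_add_single_le hF D P
      rw [jump_def] at hPj
      rw [hQ] at h1 hPj
      omega

end One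

section Nodal

variable {k F₁ F₂ : Type*} [Field k] [Field F₁] [Field F₂] [Algebra k F₁] [Algebra k F₂]
  {g₁ g₂ s : ℕ}

/-- a constant vanishing at a place is zero -/
theorem eq_zero_of_vanishAt_const {K F : Type*} [Field K] [Field F] [Algebra K F]
    (x : Place K F) {c : K} (h : VanishAt x (algebraMap K F c)) : c = 0 := by
  rw [vanishAt_iff] at h
  rcases h with h | h
  · exact (map_eq_zero_iff _ (algebraMap K F).injective).1 h
  · rw [ord_const] at h
    omega

/-- **non-special centres on the nodal curve**: the nodal Riemann–Roch space of the divisor of the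
`g = (g₁ + s - 1) + g₂` centres consists of the constants. -/
theorem exists_nodal_nonspecial (hF₁ : IsCurveOfGenus k F₁ g₁) (hF₂ : IsCurveOfGenus k F₂ g₂)
    (x₁ : Fin s → Place k F₁) (x₂ : Fin s → Place k F₂) (hx₁ : Function.Injective x₁)
    (hs : 1 ≤ s)
    (S₁ : Finset (Place k F₁)) (S₂ : Finset (Place k F₂)) :
    ∃ (Q₁ : Fin (g₁ + s - 1) → Place k F₁) (Q₂ : Fin g₂ → Place k F₂),
      Function.Injective Q₁ ∧ Function.Injective Q₂ ∧
      (∀ i, Q₁ i ∉ S₁) ∧ (∀ i c, Q₁ i ≠ x₁ c) ∧ (∀ j, Q₂ j ∉ S₂) ∧ (∀ j c, Q₂ j ≠ x₂ c) ∧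
      ∀ φ ∈ nodalSpace x₁ x₂ (fun _ => (1 : k)) (∑ i, pt (Q₁ i)) (∑ j, pt (Q₂ j)),
        ∃ a : k, φ = (algebraMap k F₁ a, algebraMap k F₂ a) := by
  classical
  -- the second component: `g₂` non-special points
  obtain ⟨Q₂, hQ₂inj, hQ₂S, hQ₂⟩ :=
    exists_nonspecial hF₂ (S₂ ∪ Finset.univ.image x₂) g₂ le_rfl
  -- the first component: `g₁ + s - 1` points in general position relative to `-Σ x₁ c`
  have hdeg0 : Divisor.degree (-sumPts x₁) = -(s : ℤ) := by
    rw [map_neg, degree_sumPts x₁ hF₁.deg_eq_one]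
  have h0 : ell (-sumPts x₁) = 0 :=
    ell_eq_zero_of_degree_neg hF₁ (by rw [hdeg0]; omega)
  obtain ⟨Q₁, hQ₁inj, hQ₁S, hQ₁⟩ :=
    exists_nonspecial_from hF₁ (-sumPts x₁) h0 (S₁ ∪ Finset.univ.image x₁) (g₁ + s - 1)
      (by rw [hdeg0]; push_cast [Nat.cast_sub (show 1 ≤ g₁ + s by omega)]; omega)
  have hQ₁x : ∀ i c, Q₁ i ≠ x₁ c := fun i c h =>
    hQ₁S i (Finset.mem_union_right _ (Finset.mem_image.2 ⟨c, Finset.mem_univ _, h.symm⟩))
  have hQ₂x : ∀ j c, Q₂ j ≠ x₂ c := fun j c h =>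
    hQ₂S j (Finset.mem_union_right _ (Finset.mem_image.2 ⟨c, Finset.mem_univ _, h.symm⟩))
  refine ⟨Q₁, Q₂, hQ₁inj, hQ₂inj, fun i h => hQ₁S i (Finset.mem_union_left _ h), hQ₁x,
    fun j h => hQ₂S j (Finset.mem_union_left _ h), hQ₂x, ?_⟩
  rintro ⟨φ₁, φ₂⟩ ⟨h1, h2, h3⟩
  simp only at h1 h2
  -- `φ₂` is a constant
  have hE₂ : ∀ v, 0 ≤ (∑ j, pt (Q₂ j)) v := by
    intro v
    rw [Finsupp.finsetSum_apply]
    refine Finset.sum_nonneg fun j _ => ?_
    rw [Finsupp.single_apply]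
    split_ifs <;> norm_num
  have hE₁ : ∀ v, 0 ≤ (∑ i, pt (Q₁ i)) v := by
    intro v
    rw [Finsupp.finsetSum_apply]
    refine Finset.sum_nonneg fun j _ => ?_
    rw [Finsupp.single_apply]
    split_ifs <;> norm_num
  obtain ⟨a, ha⟩ : ∃ a : k, φ₂ = algebraMap k F₂ a := by
    have hfd := hF₂.finiteDimensional (∑ j, pt (Q₂ j))
    have hle : (⊥ : Subalgebra k F₂).toSubmodule ≤ riemannRochSpace (∑ j, pt (Q₂ j)) := by
      rintro _ ⟨c, rfl⟩
      exact const_mem_rr hE₂ c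
    have heq : (⊥ : Subalgebra k F₂).toSubmodule = riemannRochSpace (∑ j, pt (Q₂ j)) := by
      refine Submodule.eq_of_le_of_finrank_eq hle ?_
      rw [← ell_def, hQ₂]
      exact Subalgebra.finrank_bot
    rw [← heq] at h2
    obtain ⟨c, hc⟩ := h2
    exact ⟨c, hc.symm⟩
  refine ⟨a, ?_⟩
  -- `φ₁ - a` vanishes at all node points, hence lies in `L(Σ Q₁ - Σ x₁) = 0`
  have hvan : ∀ c, VanishAt (x₁ c) (φ₁ - algebraMap k F₁ a) := by
    intro c
    obtain ⟨α, hα1, hα2⟩ := h3 c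
    simp only [one_mul] at hα1 hα2
    have : a - α = 0 := by
      refine eq_zero_of_vanishAt_const (x₂ c) ?_
      rw [map_sub, ← ha]
      exact hα2
    rw [sub_eq_zero.1 this]
    exact hα1
  have hmem : φ₁ - algebraMap k F₁ a ∈ riemannRochSpace (-sumPts x₁ + ∑ i, pt (Q₁ i)) := by
    have hm : φ₁ - algebraMap k F₁ a ∈ riemannRochSpace (∑ i, pt (Q₁ i)) :=
      Submodule.sub_mem _ h1 (const_mem_rr hE₁ a)
    rw [mem_rr_iff] at hm ⊢
    intro v
    rcases hm v with h | h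
    · exact Or.inl h
    by_cases hv : ∃ c, x₁ c = v
    · obtain ⟨c, rfl⟩ := hv
      rcases (vanishAt_iff _ _).1 (hvan c) with h' | h'
      · exact Or.inl h'
      right
      have hz : (∑ i, pt (Q₁ i)) (x₁ c) = 0 := by
        rw [Finsupp.finsetSum_apply]
        refine Finset.sum_eq_zero fun i _ => ?_
        rw [Finsupp.single_apply, if_neg (hQ₁x i c)]
      rw [Finsupp.add_apply, Finsupp.neg_apply, hz, sumPts_apply_self hx₁ c]
      omega
    · right
      simp only [not_exists] at hv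
      rw [Finsupp.add_apply, Finsupp.neg_apply, sumPts_apply_of_forall_ne hv]
      omega
  have h00 := eq_zero_of_mem_rr_of_ell_eq_zero hF₁ hQ₁ hmem
  rw [sub_eq_zero.1 h00, ha]

/-- the untwisted nodal space is symmetric in the two components -/
theorem swap_mem_nodalSpace_one {x₁ : Fin s → Place k F₁} {x₂ : Fin s → Place k F₂}
    {E₁ : Divisor k F₁} {E₂ : Divisor k F₂} {φ : F₁ × F₂}
    (h : φ ∈ nodalSpace x₁ x₂ (fun _ => (1 : k)) E₁ E₂) :
    φ.swap ∈ nodalSpace x₂ x₁ (fun _ => (1 : k)) E₂ E₁ := by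
  obtain ⟨h1, h2, h3⟩ := h
  refine ⟨h2, h1, fun c => ?_⟩
  obtain ⟨α, hα1, hα2⟩ := h3 c
  simp only [one_mul] at hα2
  refine ⟨α, hα2, ?_⟩
  simp only [one_mul]
  exact hα1

/-- **non-special centres on the nodal curve, swapped bidegree**: `g₁` points on the first
component and `g₂ + s - 1` points on the second one. -/
theorem exists_nodal_nonspecial_swap (hF₁ : IsCurveOfGenus k F₁ g₁)
    (hF₂ : IsCurveOfGenus k F₂ g₂)
    (x₁ : Fin s → Place k F₁) (x₂ : Fin s → Place k F₂) (hx₂ : Function.Injective x₂)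
    (hs : 1 ≤ s)
    (S₁ : Finset (Place k F₁)) (S₂ : Finset (Place k F₂)) :
    ∃ (Q₁ : Fin g₁ → Place k F₁) (Q₂ : Fin (g₂ + s - 1) → Place k F₂),
      Function.Injective Q₁ ∧ Function.Injective Q₂ ∧
      (∀ i, Q₁ i ∉ S₁) ∧ (∀ i c, Q₁ i ≠ x₁ c) ∧ (∀ j, Q₂ j ∉ S₂) ∧ (∀ j c, Q₂ j ≠ x₂ c) ∧
      ∀ φ ∈ nodalSpace x₁ x₂ (fun _ => (1 : k)) (∑ i, pt (Q₁ i)) (∑ j, pt (Q₂ j)),
        ∃ a : k, φ = (algebraMap k F₁ a, algebraMap k F₂ a) := by
  obtain ⟨Q₂, Q₁, hQ₂inj, hQ₁inj, hQ₂S, hQ₂x, hQ₁S, hQ₁x, hconst⟩ :=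
    exists_nodal_nonspecial hF₂ hF₁ x₂ x₁ hx₂ hs S₂ S₁
  refine ⟨Q₁, Q₂, hQ₁inj, hQ₂inj, hQ₁S, hQ₁x, hQ₂S, hQ₂x, fun φ hφ => ?_⟩
  obtain ⟨a, ha⟩ := hconst φ.swap (swap_mem_nodalSpace_one hφ)
  refine ⟨a, ?_⟩
  have h1 := congrArg Prod.fst ha
  have h2 := congrArg Prod.snd ha
  simp only [Prod.fst_swap, Prod.snd_swap] at h1 h2
  exact Prod.ext h2 h1

end Nodal

end Fermat.Agent.S33lib.NB

end
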