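/-
S33lib / NB / Tri  (helper7)   — Project LSp, track B: the lifting lemmas behind configurations on the
NODAL model.  Port of the lifting part of `S19lib/B/Tri` (helper6) to `D : N.NRedDatum A F F₁ F₂`,
`S : N.NSym D G`, `C : N.NLiftCtx D S g g₁ g₂` (the structure `N.NTri` itself lives in `N/Family`).

* `redSub_rr_eq_of_ell_le_nodal`   : `red (L(E) ∩ O) = nodal (push E)` as soon as `ℓ_nod(push E) ≤ ℓ(E)`
                               (`E` supported on the smooth locus; NO stable range needed);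
* `exists_lift_of_ell_le`    : lifting sections under the same hypothesis;
* `exists_fixed_lift_of_ell_le` : FIXED lifts (`E` stable) under `ℓ_nod ≤ ℓ`;
* `exists_fixed_orthonormal_basis_rr` : a FIXED sup-norm orthonormal basis of `L(E)` reducing
                               to a basis of `nodal (push E)`, `E` stable in the stable range;
* `fixP_of_unique_zero_nodal` : the unique zero of a fixed function in a residue disc is a fixed place;
* `apply_eq_zero_of_push_apply_eq_zero` : an effective divisor vanishes over a point where its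
                               push-forward vanishes;
* `push₁_divOf_eq`, `push₂_divOf_eq` : **(LC) globally**: `push_i (div f) = div (f̄_i)` when `f̄_i ≠ 0` is
                               a unit at the node points.
-/
import Fermat.Agent.S33lib.N.Family
import Fermat.Agent.S33lib.NB.Kernel

set_option autoImplicit false
set_option linter.unusedSectionVars false

noncomputable section

namespace Fermat.Agent.S33lib.NB

open AlgebraicCurve Module
open Fermat.Agent.S18lib Fermat.Agent.LSb Fermat.Agent.S33lib.N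
open Fermat.Agent.S19lib.B (ell ell_def)

variable {L : Type*} [Field L] {A : ValuationSubring L}
variable {F : Type*} [Field F] [Algebra L F] [HasPrincipalDivisors L F]
variable {F₁ F₂ : Type*} [Field F₁] [Field F₂]
variable [Algebra (IsLocalRing.ResidueField A) F₁] [Algebra (IsLocalRing.ResidueField A) F₂]

local notation "k" => IsLocalRing.ResidueField A

/-! ### reduction of `L(E)` when `ℓ_nod(push E) ≤ ℓ(E)` -/

section Red

variable (D : NRedDatum A F F₁ F₂) {g g₁ g₂ : ℕ} (C : NodalCtx D.nod g g₁ g₂)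
include C

/-- `red (L(E) ∩ O) = nodal (push E)` as soon as `ℓ_nod(push E) ≤ ℓ(E)` -/
theorem redSub_rr_eq_of_ell_le_nodal {E : Divisor L F} (hE : D.SmoothSupp E)
    (h : D.ell (D.push₁ E) (D.push₂ E) ≤ ell E) :
    D.nod.redSub (riemannRochSpace E) = D.nodal (D.push₁ E) (D.push₂ E) := by
  have := C.hF.finiteDimensional E
  have := finiteDimensional_nodal D C (D.push₁ E) (D.push₂ E)
  apply Submodule.eq_of_le_of_finrank_eq (redSub_rr_le D hE)
  rw [NodalDatum.finrank_redSub C.hD (riemannRochSpace E)]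
  have h1 := ell_le_ell_nodal D C hE
  rw [ell_def] at h h1
  unfold NRedDatum.ell at h h1
  omega

/-- lifting sections when `ℓ_nod(push E) ≤ ℓ(E)` -/
theorem exists_lift_of_ell_le {E : Divisor L F} (hE : D.SmoothSupp E)
    (h : D.ell (D.push₁ E) (D.push₂ E) ≤ ell E) {φ : F₁ × F₂}
    (hφ : φ ∈ D.nodal (D.push₁ E) (D.push₂ E)) :
    ∃ f ∈ riemannRochSpace E, f ∈ D.nod.V₁.O ∧ f ∈ D.nod.V₂.O ∧ D.nod.redF f = φ := by
  rw [← redSub_rr_eq_of_ell_le_nodal D C hE h] at hφ
  obtain ⟨f, hfE, hfO, hf⟩ := hφ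
  have h' := NodalDatum.mem_O.1 hfO
  exact ⟨f, hfE, h'.1, h'.2, hf⟩

/-- `ℓ(E) = ℓ_nod(push E)` when `ℓ_nod(push E) ≤ ℓ(E)` -/
theorem ell_eq_of_ell_le {E : Divisor L F} (hE : D.SmoothSupp E)
    (h : D.ell (D.push₁ E) (D.push₂ E) ≤ ell E) : ell E = D.ell (D.push₁ E) (D.push₂ E) :=
  le_antisymm (ell_le_ell_nodal D C hE) h

end Red

/-! ### fixed lifts -/

section Lift

variable [HasPrincipalDivisors (IsLocalRing.ResidueField A) F₁]
  [HasPrincipalDivisors (IsLocalRing.ResidueField A) F₂]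
variable {D : NRedDatum A F F₁ F₂} {G : Type*} [Group G] {S : NSym D G} {g g₁ g₂ : ℕ}
  (C : NLiftCtx D S g g₁ g₂)
include C

/-- fixed lifts when `ℓ_nod(push E) ≤ ℓ(E)` -/
theorem exists_fixed_lift_of_ell_le {E : Divisor L F} (hEfix : S.FixD E)
    (hE : D.SmoothSupp E) (h : D.ell (D.push₁ E) (D.push₂ E) ≤ ell E) {φ : F₁ × F₂}
    (hφ : φ ∈ D.nodal (D.push₁ E) (D.push₂ E)) :
    ∃ f ∈ riemannRochSpace E, f ∈ D.nod.V₁.O ∧ f ∈ D.nod.V₂.O ∧ S.FixF f ∧ D.nod.redF f = φ := by
  obtain ⟨f, hfE, hf₁, hf₂, hfred⟩ := exists_lift_of_ell_le D C.ctx hE h hφ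
  obtain ⟨f', hf'E, hf'₁, hf'₂, hf'fix, hr₁, hr₂⟩ := C.lifts E hEfix f hfE hf₁ hf₂
  exact ⟨f', hf'E, hf'₁, hf'₂, hf'fix, (Prod.ext hr₁ hr₂ : D.nod.redF f' = D.nod.redF f).trans hfred⟩

/-- **fixed orthonormal bases of stable Riemann–Roch spaces** -/
theorem exists_fixed_orthonormal_basis_rr {E : Divisor L F} (hEfix : S.FixD E)
    (hE : D.SmoothSupp E) (h₁ : 2 * (g₁ : ℤ) - 2 < Divisor.degree (D.push₁ E))
    (h₂ : 2 * (g₂ : ℤ) - 2 + D.nod.s < Divisor.degree (D.push₂ E)) {n : ℕ}
    (hn : finrank L (riemannRochSpace E) = n) :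
    ∃ e : Fin n → F, (∀ j, e j ∈ riemannRochSpace E) ∧ D.nod.IsOrthonormal e ∧
      (∀ j, S.FixF (e j)) ∧ Submodule.span L (Set.range e) = riemannRochSpace E ∧
      Submodule.span k (Set.range fun j => D.nod.redF (e j)) =
        D.nodal (D.push₁ E) (D.push₂ E) := by
  subst hn
  have hfd := C.curve.finiteDimensional E
  obtain ⟨e₀, he₀E, he₀orth, -, he₀b⟩ := exists_orthonormal_basis_rr D C.ctx hE h₁ h₂
  choose e heE heO₁ heO₂ hefix hered₁ hered₂ using fun j =>
    C.lifts E hEfix (e₀ j) (he₀E j) (NodalDatum.mem_O.1 (he₀orth.1 j)).1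
      (NodalDatum.mem_O.1 (he₀orth.1 j)).2
  have hfun : (fun j => D.nod.redF (e j)) = fun j => D.nod.redF (e₀ j) :=
    funext fun j => Prod.ext (hered₁ j) (hered₂ j)
  have horth : D.nod.IsOrthonormal e :=
    ⟨fun j => NodalDatum.mem_O.2 ⟨heO₁ j, heO₂ j⟩, by
      have := he₀orth.2
      rw [← hfun] at this
      exact this⟩
  refine ⟨e, heE, horth, hefix, ?_, by rw [hfun]; exact he₀b⟩
  apply Submodule.eq_of_le_of_finrank_eq
  · rw [Submodule.span_le]
    rintro _ ⟨j, rfl⟩
    exact heE j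
  · rw [finrank_span_eq_card horth.linearIndependent, Fintype.card_fin]

end Lift

/-! ### fixed places, vanishing on discs, global (LC) -/

section Misc

variable {D : NRedDatum A F F₁ F₂} {G : Type*} [Group G]

/-- the unique zero of a fixed function in a residue disc is a fixed place -/
theorem fixP_of_unique_zero_nodal (S : NSym D G) {q : Pt A F₁ F₂} {t : F} (hFt : S.FixF t)
    {P : Place L F} (hP : D.r P = some q) (hzero : 0 < P.ord t)
    (huniq : ∀ P' : Place L F, D.r P' = some q → 0 < P'.ord t → P' = P) : S.FixP P := by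
  intro γ
  apply huniq
  · rw [S.r_smul, hP]
  · have := SemilinearAut.ord_smul (S.ρ γ) P t
    rw [hFt γ] at this
    rw [this]
    exact hzero

/-- an effective divisor vanishes at the places over a point where its push-forward vanishes -/
theorem apply_eq_zero_of_pushO_apply_eq_zero {ι κ : Type*} (r : ι → Option κ) {E : ι →₀ ℤ}
    (hE : 0 ≤ E) {P : ι} {Q : κ} (hP : r P = some Q) (h : pushO r E Q = 0) : E P = 0 := by
  have h1 := Fermat.Agent.S18lib.le_mapDomain_apply r hE P
  rw [hP, ← pushO_apply, h] at h1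
  have h2 := Finsupp.le_def.1 hE P
  rw [Finsupp.zero_apply] at h2
  omega

variable (D)

/-- **(LC) globally on the first component**: `push₁ (div f) = div f̄₁` when `f̄₁ ≠ 0` has order `0`
at the node points -/
theorem push₁_divOf_eq [HasPrincipalDivisors (IsLocalRing.ResidueField A) F₁] {f : F}
    (hf : D.nod.V₁.redF f ≠ 0) (hx : ∀ c, (D.nod.x₁ c).ord (D.nod.V₁.redF f) = 0) :
    D.push₁ (divOf (K := L) f) = divOf (K := k) (D.nod.V₁.redF f) := by
  ext Q
  rw [divOf_apply']
  by_cases hQ : ∀ c, Q ≠ D.nod.x₁ c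
  · obtain ⟨P₀, hP₀⟩ := D.r_surj₁ Q hQ
    exact D.cons₁ f hf P₀ Q hP₀
  · push Not at hQ
    obtain ⟨c, rfl⟩ := hQ
    rw [push₁_apply_x₁ D _ c, hx c]

/-- **(LC) globally on the second component** -/
theorem push₂_divOf_eq [HasPrincipalDivisors (IsLocalRing.ResidueField A) F₂] {f : F}
    (hf : D.nod.V₂.redF f ≠ 0) (hx : ∀ c, (D.nod.x₂ c).ord (D.nod.V₂.redF f) = 0) :
    D.push₂ (divOf (K := L) f) = divOf (K := k) (D.nod.V₂.redF f) := by
  ext Q
  rw [divOf_apply']
  by_cases hQ : ∀ c, Q ≠ D.nod.x₂ c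
  · obtain ⟨P₀, hP₀⟩ := D.r_surj₂ Q hQ
    exact D.cons₂ f hf P₀ Q hP₀
  · push Not at hQ
    obtain ⟨c, rfl⟩ := hQ
    rw [push₂_apply_x₂ D _ c, hx c]

end Misc

end Fermat.Agent.S33lib.NB

end
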