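/-
S33lib / NB / TriExists  (helper7)   — Project LSp, track B: existence of configurations on the NODAL
model.  Port of `S19lib/B/TriExists` (helper6) to `D : N.NRedDatum A F F₁ F₂`, `S : N.NSym D G`,
`C : N.NLiftCtx D S g g₁ g₂`, on top of `NB/{RedRR,Kernel}` (helper9), `NB/Avoid` (helper5),
`NB/Special` (helper2), `NB/Tri`.

Residue side (pure curve theory on `X̄₁ ∪ X̄₂`):
* `degree_fst_le_of_nonspecial`, `degree_snd_le_of_nonspecial` : a nodally non-special pair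
                                            `(E₁, E₂)` (zero at the node points) has
                                            `deg E_i ≤ g_i + s - 1`;
  (the non-special centres with the bidegree `(g₁, g₂ + s - 1)` are helper2's
  `exists_nodal_nonspecial_swap` in `NB/Special`)
* `exists_nodal_residue_tri_gen`          : helper5's residue configuration WITHOUT the hypothesis that
                                            the three rows have the same bidegree.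

Lifting side:
* `LiftExports D S`                       : the three exports of `NB/Lift` (helper5) used here: frames
                                            away from a finite set, fixed lifts of good points, fixed
                                            charts at fixed places;
* `exists_centres`                        : `g` distinct good points `Qc j` away from a finite set with
                                            `ℓ_nod(∑ Qc j) = 1`, `g₁` of them on `X̄₁`;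
* **`exists_nTri_of`**                    : two disjoint admissible families are completed by a third
                                            one, away from any finite set, to a configuration `NTri a b c`.
-/
import Fermat.Agent.S33lib.NB.Tri
import Fermat.Agent.S33lib.NB.Avoid
import Fermat.Agent.S33lib.NB.Special

set_option autoImplicit false
set_option linter.unusedSectionVars false

noncomputable section

namespace Fermat.Agent.S33lib.NB

open AlgebraicCurve Module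
open Fermat.Agent.S18lib Fermat.Agent.S18lib.Cech Fermat.Agent.S37lib
open Fermat.Agent.LSb Fermat.Agent.LSb.Core Fermat.Agent.S33lib.NRed Fermat.Agent.S33lib.N
open Fermat.Agent.S19lib.B (ell ell_def pt sum_pt_apply)

/-! ### the residue side -/

section Residue

variable {k F₁ F₂ : Type*} [Field k] [Field F₁] [Field F₂] [Algebra k F₁] [Algebra k F₂]
variable {g₁ g₂ s : ℕ} {x₁ : Fin s → Place k F₁} {x₂ : Fin s → Place k F₂}

/-- the first component of a nodally non-special pair has degree at most `g₁ + s - 1` -/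
theorem degree_fst_le_of_nonspecial (hF₁ : IsCurveOfGenus k F₁ g₁) (hx₁ : Function.Injective x₁)
    {E₁ : Divisor k F₁} {E₂ : Divisor k F₂} (hE₁x : ∀ c, E₁ (x₁ c) = 0)
    (h : ∀ φ ∈ nodalSpace x₁ x₂ (fun _ => (1 : k)) E₁ E₂,
      ∃ a : k, φ = (algebraMap k F₁ a, algebraMap k F₂ a)) :
    Divisor.degree E₁ ≤ (g₁ : ℤ) + s - 1 := by
  by_contra hlt
  push Not at hlt
  have hfd := hF₁.finiteDimensional (E₁ - sumPts x₁)
  have hR := hF₁.riemann_le (E₁ - sumPts x₁)
  rw [map_sub, degree_sumPts x₁ hF₁.deg_eq_one] at hR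
  have hpos : 0 < finrank k (riemannRochSpace (E₁ - sumPts x₁)) := by omega
  obtain ⟨⟨φ₁, hφ₁⟩, hne'⟩ := (Module.finrank_pos_iff_exists_ne_zero
    (R := k) (M := riemannRochSpace (E₁ - sumPts x₁))).1 hpos
  have hne : φ₁ ≠ 0 := fun h0 => hne' (Subtype.ext h0)
  have hmem : ((φ₁, 0) : F₁ × F₂) ∈ nodalSpace x₁ x₂ (fun _ => (1 : k)) E₁ E₂ := by
    refine ⟨?_, Submodule.zero_mem _, fun c => ⟨0, ?_, ?_⟩⟩
    · refine rr_mono (fun v => ?_) hφ₁
      rw [Finsupp.sub_apply]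
      have := sumPts_nonneg x₁ v
      omega
    · show VanishAt (x₁ c) (φ₁ - algebraMap k F₁ 0)
      rw [map_zero, sub_zero, vanishAt_iff]
      right
      have := (mem_rr_of_ne hne).1 hφ₁ (x₁ c)
      rw [Finsupp.sub_apply, hE₁x c, sumPts_apply_self hx₁ c] at this
      omega
    · show VanishAt (x₂ c) ((0 : F₂) - algebraMap k F₂ (1 * 0))
      rw [mul_zero, map_zero, sub_zero]
      exact vanishAt_zero _
  obtain ⟨a, ha⟩ := h _ hmem
  have h2 : (0 : F₂) = algebraMap k F₂ a := congrArg Prod.snd ha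
  have ha0 : a = 0 := ((map_eq_zero (algebraMap k F₂)).1 h2.symm)
  have h1 : φ₁ = algebraMap k F₁ a := congrArg Prod.fst ha
  rw [ha0, map_zero] at h1
  exact hne h1

/-- the second component of a nodally non-special pair has degree at most `g₂ + s - 1` -/
theorem degree_snd_le_of_nonspecial (hF₂ : IsCurveOfGenus k F₂ g₂) (hx₂ : Function.Injective x₂)
    {E₁ : Divisor k F₁} {E₂ : Divisor k F₂} (hE₂x : ∀ c, E₂ (x₂ c) = 0)
    (h : ∀ φ ∈ nodalSpace x₁ x₂ (fun _ => (1 : k)) E₁ E₂,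
      ∃ a : k, φ = (algebraMap k F₁ a, algebraMap k F₂ a)) :
    Divisor.degree E₂ ≤ (g₂ : ℤ) + s - 1 := by
  refine degree_fst_le_of_nonspecial (x₂ := x₁) (E₂ := E₁) hF₂ hx₂ hE₂x fun φ hφ => ?_
  obtain ⟨a, ha⟩ := h φ.swap (swap_mem_nodalSpace_one hφ)
  refine ⟨a, ?_⟩
  have h1 : φ.2 = algebraMap k F₁ a := congrArg Prod.fst ha
  have h2 : φ.1 = algebraMap k F₂ a := congrArg Prod.snd ha
  exact Prod.ext h2 h1

/-- **the residue side of a configuration on the nodal curve**, rows of arbitrary bidegrees -/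
theorem exists_nodal_residue_tri_gen (hF₁ : IsCurveOfGenus k F₁ g₁) (hF₂ : IsCurveOfGenus k F₂ g₂)
    [Infinite k] (hx₁ : Function.Injective x₁) (hx₂ : Function.Injective x₂)
    (Y₁ : Divisor k F₁) (Y₂ : Divisor k F₂) (hY₁ : 0 < Divisor.degree Y₁)
    (hY₂ : 0 < Divisor.degree Y₂) (hY₁x : ∀ c, Y₁ (x₁ c) = 0) (hY₂x : ∀ c, Y₂ (x₂ c) = 0)
    {Ea₁ Eb₁ Ec₁ : Divisor k F₁} {Ea₂ Eb₂ Ec₂ : Divisor k F₂}
    (ha₁x : ∀ c, Ea₁ (x₁ c) = 0) (hb₁x : ∀ c, Eb₁ (x₁ c) = 0) (hc₁x : ∀ c, Ec₁ (x₁ c) = 0)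
    (ha₂x : ∀ c, Ea₂ (x₂ c) = 0) (hb₂x : ∀ c, Eb₂ (x₂ c) = 0) (hc₂x : ∀ c, Ec₂ (x₂ c) = 0)
    (ha : NS x₁ x₂ Ea₁ Ea₂ = Submodule.span k {((1 : F₁), (1 : F₂))})
    (hb : NS x₁ x₂ Eb₁ Eb₂ = Submodule.span k {((1 : F₁), (1 : F₂))})
    (hc : NS x₁ x₂ Ec₁ Ec₂ = Submodule.span k {((1 : F₁), (1 : F₂))})
    (S₁ : Finset (Place k F₁)) (S₂ : Finset (Place k F₂)) :
    ∃ (n : ℕ) (C₁ : Divisor k F₁) (C₂ : Divisor k F₂) (σ : F₁ × F₂),
      IsNodeUnit x₁ x₂ σ ∧ 0 ≤ C₁ ∧ 0 ≤ C₂ ∧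
      (∀ P ∈ S₁, C₁ P = 0) ∧ (∀ P ∈ S₂, C₂ P = 0) ∧
      (∀ c, C₁ (x₁ c) = 0) ∧ (∀ c, C₂ (x₂ c) = 0) ∧
      (∀ v : Place k F₁, v.ord σ.1 + ((n : ℤ) • Y₁ - C₁) v = (Ea₁ + Eb₁ + Ec₁) v) ∧
      (∀ v : Place k F₂, v.ord σ.2 + ((n : ℤ) • Y₂ - C₂) v = (Ea₂ + Eb₂ + Ec₂) v) ∧
      Divisor.degree ((n : ℤ) • Y₁ - C₁) = Divisor.degree (Ea₁ + Eb₁ + Ec₁) ∧
      Divisor.degree ((n : ℤ) • Y₂ - C₂) = Divisor.degree (Ea₂ + Eb₂ + Ec₂) ∧
      NS x₁ x₂ ((n : ℤ) • Y₁ - C₁ - Ea₁ - Eb₁) ((n : ℤ) • Y₂ - C₂ - Ea₂ - Eb₂) =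
        Submodule.span k {σ} ∧
      NS x₁ x₂ ((n : ℤ) • Y₁ - C₁ - Eb₁ - Ec₁) ((n : ℤ) • Y₂ - C₂ - Eb₂ - Ec₂) =
        Submodule.span k {σ} ∧
      NS x₁ x₂ ((n : ℤ) • Y₁ - C₁ - Ec₁ - Ea₁) ((n : ℤ) • Y₂ - C₂ - Ec₂ - Ea₂) =
        Submodule.span k {σ} := by
  classical
  have i1 := hF₁.hasPrincipalDivisors
  have i2 := hF₂.hasPrincipalDivisors
  set δ₁ : ℤ := Divisor.degree (Ea₁ + Eb₁ + Ec₁) with hδ₁
  set δ₂ : ℤ := Divisor.degree (Ea₂ + Eb₂ + Ec₂) with hδ₂
  -- the multiple of the frame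
  obtain ⟨n, hn₁, hn₂⟩ : ∃ n : ℕ, 2 * (g₁ : ℤ) + s + δ₁ ≤ n * Divisor.degree Y₁ ∧
      2 * (g₂ : ℤ) + s + δ₂ ≤ n * Divisor.degree Y₂ := by
    refine ⟨(2 * g₁ + s + δ₁.toNat) + (2 * g₂ + s + δ₂.toNat), ?_, ?_⟩
    · push_cast
      have h1 : δ₁ ≤ (δ₁.toNat : ℤ) := Int.self_le_toNat δ₁
      have h0 : (0 : ℤ) ≤ 2 * (g₁ : ℤ) + s + (δ₁.toNat : ℤ) := by positivity
      have h0' : (0 : ℤ) ≤ 2 * (g₂ : ℤ) + s + (δ₂.toNat : ℤ) := by positivity
      nlinarith
    · push_cast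
      have h1 : δ₂ ≤ (δ₂.toNat : ℤ) := Int.self_le_toNat δ₂
      have h0 : (0 : ℤ) ≤ 2 * (g₁ : ℤ) + s + (δ₁.toNat : ℤ) := by positivity
      have h0' : (0 : ℤ) ≤ 2 * (g₂ : ℤ) + s + (δ₂.toNat : ℤ) := by positivity
      nlinarith
  set M₁ : Divisor k F₁ := (n : ℤ) • Y₁ - (Ea₁ + Eb₁ + Ec₁) with hM₁def
  set M₂ : Divisor k F₂ := (n : ℤ) • Y₂ - (Ea₂ + Eb₂ + Ec₂) with hM₂def
  have hM₁x : ∀ c, M₁ (x₁ c) = 0 := fun c => by
    simp [hM₁def, hY₁x c, ha₁x c, hb₁x c, hc₁x c]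
  have hM₂x : ∀ c, M₂ (x₂ c) = 0 := fun c => by
    simp [hM₂def, hY₂x c, ha₂x c, hb₂x c, hc₂x c]
  have hdegM₁ : 2 * (g₁ : ℤ) + s ≤ Divisor.degree M₁ := by
    rw [hM₁def, map_sub, map_zsmul, smul_eq_mul, ← hδ₁]
    linarith
  have hdegM₂ : 2 * (g₂ : ℤ) + s ≤ Divisor.degree M₂ := by
    rw [hM₂def, map_sub, map_zsmul, smul_eq_mul, ← hδ₂]
    linarith
  obtain ⟨σ, C₁, C₂, hσM, hσ1, hσ2, hC₁0, hC₂0, hC₁S, hC₂S, hC₁x, hC₂x, hn1, hn2, hC₁, hC₂⟩ :=
    exists_NS_effective_avoiding hF₁ hF₂ hx₁ hx₂ M₁ M₂ hM₁x hM₂x hdegM₁ hdegM₂ S₁ S₂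
  have hunit : IsNodeUnit x₁ x₂ σ := ⟨hσ1, hσ2, hσM.2.2, hn1, hn2⟩
  have hord₁ : ∀ v : Place k F₁, v.ord σ.1 + ((n : ℤ) • Y₁ - C₁) v = (Ea₁ + Eb₁ + Ec₁) v := by
    intro v
    have := hC₁ v
    rw [hM₁def, Finsupp.sub_apply] at this
    rw [Finsupp.sub_apply, this]
    ring
  have hord₂ : ∀ v : Place k F₂, v.ord σ.2 + ((n : ℤ) • Y₂ - C₂) v = (Ea₂ + Eb₂ + Ec₂) v := by
    intro v
    have := hC₂ v
    rw [hM₂def, Finsupp.sub_apply] at this
    rw [Finsupp.sub_apply, this]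
    ring
  have hB₁ : (n : ℤ) • Y₁ - C₁ = Ea₁ + Eb₁ + Ec₁ - divOf (K := k) σ.1 := by
    ext v
    have := hord₁ v
    rw [Finsupp.sub_apply (Ea₁ + Eb₁ + Ec₁), divOf_apply hσ1, ← this]
    ring
  have hB₂ : (n : ℤ) • Y₂ - C₂ = Ea₂ + Eb₂ + Ec₂ - divOf (K := k) σ.2 := by
    ext v
    have := hord₂ v
    rw [Finsupp.sub_apply (Ea₂ + Eb₂ + Ec₂), divOf_apply hσ2, ← this]
    ring
  refine ⟨n, C₁, C₂, σ, hunit, hC₁0, hC₂0, hC₁S, hC₂S, hC₁x, hC₂x, hord₁, hord₂, ?_, ?_, ?_,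
    ?_, ?_⟩
  · rw [hB₁, map_sub, degree_divOf, sub_zero]
  · rw [hB₂, map_sub, degree_divOf, sub_zero]
  · refine NS_eq_span_of_twist hF₁ hF₂ hunit (E₁ := Ec₁) (E₂ := Ec₂) (fun v => ?_) (fun v => ?_) hc
    · have := hord₁ v
      simp only [Finsupp.add_apply, Finsupp.sub_apply] at this ⊢
      linarith
    · have := hord₂ v
      simp only [Finsupp.add_apply, Finsupp.sub_apply] at this ⊢
      linarith
  · refine NS_eq_span_of_twist hF₁ hF₂ hunit (E₁ := Ea₁) (E₂ := Ea₂) (fun v => ?_) (fun v => ?_) ha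
    · have := hord₁ v
      simp only [Finsupp.add_apply, Finsupp.sub_apply] at this ⊢
      linarith
    · have := hord₂ v
      simp only [Finsupp.add_apply, Finsupp.sub_apply] at this ⊢
      linarith
  · refine NS_eq_span_of_twist hF₁ hF₂ hunit (E₁ := Eb₁) (E₂ := Eb₂) (fun v => ?_) (fun v => ?_) hb
    · have := hord₁ v
      simp only [Finsupp.add_apply, Finsupp.sub_apply] at this ⊢
      linarith
    · have := hord₂ v
      simp only [Finsupp.add_apply, Finsupp.sub_apply] at this ⊢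
      linarith

end Residue

/-! ### combinatorics of push-forwards -/

section Push

variable {ι κ : Type*}

/-- the push-forward of the lift of a divisor along a section of `r` -/
theorem pushO_mapDomain_of_section (r : ι → Option κ) (l : κ → ι) (E : κ →₀ ℤ)
    (h : ∀ Q, E Q ≠ 0 → r (l Q) = some Q) : pushO r (Finsupp.mapDomain l E) = E := by
  classical
  ext Q
  rw [pushO_apply, ← Finsupp.mapDomain_comp]
  have h1 : Finsupp.mapDomain (r ∘ l) E = Finsupp.mapDomain some E :=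
    Finsupp.mapDomain_congr fun Q hQ => h Q (Finsupp.mem_support_iff.1 hQ)
  rw [h1]
  exact Finsupp.mapDomain_apply (Option.some_injective κ) E Q

/-- the points of the lift of a divisor -/
theorem exists_of_mapDomain_apply_ne_zero (l : κ → ι) (E : κ →₀ ℤ) {P : ι}
    (h : Finsupp.mapDomain l E P ≠ 0) : ∃ Q, E Q ≠ 0 ∧ l Q = P := by
  classical
  have h1 : P ∈ (Finsupp.mapDomain l E).support := Finsupp.mem_support_iff.2 h
  obtain ⟨Q, hQ, hQP⟩ := Finset.mem_image.1 (Finsupp.mapDomain_support h1)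
  exact ⟨Q, Finsupp.mem_support_iff.1 hQ, hQP⟩

/-- a sum of distinct points, evaluated -/
theorem sum_single_apply_of_injective {n : ℕ} (Q : Fin n → κ) (hQ : Function.Injective Q) (q : κ)
    [Decidable (q ∈ Set.range Q)] :
    (∑ i, Finsupp.single (Q i) (1 : ℤ)) q = if q ∈ Set.range Q then 1 else 0 := by
  classical
  rw [Finsupp.finsetSum_apply]
  split_ifs with hq
  · obtain ⟨i, rfl⟩ := hq
    rw [Finset.sum_eq_single i]
    · simp
    · intro j _ hji
      rw [Finsupp.single_apply, if_neg fun e => hji (hQ e)]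
    · intro h; exact absurd (Finset.mem_univ i) h
  · refine Finset.sum_eq_zero fun i _ => ?_
    rw [Finsupp.single_apply, if_neg fun e => hq ⟨i, e⟩]

end Push

/-! ### the lifting side -/

variable {L : Type*} [Field L] {A : ValuationSubring L}
variable {F : Type*} [Field F] [Algebra L F] [HasPrincipalDivisors L F]
variable {F₁ F₂ : Type*} [Field F₁] [Field F₂]
variable [Algebra (IsLocalRing.ResidueField A) F₁] [Algebra (IsLocalRing.ResidueField A) F₂]
variable [HasPrincipalDivisors (IsLocalRing.ResidueField A) F₁]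
  [HasPrincipalDivisors (IsLocalRing.ResidueField A) F₂]

local notation "k" => IsLocalRing.ResidueField A

/-- a nodally non-special effective pair: the nodal space is spanned by `(1, 1)` -/
theorem nodal_eq_span_one_of_ell_eq_one (D : NRedDatum A F F₁ F₂) {E₁ : Divisor k F₁}
    {E₂ : Divisor k F₂} (hE₁ : 0 ≤ E₁) (hE₂ : 0 ≤ E₂) (h : D.ell E₁ E₂ = 1) :
    D.nodal E₁ E₂ = Submodule.span k {((1 : F₁), (1 : F₂))} := by
  have h11 : ((1 : F₁), (1 : F₂)) = cpair (1 : k) := by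
    unfold cpair
    rw [map_one, map_one]
  apply le_antisymm
  · intro φ hφ
    obtain ⟨a, rfl⟩ := nonSpecial_of_ell_eq_one hE₁ hE₂ h φ hφ
    rw [Submodule.mem_span_singleton]
    exact ⟨a, by rw [h11, smul_cpair_one]⟩
  · rw [Submodule.span_le, Set.singleton_subset_iff, h11]
    exact cpair_mem_nodal D hE₁ hE₂ 1

/-- a residue divisor from its two parts -/
theorem RDiv.fst_sumElim (C₁ : Divisor k F₁) (C₂ : Divisor k F₂) :
    RDiv.fst (A := A) (Finsupp.sumElim C₁ C₂) = C₁ := by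
  ext Q
  rw [RDiv.fst_apply, Finsupp.sumElim_inl]

theorem RDiv.snd_sumElim (C₁ : Divisor k F₁) (C₂ : Divisor k F₂) :
    RDiv.snd (A := A) (Finsupp.sumElim C₁ C₂) = C₂ := by
  ext Q
  rw [RDiv.snd_apply, Finsupp.sumElim_inr]

variable {D : NRedDatum A F F₁ F₂}

/-- a non-node point is good -/
theorem good_inl (D : NRedDatum A F F₁ F₂) {Q : Place k F₁} (hQ : ∀ c, Q ≠ D.nod.x₁ c) :
    D.Good (Sum.inl Q) := D.r_surj₁ Q hQ

theorem good_inr (D : NRedDatum A F F₁ F₂) {Q : Place k F₂} (hQ : ∀ c, Q ≠ D.nod.x₂ c) :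
    D.Good (Sum.inr Q) := D.r_surj₂ Q hQ

/-- the parts of a residue divisor supported on good points vanish at the node points -/
theorem fst_apply_x₁_of_good {E : RDiv A F₁ F₂} (hE : ∀ q, E q ≠ 0 → D.Good q) (c : Fin D.nod.s) :
    RDiv.fst E (D.nod.x₁ c) = 0 := by
  by_contra h
  obtain ⟨P, hP⟩ := hE _ h
  exact D.r_ne_x₁ P _ hP c rfl

theorem snd_apply_x₂_of_good {E : RDiv A F₁ F₂} (hE : ∀ q, E q ≠ 0 → D.Good q) (c : Fin D.nod.s) :
    RDiv.snd E (D.nod.x₂ c) = 0 := by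
  by_contra h
  obtain ⟨P, hP⟩ := hE _ h
  exact D.r_ne_x₂ P _ hP c rfl

section Centres

variable {g g₁ g₂ : ℕ} (C : NodalCtx D.nod g g₁ g₂)
include C

/-- **the third row**: `g` distinct good points away from a finite set, `g₁` on the first component
and `g₂ + s - 1` on the second, whose sum is nodally non-special -/
theorem exists_centres (hg : g + 1 = g₁ + g₂ + D.nod.s) (T : Finset (Pt A F₁ F₂)) :
    ∃ Qc : Fin g → Pt A F₁ F₂, Function.Injective Qc ∧ (∀ j, Qc j ∉ T) ∧ (∀ j, D.Good (Qc j)) ∧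
      D.ellR (∑ j, ptR (Qc j)) = 1 ∧
      Divisor.degree (RDiv.fst (∑ j, ptR (Qc j))) = g₁ ∧
      Divisor.degree (RDiv.snd (∑ j, ptR (Qc j))) = (g₂ : ℤ) + D.nod.s - 1 := by
  classical
  have hs := C.s_pos
  obtain ⟨Q₁, Q₂, hQ₁inj, hQ₂inj, hQ₁T, hQ₁x, hQ₂T, hQ₂x, hns⟩ :=
    exists_nodal_nonspecial_swap C.hF₁ C.hF₂ D.nod.x₁ D.nod.x₂ C.x₂_injective hs T.toLeft T.toRight
  have hcast : g = g₁ + (g₂ + D.nod.s - 1) := by omega
  obtain ⟨e, -⟩ : ∃ e : Fin g ≃ Fin g₁ ⊕ Fin (g₂ + D.nod.s - 1), True :=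
    ⟨(finCongr hcast).trans finSumFinEquiv.symm, trivial⟩
  obtain ⟨Qs, hQsdef⟩ : ∃ Qs : Fin g₁ ⊕ Fin (g₂ + D.nod.s - 1) → Pt A F₁ F₂,
      Qs = Sum.elim (fun i => Sum.inl (Q₁ i)) (fun j => Sum.inr (Q₂ j)) := ⟨_, rfl⟩
  have hQsinj : Function.Injective Qs := by
    rw [hQsdef]
    exact Function.Injective.sumElim (fun i j h => hQ₁inj (Sum.inl_injective h))
      (fun i j h => hQ₂inj (Sum.inr_injective h)) (fun i j h => Sum.inl_ne_inr h)
  have hsum : (∑ j, ptR (Qs (e j)) : RDiv A F₁ F₂) =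
      ∑ i, ptR (Sum.inl (Q₁ i)) + ∑ j, ptR (Sum.inr (Q₂ j)) := by
    rw [Equiv.sum_comp e (fun x => (ptR (Qs x) : RDiv A F₁ F₂)), Fintype.sum_sum_type, hQsdef]
    rfl
  have hfst : RDiv.fst (∑ j, ptR (Qs (e j)) : RDiv A F₁ F₂) = ∑ i, pt (Q₁ i) := by
    rw [hsum, map_add, map_sum, map_sum]
    simp only [RDiv.fst_single_inl, RDiv.fst_single_inr, Finset.sum_const_zero, add_zero]
  have hsnd : RDiv.snd (∑ j, ptR (Qs (e j)) : RDiv A F₁ F₂) = ∑ j, pt (Q₂ j) := by
    rw [hsum, map_add, map_sum, map_sum]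
    simp only [RDiv.snd_single_inl, RDiv.snd_single_inr, Finset.sum_const_zero, zero_add]
  refine ⟨fun j => Qs (e j), hQsinj.comp e.injective, fun j => ?_, fun j => ?_, ?_, ?_, ?_⟩
  · show Qs (e j) ∉ T
    rw [hQsdef]
    cases e j with
    | inl i => exact fun h => hQ₁T i (Finset.mem_toLeft.2 h)
    | inr i => exact fun h => hQ₂T i (Finset.mem_toRight.2 h)
  · show D.Good (Qs (e j))
    rw [hQsdef]
    cases e j with
    | inl i => exact good_inl D (hQ₁x i)
    | inr i => exact good_inr D (hQ₂x i)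
  · show D.ell (RDiv.fst (∑ j, ptR (Qs (e j)))) (RDiv.snd (∑ j, ptR (Qs (e j)))) = 1
    rw [hfst, hsnd]
    exact ell_eq_one_of_nonSpecial (Fermat.Agent.S19lib.B.sum_pt_nonneg _)
      (Fermat.Agent.S19lib.B.sum_pt_nonneg _) hns
  · rw [hfst, Fermat.Agent.S19lib.B.degree_sum_pt_fin C.hF₁, Fintype.card_fin]
  · rw [hsnd, Fermat.Agent.S19lib.B.degree_sum_pt_fin C.hF₂, Fintype.card_fin]
    push_cast [Nat.cast_sub (show 1 ≤ g₂ + D.nod.s by omega)]
    ring

/-- the bidegree of a nodally non-special effective residue divisor of total degree `g` supported on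
good points -/
theorem degree_ge_of_ellR_eq_one (hg : g + 1 = g₁ + g₂ + D.nod.s) {E : RDiv A F₁ F₂} (hE : 0 ≤ E)
    (hgood : ∀ q, E q ≠ 0 → D.Good q) (hell : D.ellR E = 1)
    (hdeg : Divisor.degree (RDiv.fst E) + Divisor.degree (RDiv.snd E) = g) :
    (g₁ : ℤ) ≤ Divisor.degree (RDiv.fst E) ∧ (g₂ : ℤ) ≤ Divisor.degree (RDiv.snd E) := by
  have h₁ : 0 ≤ RDiv.fst E := by
    rw [Finsupp.le_def]; intro Q; exact Finsupp.le_def.1 hE (Sum.inl Q)
  have h₂ : 0 ≤ RDiv.snd E := by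
    rw [Finsupp.le_def]; intro Q; exact Finsupp.le_def.1 hE (Sum.inr Q)
  have hns : NonSpecial D (RDiv.fst E) (RDiv.snd E) := nonSpecial_of_ell_eq_one h₁ h₂ hell
  have hd₁ := degree_fst_le_of_nonspecial C.hF₁ C.x₁_injective (fst_apply_x₁_of_good hgood) hns
  have hd₂ := degree_snd_le_of_nonspecial C.hF₂ C.x₂_injective (snd_apply_x₂_of_good hgood) hns
  have hg' : (g : ℤ) + 1 = g₁ + g₂ + D.nod.s := by exact_mod_cast hg
  constructor <;> omega

end Centres

/-! ### the exports of `NB/Lift` used here -/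

/-- the three exports of `NB/Lift` used in the construction of configurations: frames away from a
finite set, fixed lifts of good points, fixed charts at fixed places -/
structure LiftExports {G : Type*} [Group G] (D : NRedDatum A F F₁ F₂) (S : NSym D G) : Prop where
  frame_avoiding : ∀ T : Finset (Pt A F₁ F₂), ∃ Y : NFrame S, ∀ q ∈ T, D.push Y.Y q = 0
  fixed_lift : ∀ q : Pt A F₁ F₂, D.Good q → ∃ P : Place L F, D.r P = some q ∧ S.FixP P
  chart_at : ∀ {P : Place L F} {q : Pt A F₁ F₂}, S.FixP P → D.r P = some q →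
    ∃ c : NChart D q, c.P0 = P ∧ S.FixF c.t

/-! ### existence of configurations -/

section Exists

variable {G : Type*} [Group G] {S : NSym D G} {g g₁ g₂ : ℕ}

/-- the reduced base divisor of a family is effective and supported on good points -/
theorem NFam_Eb_nonneg (a : NFam D S g) : 0 ≤ a.Eb :=
  Finset.sum_nonneg fun _ _ => Finsupp.single_nonneg.2 zero_le_one

theorem NFam_Eb_good (a : NFam D S g) (q : Pt A F₁ F₂) (hq : a.Eb q ≠ 0) : D.Good q := by
  classical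
  rw [NFam.Eb, sum_single_apply_of_injective a.Qb a.inj q] at hq
  split_ifs at hq with h
  · obtain ⟨i, rfl⟩ := h
    exact ⟨(a.ch i).P0, (a.ch i).r_P0⟩
  · exact absurd rfl hq

/-- the bidegree of the base divisor of an admissible family -/
theorem NFam_bidegree (C : NodalCtx D.nod g g₁ g₂) (hg : g + 1 = g₁ + g₂ + D.nod.s)
    (a : NFam D S g) :
    (g₁ : ℤ) ≤ Divisor.degree (D.push₁ a.E) ∧ (g₂ : ℤ) ≤ Divisor.degree (D.push₂ a.E) := by
  have h := degree_ge_of_ellR_eq_one C hg (NFam_Eb_nonneg a) (NFam_Eb_good a) a.nonspecial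
    (by rw [a.fst_Eb, a.snd_Eb, degree_push D a.smoothSupp_E, a.degree_E])
  rwa [a.fst_Eb, a.snd_Eb] at h

/-- **existence of configurations** (relative to the exports of `NB/Lift`): two disjoint admissible
families are completed by a third one, away from any finite set, to a configuration -/
theorem exists_nTri_of (C : NLiftCtx D S g g₁ g₂) (X : LiftExports D S) (a b : NFam D S g)
    (_hab : a.Disjoint b) (T : Finset (Pt A F₁ F₂)) :
    ∃ c : NFam D S g, a.Disjoint c ∧ b.Disjoint c ∧ c.Avoids T ∧ Nonempty (NTri a b c) := by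
  classical
  have hF := C.curve
  have hF₁ := C.curve₁
  have hF₂ := C.curve₂
  have := C.infinite_k
  -- the frame, away from the discs of `a` and `b`
  obtain ⟨Y, hY⟩ := X.frame_avoiding (Finset.univ.image a.Qb ∪ Finset.univ.image b.Qb)
  have hYa : ∀ i, D.push Y.Y (a.Qb i) = 0 := fun i =>
    hY _ (Finset.mem_union_left _ (Finset.mem_image.2 ⟨i, Finset.mem_univ i, rfl⟩))
  have hYb : ∀ i, D.push Y.Y (b.Qb i) = 0 := fun i =>
    hY _ (Finset.mem_union_right _ (Finset.mem_image.2 ⟨i, Finset.mem_univ i, rfl⟩))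
  have hdY₁ : 0 < Divisor.degree (D.push₁ Y.Y) := by rw [← D.fst_push]; exact Y.deg_pos₁
  have hdY₂ : 0 < Divisor.degree (D.push₂ Y.Y) := by rw [← D.snd_push]; exact Y.deg_pos₂
  -- the genus formula, from a stable multiple of the frame
  have hg : g + 1 = g₁ + g₂ + D.nod.s := by
    obtain ⟨m, hm⟩ : ∃ m : ℕ, m = 2 * g₁ + 2 * g₂ + D.nod.s + 1 := ⟨_, rfl⟩
    refine genus_eq_of_stable D C.ctx (SmoothSupp.zsmul D Y.smooth (m : ℤ)) ?_ ?_
    · rw [map_zsmul, map_zsmul, smul_eq_mul, hm]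
      push_cast
      nlinarith
    · rw [map_zsmul, map_zsmul, smul_eq_mul, hm]
      push_cast
      nlinarith
  have hg' : (g : ℤ) + 1 = g₁ + g₂ + D.nod.s := by exact_mod_cast hg
  have hbia := NFam_bidegree C.ctx hg a
  have hbib := NFam_bidegree C.ctx hg b
  -- the third row
  obtain ⟨Qc, hQcinj, hQcS, hQcgood, hQc, hQcd₁, hQcd₂⟩ := exists_centres C.ctx hg
    (T ∪ Finset.univ.image a.Qb ∪ Finset.univ.image b.Qb ∪ (D.push Y.Y).support)
  obtain ⟨Ecb, hEcbdef⟩ : ∃ Ecb : RDiv A F₁ F₂, Ecb = ∑ j, ptR (Qc j) := ⟨_, rfl⟩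
  rw [← hEcbdef] at hQc hQcd₁ hQcd₂
  have hQcT : ∀ j, Qc j ∉ T := fun j h =>
    hQcS j (Finset.mem_union_left _ (Finset.mem_union_left _ (Finset.mem_union_left _ h)))
  have hQca : ∀ i j, a.Qb i ≠ Qc j := fun i j h =>
    hQcS j (Finset.mem_union_left _ (Finset.mem_union_left _ (Finset.mem_union_right _
      (Finset.mem_image.2 ⟨i, Finset.mem_univ i, h⟩))))
  have hQcb : ∀ i j, b.Qb i ≠ Qc j := fun i j h =>
    hQcS j (Finset.mem_union_left _ (Finset.mem_union_right _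
      (Finset.mem_image.2 ⟨i, Finset.mem_univ i, h⟩)))
  have hQcY : ∀ j, D.push Y.Y (Qc j) = 0 := fun j =>
    Finsupp.notMem_support_iff.1 fun h => hQcS j (Finset.mem_union_right _ h)
  have hEcb0 : 0 ≤ Ecb := by
    rw [hEcbdef]
    exact Finset.sum_nonneg fun i _ => Finsupp.single_nonneg.2 zero_le_one
  have hEcbgood : ∀ q, Ecb q ≠ 0 → D.Good q := by
    intro q hq
    rw [hEcbdef, sum_single_apply_of_injective Qc hQcinj q] at hq
    split_ifs at hq with h
    · obtain ⟨j, rfl⟩ := h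
      exact hQcgood j
    · exact absurd rfl hq
  -- the residue configuration
  obtain ⟨U, hUdef⟩ : ∃ U : Finset (Pt A F₁ F₂),
      U = Finset.univ.image a.Qb ∪ Finset.univ.image b.Qb ∪ Finset.univ.image Qc := ⟨_, rfl⟩
  have hUa : ∀ i, a.Qb i ∈ U := fun i => by
    rw [hUdef]
    exact Finset.mem_union_left _ (Finset.mem_union_left _
      (Finset.mem_image.2 ⟨i, Finset.mem_univ i, rfl⟩))
  have hUb : ∀ i, b.Qb i ∈ U := fun i => by
    rw [hUdef]
    exact Finset.mem_union_left _ (Finset.mem_union_right _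
      (Finset.mem_image.2 ⟨i, Finset.mem_univ i, rfl⟩))
  have hUc : ∀ j, Qc j ∈ U := fun j => by
    rw [hUdef]
    exact Finset.mem_union_right _ (Finset.mem_image.2 ⟨j, Finset.mem_univ j, rfl⟩)
  obtain ⟨n, C₁, C₂, σ, hunit, hC₁0, hC₂0, hC₁S, hC₂S, hC₁x, hC₂x, hord₁, hord₂, hdeg₁, hdeg₂,
      hrr_ab, hrr_bc, hrr_ca⟩ :=
    exists_nodal_residue_tri_gen hF₁ hF₂ C.ctx.x₁_injective C.ctx.x₂_injective
      (D.push₁ Y.Y) (D.push₂ Y.Y) hdY₁ hdY₂ (push₁_apply_x₁ D Y.Y) (push₂_apply_x₂ D Y.Y)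
      (Ea₁ := D.push₁ a.E) (Eb₁ := D.push₁ b.E) (Ec₁ := RDiv.fst Ecb)
      (Ea₂ := D.push₂ a.E) (Eb₂ := D.push₂ b.E) (Ec₂ := RDiv.snd Ecb)
      (push₁_apply_x₁ D a.E) (push₁_apply_x₁ D b.E) (fst_apply_x₁_of_good hEcbgood)
      (push₂_apply_x₂ D a.E) (push₂_apply_x₂ D b.E) (snd_apply_x₂_of_good hEcbgood)
      (nodal_eq_span_one_of_ell_eq_one D (pushO_nonneg _ a.E_nonneg) (pushO_nonneg _ a.E_nonneg)
        a.ell_push_E)
      (nodal_eq_span_one_of_ell_eq_one D (pushO_nonneg _ b.E_nonneg) (pushO_nonneg _ b.E_nonneg)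
        b.ell_push_E)
      (nodal_eq_span_one_of_ell_eq_one D
        (by rw [Finsupp.le_def]; intro Q; exact Finsupp.le_def.1 hEcb0 (Sum.inl Q))
        (by rw [Finsupp.le_def]; intro Q; exact Finsupp.le_def.1 hEcb0 (Sum.inr Q))
        hQc)
      U.toLeft U.toRight
  -- the residue divisor `C̄`
  obtain ⟨Cb, hCbdef⟩ : ∃ Cb : RDiv A F₁ F₂, Cb = Finsupp.sumElim C₁ C₂ := ⟨_, rfl⟩
  have hCbfst : RDiv.fst Cb = C₁ := by rw [hCbdef]; exact RDiv.fst_sumElim C₁ C₂
  have hCbsnd : RDiv.snd Cb = C₂ := by rw [hCbdef]; exact RDiv.snd_sumElim C₁ C₂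
  have hCb0 : 0 ≤ Cb := by
    rw [Finsupp.le_def]
    rintro (Q | Q)
    · rw [hCbdef, Finsupp.sumElim_inl]; exact Finsupp.le_def.1 hC₁0 Q
    · rw [hCbdef, Finsupp.sumElim_inr]; exact Finsupp.le_def.1 hC₂0 Q
  have hCbU : ∀ q ∈ U, Cb q = 0 := by
    rintro (Q | Q) hq
    · rw [hCbdef, Finsupp.sumElim_inl]; exact hC₁S Q (Finset.mem_toLeft.2 hq)
    · rw [hCbdef, Finsupp.sumElim_inr]; exact hC₂S Q (Finset.mem_toRight.2 hq)
  have hCbgood : ∀ q, Cb q ≠ 0 → D.Good q := by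
    rintro (Q | Q) hq
    · rw [hCbdef, Finsupp.sumElim_inl] at hq
      exact good_inl D fun c hc => hq (by rw [hc]; exact hC₁x c)
    · rw [hCbdef, Finsupp.sumElim_inr] at hq
      exact good_inr D fun c hc => hq (by rw [hc]; exact hC₂x c)
  -- fixed lift of `C̄`
  obtain ⟨P₀⟩ : Nonempty (Place L F) := by
    have := hF.infinite_places
    infer_instance
  have hex : ∀ q : Pt A F₁ F₂, ∃ P : Place L F, D.Good q → (D.r P = some q ∧ S.FixP P) := by
    intro q
    by_cases h : D.Good q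
    · obtain ⟨P, hP⟩ := X.fixed_lift q h
      exact ⟨P, fun _ => hP⟩
    · exact ⟨P₀, fun h' => absurd h' h⟩
  choose lift hlift using hex
  obtain ⟨Cd, hCddef⟩ : ∃ Cd : Divisor L F, Cd = Finsupp.mapDomain lift Cb := ⟨_, rfl⟩
  have hCd0 : 0 ≤ Cd := by rw [hCddef]; exact Finsupp.mapDomain_nonneg hCb0
  have hCdpush : D.push Cd = Cb := by
    rw [hCddef]
    exact pushO_mapDomain_of_section D.r lift Cb fun q hq => (hlift q (hCbgood q hq)).1
  have hCdsm : D.SmoothSupp Cd := by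
    intro P hP
    rw [hCddef] at hP
    obtain ⟨q, hq, rfl⟩ := exists_of_mapDomain_apply_ne_zero lift Cb hP
    rw [(hlift q (hCbgood q hq)).1]
    exact Option.some_ne_none q
  have hCdfix : S.FixD Cd := fun γ => by
    rw [hCddef, SemilinearAut.divisor_smul_def, ← Finsupp.mapDomain_comp]
    exact Finsupp.mapDomain_congr fun q hq =>
      (hlift q (hCbgood q (Finsupp.mem_support_iff.1 hq))).2 γ
  -- the divisor `B`
  obtain ⟨Bd, hBddef⟩ : ∃ Bd : Divisor L F, Bd = (n : ℤ) • Y.Y - Cd := ⟨_, rfl⟩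
  have hBdfix : S.FixD Bd := by
    rw [hBddef]; exact fixD_sub S.toIAct (fixD_zsmul S.toIAct Y.fixD n) hCdfix
  have hBdsm : D.SmoothSupp Bd := by
    rw [hBddef]; exact (SmoothSupp.zsmul D Y.smooth (n : ℤ)).sub hCdsm
  have hBdpush : D.push Bd = (n : ℤ) • D.push Y.Y - Cb := by
    rw [hBddef, map_sub, map_zsmul, hCdpush]
  have hBd₁ : D.push₁ Bd = (n : ℤ) • D.push₁ Y.Y - C₁ := by
    rw [← D.fst_push, hBdpush, map_sub, map_zsmul, D.fst_push, hCbfst]
  have hBd₂ : D.push₂ Bd = (n : ℤ) • D.push₂ Y.Y - C₂ := by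
    rw [← D.snd_push, hBdpush, map_sub, map_zsmul, D.snd_push, hCbsnd]
  have hBd0 : ∀ (P : Place L F) (q : Pt A F₁ F₂), D.r P = some q → D.push Y.Y q = 0 →
      Cb q = 0 → Bd P = 0 := by
    intro P q hP h1 h2
    have hy : Y.Y P = 0 := apply_eq_zero_of_pushO_apply_eq_zero D.r Y.nonneg hP h1
    have hc : Cd P = 0 := apply_eq_zero_of_pushO_apply_eq_zero D.r hCd0 hP
      (by rw [← hCdpush] at h2; exact h2)
    rw [hBddef, Finsupp.sub_apply, Finsupp.smul_apply, hy, hc, smul_zero, sub_zero]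
  have hdega : Divisor.degree (D.push₁ a.E) + Divisor.degree (D.push₂ a.E) = g := by
    rw [degree_push D a.smoothSupp_E, a.degree_E]
  have hdegb : Divisor.degree (D.push₁ b.E) + Divisor.degree (D.push₂ b.E) = g := by
    rw [degree_push D b.smoothSupp_E, b.degree_E]
  have hdegBd : Divisor.degree Bd = 3 * g := by
    rw [← degree_push D hBdsm, hBd₁, hBd₂, hdeg₁, hdeg₂]
    simp only [map_add]
    rw [hQcd₁, hQcd₂]
    linarith
  -- the section `s₀`
  obtain ⟨E1, hE1def⟩ : ∃ E1 : Divisor L F, E1 = Bd - a.E - b.E := ⟨_, rfl⟩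
  have hE1fix : S.FixD E1 := by
    rw [hE1def]; exact fixD_sub S.toIAct (fixD_sub S.toIAct hBdfix a.fixD_E) b.fixD_E
  have hE1sm : D.SmoothSupp E1 := by
    rw [hE1def]; exact (hBdsm.sub a.smoothSupp_E).sub b.smoothSupp_E
  have hE1₁ : D.push₁ E1 = (n : ℤ) • D.push₁ Y.Y - C₁ - D.push₁ a.E - D.push₁ b.E := by
    rw [hE1def, map_sub, map_sub, hBd₁]
  have hE1₂ : D.push₂ E1 = (n : ℤ) • D.push₂ Y.Y - C₂ - D.push₂ a.E - D.push₂ b.E := by
    rw [hE1def, map_sub, map_sub, hBd₂]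
  have hσ0 : σ ≠ 0 := fun h => hunit.ne₁ (by rw [h]; rfl)
  have hrr1 : D.nodal (D.push₁ E1) (D.push₂ E1) = Submodule.span k {σ} := by
    rw [hE1₁, hE1₂]; exact hrr_ab
  have hell1 : D.ell (D.push₁ E1) (D.push₂ E1) = 1 := by
    unfold NRedDatum.ell
    rw [hrr1, finrank_span_singleton hσ0]
  have hdegE1 : Divisor.degree E1 = g := by
    rw [hE1def, map_sub, map_sub, hdegBd, a.degree_E, b.degree_E]; ring
  have hell1' : 1 ≤ ell E1 := by
    have := hF.riemann_le E1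
    rw [hdegE1] at this
    rw [ell_def]
    omega
  obtain ⟨s0, hs0E, hs0O₁, hs0O₂, hs0fix, hs0red⟩ := exists_fixed_lift_of_ell_le C hE1fix hE1sm
    (by rw [hell1]; exact hell1') (φ := σ)
    (by rw [hrr1]; exact Submodule.mem_span_singleton_self σ)
  have hred₁ : D.nod.V₁.redF s0 = σ.1 := congrArg Prod.fst hs0red
  have hred₂ : D.nod.V₂.redF s0 = σ.2 := congrArg Prod.snd hs0red
  have hne₁ : D.nod.V₁.redF s0 ≠ 0 := by rw [hred₁]; exact hunit.ne₁
  have hne₂ : D.nod.V₂.redF s0 ≠ 0 := by rw [hred₂]; exact hunit.ne₂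
  have hs00 : s0 ≠ 0 := by
    rintro rfl
    exact hne₁ D.nod.V₁.redF_zero
  -- the divisor `E_c` of the residual zeros
  obtain ⟨Ecd, hEcddef⟩ : ∃ Ecd : Divisor L F, Ecd = divOf (K := L) s0 + E1 := ⟨_, rfl⟩
  have hEcd0 : 0 ≤ Ecd := by
    rw [hEcddef]
    exact ((mem_riemannRochSpace_iff_divOf (K := L)).1 hs0E).resolve_left hs00
  have hEcd₁ : D.push₁ Ecd = RDiv.fst Ecb := by
    rw [hEcddef, map_add, push₁_divOf_eq D hne₁ (by intro c; rw [hred₁]; exact hunit.ord₁ c),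
      hred₁, hE1₁]
    ext v
    have := hord₁ v
    simp only [Finsupp.add_apply, Finsupp.sub_apply] at this ⊢
    rw [divOf_apply hunit.ne₁]
    linarith
  have hEcd₂ : D.push₂ Ecd = RDiv.snd Ecb := by
    rw [hEcddef, map_add, push₂_divOf_eq D hne₂ (by intro c; rw [hred₂]; exact hunit.ord₂ c),
      hred₂, hE1₂]
    ext v
    have := hord₂ v
    simp only [Finsupp.add_apply, Finsupp.sub_apply] at this ⊢
    rw [divOf_apply hunit.ne₂]
    linarith
  have hdegEcd : Divisor.degree Ecd = g := by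
    rw [hEcddef, map_add, degree_divOf, zero_add, hdegE1]
  have hEcdsm : D.SmoothSupp Ecd := by
    apply smoothSupp_of_degree_push_eq D (fun P => by rw [hF.deg_eq_one P]; exact one_pos) hEcd0
    rw [hEcd₁, hEcd₂, hQcd₁, hQcd₂, hdegEcd]
    linarith
  have hEcdpush : D.push Ecd = ∑ j, Finsupp.single (Qc j) (1 : ℤ) := by
    rw [← hEcbdef]
    exact RDiv.ext' (by rw [D.fst_push, hEcd₁]) (by rw [D.snd_push, hEcd₂])
  obtain ⟨Pc, hPc, hEcdP⟩ :=
    exists_points_of_pushO_eq_sum_pt D.r hEcd0 hEcdsm Qc hQcinj hEcdpush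
  have hPcinj : Function.Injective Pc := fun i j hij =>
    hQcinj (Option.some_injective _ (by rw [← hPc i, ← hPc j, hij]))
  have hEcdval : ∀ P : Place L F, Ecd P = if P ∈ Set.range Pc then 1 else 0 := by
    intro P
    rw [hEcdP]
    exact sum_single_apply_of_injective Pc hPcinj P
  -- the order of `s₀` on the discs of the third row
  have hord0 : ∀ (P : Place L F) (j : Fin g), D.r P = some (Qc j) → P.ord s0 = Ecd P := by
    intro P j hP
    have h1 : Bd P = 0 := hBd0 P (Qc j) hP (hQcY j) (hCbU _ (hUc j))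
    have h2 : a.E P = 0 := a.E_apply_eq_zero fun i h =>
      hQca i j (Option.some_injective _ (by rw [← h, hP])).symm
    have h3 : b.E P = 0 := b.E_apply_eq_zero fun i h =>
      hQcb i j (Option.some_injective _ (by rw [← h, hP])).symm
    rw [hEcddef, Finsupp.add_apply, divOf_apply hs00, hE1def, Finsupp.sub_apply,
      Finsupp.sub_apply, h1, h2, h3]
    ring
  have hPcfix : ∀ j, S.FixP (Pc j) := fun j =>
    fixP_of_unique_zero_nodal S hs0fix (hPc j)
      (by rw [hord0 _ j (hPc j), hEcdval, if_pos ⟨j, rfl⟩]; exact one_pos)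
      (fun P' hP' hpos => by
        rw [hord0 P' j hP', hEcdval] at hpos
        split_ifs at hpos with hmem
        · obtain ⟨j', rfl⟩ := hmem
          have : Qc j' = Qc j := Option.some_injective _ (by rw [← hPc j', hP'])
          rw [hQcinj this]
        · exact absurd hpos (lt_irrefl 0))
  -- the third family
  choose ch hch0 hchfix using fun j => X.chart_at (hPcfix j) (hPc j)
  obtain ⟨c, hcQ, hcP0⟩ : ∃ c : NFam D S g, c.Qb = Qc ∧ ∀ j, (c.ch j).P0 = Pc j :=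
    ⟨{ Qb := Qc
       ch := ch
       inj := hQcinj
       fixT := hchfix
       fixP := fun j => by rw [hch0 j]; exact hPcfix j
       nonspecial := by rw [← hEcbdef]; exact hQc
       deg_one := hF.deg_eq_one }, rfl, hch0⟩
  have hcE : c.E = Ecd := by
    rw [NFam.E, hEcdP]
    exact Finset.sum_congr rfl fun j _ => by rw [hcP0 j]
  have hcEb : c.Eb = Ecb := by rw [NFam.Eb, hcQ, hEcbdef]
  -- the fixed orthonormal basis
  have hfr : finrank L (riemannRochSpace Bd) = 2 * g + 1 := by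
    have := hF.riemann_eq Bd (by rw [hdegBd]; linarith)
    rw [hdegBd] at this
    omega
  have hst₁ : 2 * (g₁ : ℤ) - 2 < Divisor.degree (D.push₁ Bd) := by
    rw [hBd₁, hdeg₁]
    simp only [map_add]
    rw [hQcd₁]
    linarith [hbia.1, hbib.1]
  have hst₂ : 2 * (g₂ : ℤ) - 2 + D.nod.s < Divisor.degree (D.push₂ Bd) := by
    rw [hBd₂, hdeg₂]
    simp only [map_add]
    rw [hQcd₂]
    linarith [hbia.2, hbib.2]
  obtain ⟨e, heB, heorth, hefix, hespan, hebspan⟩ :=
    exists_fixed_orthonormal_basis_rr C hBdfix hBdsm hst₁ hst₂ hfr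
  have hRR : ∀ X₁ X₂ : RDiv A F₁ F₂, D.RR (D.push Bd - X₁ - X₂) =
      D.nodal ((n : ℤ) • D.push₁ Y.Y - C₁ - RDiv.fst X₁ - RDiv.fst X₂)
        ((n : ℤ) • D.push₂ Y.Y - C₂ - RDiv.snd X₁ - RDiv.snd X₂) := by
    intro X₁ X₂
    rw [NRedDatum.RR, map_sub, map_sub, map_sub, map_sub, D.fst_push, D.snd_push, hBd₁, hBd₂]
  refine ⟨c, fun i j => by rw [hcQ]; exact hQca i j, fun i j => by rw [hcQ]; exact hQcb i j,
    fun j => by rw [hcQ]; exact hQcT j, ⟨{
      Bd := Bd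
      B_fix := hBdfix
      B_smooth := hBdsm
      B_disc_a := fun P i hP => hBd0 P _ hP (hYa i) (hCbU _ (hUa i))
      B_disc_b := fun P i hP => hBd0 P _ hP (hYb i) (hCbU _ (hUb i))
      B_disc_c := fun P i hP => by
        rw [hcQ] at hP
        exact hBd0 P _ hP (hQcY i) (hCbU _ (hUc i))
      deg_B := hdegBd
      s0 := s0
      s0_mem₁ := hs0O₁
      s0_mem₂ := hs0O₂
      s0_fix := hs0fix
      red_s0_ne₁ := hne₁
      red_s0_ne₂ := hne₂
      ord_s0 := fun P => by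
        rw [hcE, hEcddef, hE1def]
        simp only [Finsupp.add_apply, Finsupp.sub_apply]
        rw [divOf_apply hs00]
        ring
      e := e
      e_mem := heB
      e_orth := heorth
      e_fix := hefix
      e_span := hespan
      eb_span := by rw [D.RR_push]; exact hebspan
      rr_ab := by
        rw [hRR, a.fst_Eb, a.snd_Eb, b.fst_Eb, b.snd_Eb, hs0red]
        exact hrr_ab
      rr_bc := by
        rw [hRR, b.fst_Eb, b.snd_Eb, hcEb, hs0red]
        exact hrr_bc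
      rr_ca := by
        rw [hRR, hcEb, a.fst_Eb, a.snd_Eb, hs0red]
        exact hrr_ca }⟩⟩

end Exists

end Fermat.Agent.S33lib.NB

end
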